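import Fermat.Agent.ECLocal.OverQ

/-!
# The local theory of elliptic curves at a place: inertia on torsion points

This module collects the library:
* `Defs`: `IntegralAt`, `GoodAt`, `MultAt`, `InKernel` (`E₁`), `NonsingRed` (`E₀`), `redPoint`;
* `Kernel`: `E₁` is a subgroup without torsion of order invertible in the residue field;
* `Reduction`: `E₀` is a subgroup and reduction is additive on it;
* `Inertia`, `Multiplicative`: inertia on torsion, good and multiplicative reduction;
* `OverQ`: the same over `ℚ̄` for integral models over `ℤ`.
-/
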