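import Fermat.Agent.ECLocal.Multiplicative

/-!
# The decomposition group at a place of multiplicative reduction

For `σ` in the decomposition group there is a sign `z = ±1` (equal to `1` on inertia) with
`vcMap (σ P) = z • σ (vcMap P)`, where `vcMap` is the change of variables to the normal form;
hence `σ P - z P ∈ E₀` for every point `P`.
-/

set_option autoImplicit false

universe r s v

namespace Fermat.Agent.ECLocal

open WeierstrassCurve
open scoped WeierstrassCurve.Affine

section RingPoint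

variable {K : Type v} [Field K] {V : WeierstrassCurve K}

theorem nonsingular_of_map_eq (τ : K →+* K) (h : V.map τ = V) {x y : K}
    (hxy : V.toAffine.Nonsingular x y) : V.toAffine.Nonsingular (τ x) (τ y) := by
  have h' := (V.toAffine.map_nonsingular (f := τ) τ.injective x y).2 hxy
  rwa [show V.toAffine.map τ = V.toAffine from h] at h' 

/-- A ring endomorphism fixing the coefficients, acting coordinatewise on points. -/
def ringPointFun (τ : K →+* K) (h : V.map τ = V) : V.toAffine.Point → V.toAffine.Point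
  | .zero => .zero
  | .some x y hxy => .some (τ x) (τ y) (nonsingular_of_map_eq τ h hxy)

variable [DecidableEq K]

/-- `ringPointFun` as a homomorphism. -/
def ringPoint (τ : K →+* K) (h : V.map τ = V) : V.toAffine.Point →+ V.toAffine.Point where
  toFun := ringPointFun τ h
  map_zero' := rfl
  map_add' P Q := by
    have hV : V.toAffine = (V.toAffine.map τ) := h.symm
    have eN : ∀ x y : K, V.toAffine.negY (τ x) (τ y) = τ (V.toAffine.negY x y) := by
      intro x y; conv_lhs => rw [hV]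
      exact Affine.map_negY τ x y
    have eS : ∀ x₁ x₂ y₁ y₂ : K, V.toAffine.slope (τ x₁) (τ x₂) (τ y₁) (τ y₂)
        = τ (V.toAffine.slope x₁ x₂ y₁ y₂) := by
      intro x₁ x₂ y₁ y₂; conv_lhs => rw [hV]
      exact Affine.map_slope τ x₁ x₂ y₁ y₂
    have eX : ∀ x₁ x₂ l : K, V.toAffine.addX (τ x₁) (τ x₂) (τ l)
        = τ (V.toAffine.addX x₁ x₂ l) := by
      intro x₁ x₂ l; conv_lhs => rw [hV]
      exact Affine.map_addX τ x₁ x₂ l
    have eY : ∀ x₁ x₂ y₁ l : K, V.toAffine.addY (τ x₁) (τ x₂) (τ y₁) (τ l)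
        = τ (V.toAffine.addY x₁ x₂ y₁ l) := by
      intro x₁ x₂ y₁ l; conv_lhs => rw [hV]
      exact Affine.map_addY τ x₁ y₁ x₂ l
    match P, Q with
    | .zero, Q =>
      rw [← Affine.Point.zero_def, zero_add]
      exact (zero_add _).symm
    | .some x₁ y₁ h₁, .zero =>
      rw [← Affine.Point.zero_def, add_zero]
      exact (add_zero _).symm
    | .some x₁ y₁ h₁, .some x₂ y₂ h₂ =>
      by_cases hxy : x₁ = x₂ ∧ y₁ = V.toAffine.negY x₂ y₂
      · obtain ⟨hx, hy⟩ := hxy
        rw [Affine.Point.add_of_Y_eq hx hy]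
        exact (Affine.Point.add_of_Y_eq (by rw [hx]) (by rw [eN, hy])).symm
      · have hxy' : ¬(τ x₁ = τ x₂ ∧ τ y₁ = V.toAffine.negY (τ x₂) (τ y₂)) := fun hh =>
          hxy ⟨τ.injective hh.1, τ.injective (hh.2.trans (eN x₂ y₂))⟩
        rw [Affine.Point.add_some hxy]
        simp only [ringPointFun]
        rw [Affine.Point.add_some hxy', Affine.Point.some.injEq, eS, eX, eY]
        exact ⟨rfl, rfl⟩

theorem ringPoint_some (τ : K →+* K) (h : V.map τ = V) {x y : K}
    (hxy : V.toAffine.Nonsingular x y) :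
    ringPoint τ h (.some x y hxy) = .some (τ x) (τ y) (nonsingular_of_map_eq τ h hxy) := rfl

theorem ringPoint_zero (τ : K →+* K) (h : V.map τ = V) : ringPoint τ h .zero = .zero := rfl

/-- In normal form, a valuation preserving endomorphism moves every point by an element of
`E₀`. -/
theorem TateForm.nonsingRed_ringPoint_sub {A : ValuationSubring K} (hT : TateForm A V)
    (τ : K →+* K) (h : V.map τ = V) (hv : ∀ z : K, A.valuation (τ z) = A.valuation z)
    (P : V.toAffine.Point) : NonsingRed A (ringPoint τ h P - P) := by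
  have hlab : ∀ (γ : A.ValueGroup) (Q : V.toAffine.Point),
      HasLabel A γ Q → HasLabel A γ (ringPoint τ h Q) := by
    intro γ Q hQ
    match Q, hQ with
    | .some x y hn, hQ =>
      obtain ⟨h1, h2, h3, h4⟩ := hQ
      rw [ringPoint_some]
      exact ⟨(hv x).trans_lt h1, (hv y).trans_lt h2, (hv y).trans h3,
        by rw [← map_add τ, hv]; exact h4⟩
  have hns : ∀ Q : V.toAffine.Point, NonsingRed A Q → NonsingRed A (ringPoint τ h Q) := by
    intro Q hQ
    match Q, hQ with
    | .zero, _ => exact trivial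
    | .some x y hn, hQ =>
      rw [ringPoint_some, hT.nonsingRed_iff, hv, hv]
      exact hT.nonsingRed_iff.1 hQ
  by_cases hP : NonsingRed A P
  · rw [sub_eq_add_neg]
    exact NonsingRed.add hT.integralAt (hns P hP) (NonsingRed.neg hT.integralAt hP)
  obtain ⟨γ, hγ | hγ⟩ := hT.exists_label hP
  · exact hT.nonsingRed_sub (hlab γ P hγ) hγ
  · have h' := hT.nonsingRed_sub hγ (hlab γ _ hγ)
    rwa [map_neg, neg_sub_neg] at h'

end RingPoint

variable {R : Type r} {S : Type s} {K : Type v} [CommRing R] [Field S] [Field K]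
  [DecidableEq K] [Algebra R S] [Algebra R K] [Algebra S K] [IsScalarTower R S K]
  {W' : WeierstrassCurve R} {A : ValuationSubring K} [IsAlgClosed K] [CharZero K]

/-- The normal form, equivariant up to a sign for the whole decomposition group. -/
theorem exists_twisted_normalForm (hV : MultAt A (W'⁄K)) :
    ∃ (a : K) (C : VariableChange K), IntegralVC A C ∧ TateForm A (C • (W'⁄K)) ∧
      (C • (W'⁄K)).a₆ = a ∧ A.valuation a = A.valuation (W'⁄K).Δ ∧
      ∀ σ : K ≃ₐ[S] K, σ ∈ A.decompositionSubgroup S →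
        σ C.r = C.r ∧ σ a = a ∧
        ∃ z : ℤ, (z = 1 ∨ z = -1) ∧ (σ ∈ A.inertiaSubgroupIn S → z = 1) ∧
          σ (C.u : K) = (z : K) * (C.u : K) ∧
          ∃ hτ : (C • (W'⁄K)).map (σ : K →+* K) = C • (W'⁄K),
            ∀ P : (W'⁄K).Point, vcMap (W'⁄K) C (σ • P)
              = z • ringPoint (σ : K →+* K) hτ (vcMap (W'⁄K) C P) := by
  obtain ⟨a, C, hI, hC, hT, hva, huniq⟩ := exists_normalForm hV hV.Δ_ne_zero
  have hT' : TateForm A (C • (W'⁄K)) := hC ▸ hT
  refine ⟨a, C, hI, hT', by rw [hC]; rfl, hva, fun σ hσ => ?_⟩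
  have hu0 := C.u.ne_zero
  have hlt : A.valuation a < 1 := hva.trans_lt hV.valuation_Δ
  have hcoef : (W'⁄K).map (σ : K →+* K) = W'⁄K := baseChange_map_algEquiv σ
  have hc4' : σ (W'⁄K).c₄ = (W'⁄K).c₄ := by
    conv_rhs => rw [← hcoef, WeierstrassCurve.map_c₄]
    rfl
  have hc6' : σ (W'⁄K).c₆ = (W'⁄K).c₆ := by
    conv_rhs => rw [← hcoef, WeierstrassCurve.map_c₆]
    rfl
  have hΔ' : σ (W'⁄K).Δ = (W'⁄K).Δ := by
    conv_rhs => rw [← hcoef, WeierstrassCurve.map_Δ]
    rfl
  have hb2' : σ (W'⁄K).b₂ = (W'⁄K).b₂ := by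
    conv_rhs => rw [← hcoef, WeierstrassCurve.map_b₂]
    rfl
  have ha1' : σ (W'⁄K).a₁ = (W'⁄K).a₁ := map_coeff σ W'.a₁
  have ha3' : σ (W'⁄K).a₃ = (W'⁄K).a₃ := map_coeff σ W'.a₃
  have hc4 := congrArg WeierstrassCurve.c₄ hC
  have hc6 := congrArg WeierstrassCurve.c₆ hC
  have hD := congrArg WeierstrassCurve.Δ hC
  have h1 := congrArg WeierstrassCurve.a₁ hC
  have h3 := congrArg WeierstrassCurve.a₃ hC
  have hb := congrArg WeierstrassCurve.b₂ hC
  rw [variableChange_c₄, tateModel_c₄, Units.val_inv_eq_inv_val] at hc4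
  rw [variableChange_c₆, tateModel_c₆, Units.val_inv_eq_inv_val] at hc6
  rw [variableChange_Δ, tateModel_Δ, Units.val_inv_eq_inv_val] at hD
  rw [variableChange_a₁, Units.val_inv_eq_inv_val] at h1
  rw [variableChange_a₃, Units.val_inv_eq_inv_val] at h3
  rw [variableChange_b₂, Units.val_inv_eq_inv_val] at hb
  simp only [tateModel, WeierstrassCurve.b₂] at h1 h3 hb
  have hu4 : (C.u : K) ^ 4 = (W'⁄K).c₄ := by field_simp at hc4; linear_combination -hc4
  have hu6 : (C.u : K) ^ 6 * (-1 - 864 * a) = (W'⁄K).c₆ := by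
    field_simp at hc6; linear_combination -hc6
  have hrel : a * (1 + 432 * a) = -((W'⁄K).Δ / (W'⁄K).c₄ ^ 3) := by
    rw [← hu4]; field_simp at hD ⊢; linear_combination hD
  have e1 : 2 * C.s = (C.u : K) - (W'⁄K).a₁ := by field_simp at h1; linear_combination h1
  have e3 : 2 * C.t = -((W'⁄K).a₃ + C.r * (W'⁄K).a₁) := by
    linear_combination (mul_eq_zero.1 h3).resolve_left (pow_ne_zero 3 (inv_ne_zero hu0))
  have eb : 12 * C.r = (C.u : K) ^ 2 - (W'⁄K).b₂ := by
    field_simp at hb
    simp only [WeierstrassCurve.b₂] at hb ⊢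
    linear_combination hb
  have hσa : σ a = a := by
    refine huniq _ ?_ ((valuation_map_lt_one_iff hσ a).2 hlt)
    have := congrArg σ hrel
    simpa only [map_mul, map_add, map_one, map_ofNat, map_neg, map_div₀, map_pow, hc4', hΔ']
      using this
  have h86 : (-1 - 864 * a : K) ≠ 0 := by
    refine ne_zero_of_v_eq_one (A := A) ?_
    rw [show (-1 - 864 * a : K) = -(1 + 864 * a) by ring, Valuation.map_neg,
      A.valuation.map_one_add_of_lt (v_mul_lt_one' (v_le_one (ofNat_mem A 864)) hlt)]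
  have h4 : σ (C.u : K) ^ 4 = (C.u : K) ^ 4 := by rw [← map_pow, hu4, hc4']
  have h6 : σ (C.u : K) ^ 6 = (C.u : K) ^ 6 := by
    have := congrArg σ hu6
    rw [map_mul, map_pow, map_sub, map_neg, map_one, map_mul, map_ofNat, hσa, hc6', ← hu6] at this
    exact mul_right_cancel₀ h86 this
  have h2 : σ (C.u : K) ^ 2 = (C.u : K) ^ 2 := by
    refine mul_left_cancel₀ (pow_ne_zero 4 hu0) ?_
    calc (C.u : K) ^ 4 * σ (C.u : K) ^ 2 = σ (C.u : K) ^ 6 := by rw [← h4]; ring
      _ = (C.u : K) ^ 4 * (C.u : K) ^ 2 := by rw [h6]; ring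
  have hσr : σ C.r = C.r := by
    refine mul_left_cancel₀ (by norm_num : (12 : K) ≠ 0) ?_
    have := congrArg σ eb
    rw [map_mul, map_ofNat, map_sub, map_pow, h2, hb2', ← eb] at this
    exact this
  have hσt : σ C.t = C.t := by
    refine mul_left_cancel₀ (two_ne_zero (α := K)) ?_
    have := congrArg σ e3
    rw [map_mul, map_ofNat, map_neg, map_add, map_mul, hσr, ha1', ha3', ← e3] at this
    exact this
  have hτ : (C • (W'⁄K)).map (σ : K →+* K) = C • (W'⁄K) := by
    rw [hC]
    ext <;> simp [tateModel, hσa]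
  refine ⟨hσr, hσa, ?_⟩
  rcases mul_self_eq_mul_self_iff.1 ((sq _).symm.trans (h2.trans (sq _))) with hu | hu
  · have hσs : σ C.s = C.s := by
      refine mul_left_cancel₀ (two_ne_zero (α := K)) ?_
      have := congrArg σ e1
      rw [map_mul, map_ofNat, map_sub, hu, ha1', ← e1] at this
      exact this
    refine ⟨1, Or.inl rfl, fun _ => rfl, by rw [hu, Int.cast_one, one_mul], hτ, fun P => ?_⟩
    rw [one_zsmul]
    match P with
    | .zero => rfl
    | .some x y h =>
      rw [smul_some_eq, vcMap_some, vcMap_some, ringPoint_some, Affine.Point.some.injEq]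
      simp [vcX, vcY, map_div₀, hu, hσr, hσs, hσt]
  · have hσs : σ C.s = C.s - (C.u : K) := by
      refine mul_left_cancel₀ (two_ne_zero (α := K)) ?_
      have := congrArg σ e1
      rw [map_mul, map_ofNat, map_sub, hu, ha1'] at this
      linear_combination this - e1
    refine ⟨-1, Or.inr rfl, fun hin => ?_,
      by rw [hu, Int.cast_neg, Int.cast_one, neg_one_mul], hτ, fun P => ?_⟩
    · exfalso
      have := valuation_map_sub_lt_one hin hI.s_mem
      rw [hσs, sub_sub_cancel_left, Valuation.map_neg, hI.valuation_u] at this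
      exact lt_irrefl _ this
    rw [neg_one_zsmul]
    match P with
    | .zero => rfl
    | .some x y h =>
      rw [smul_some_eq, vcMap_some, vcMap_some, ringPoint_some, Affine.Point.neg_some,
        Affine.Point.some.injEq, hT'.negY_eq]
      refine ⟨?_, ?_⟩
      · simp [vcX, map_div₀, h2, hσr]
      · simp only [vcX, vcY, RingHom.coe_coe, map_div₀, map_sub, map_mul, map_pow, hu, hσr, hσs,
          hσt]
        field_simp
        ring

variable [Algebra.IsAlgebraic S K]

/-- The decomposition group acts on components through a sign. -/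
theorem exists_sign_nonsingRed_sub (hV : MultAt A (W'⁄K)) {σ : K ≃ₐ[S] K}
    (hσ : σ ∈ A.decompositionSubgroup S) :
    ∃ z : ℤ, (z = 1 ∨ z = -1) ∧ (σ ∈ A.inertiaSubgroupIn S → z = 1) ∧
      ∀ P : (W'⁄K).Point, NonsingRed A (σ • P - z • P) := by
  obtain ⟨a, C, hI, hT, -, -, hC⟩ := exists_twisted_normalForm (S := S) hV
  obtain ⟨-, -, z, hz, hz1, -, hτ, heq⟩ := hC σ hσ
  refine ⟨z, hz, hz1, fun P => ?_⟩
  rw [← hI.nonsingRed_iff hV.toIntegralAt, map_sub, map_zsmul, heq, ← smul_sub]
  have h0 := hT.nonsingRed_ringPoint_sub (σ : K →+* K) hτ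
    (fun w => valuation_map_eq hσ w) (vcMap (W'⁄K) C P)
  rcases hz with rfl | rfl
  · rwa [one_zsmul]
  · rw [neg_one_zsmul]; exact NonsingRed.neg hT.integralAt h0

/-- A node lift fixed by the decomposition group, and the valuation of `x - node` at torsion
points of odd order outside `E₀`. -/
theorem exists_node_lift (hV : MultAt A (W'⁄K)) :
    ∃ x₀ ∈ A, (∀ σ : K ≃ₐ[S] K, σ ∈ A.decompositionSubgroup S → σ x₀ = x₀) ∧
      ∀ {x y : K} (h : (W'⁄K).toAffine.Nonsingular x y) {n : ℕ},
        Odd n → n • (Affine.Point.some x y h : (W'⁄K).Point) = 0 →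
        ¬ NonsingRed A (Affine.Point.some x y h : (W'⁄K).Point) →
        ∃ k : ℕ, A.valuation (x - x₀) ^ n = A.valuation (W'⁄K).Δ ^ k := by
  obtain ⟨a, C, hI, hT, ha, hva, hC⟩ := exists_twisted_normalForm (S := S) hV
  refine ⟨C.r, hI.r_mem, fun σ hσ => (hC σ hσ).1, fun {x y} h {n} hn h0 hns => ?_⟩
  rw [← hI.nonsingRed_iff hV.toIntegralAt, vcMap_some] at hns
  have hQ : n • (Affine.Point.some _ _ (vc_nonsingular (W'⁄K) C h)
      : (C • (W'⁄K)).toAffine.Point) = 0 := by
    rw [← vcMap_some (W'⁄K) C h, ← map_nsmul, h0, map_zero]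
  have hxv : A.valuation (x - C.r) = A.valuation (vcX C x) := by
    rw [vcX, map_div₀, map_pow, hI.valuation_u, one_pow, div_one]
  -- at an odd order point the label is not the middle one
  have key : ∀ (γ : A.ValueGroup) {X Y : K} (hn' : (C • (W'⁄K)).toAffine.Nonsingular X Y),
      HasLabel A γ (Affine.Point.some X Y hn' : (C • (W'⁄K)).toAffine.Point) →
      n • (Affine.Point.some X Y hn' : (C • (W'⁄K)).toAffine.Point) = 0 →
      A.valuation X = γ ∧ ∃ k : ℕ, γ ^ n = A.valuation (W'⁄K).Δ ^ k := by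
    intro γ X Y hn' hlab hQ'
    obtain ⟨k, hk⟩ := hT.exists_pow_of_torsion hlab hQ'
    obtain ⟨-, hy1, hyv, hzv⟩ := hlab
    obtain ⟨-, -, hle, hγ0, hstrict⟩ := hT.label_facts hn'.1 hy1 hyv hzv
    refine ⟨(hstrict (lt_of_le_of_ne hle fun heq => ?_)).2, k, by rw [hk, ha, hva]⟩
    -- otherwise `γ ^ n = γ ^ (2 k)`, impossible for odd `n`
    rw [heq, ← pow_mul] at hk
    obtain ⟨m, rfl⟩ := hn
    have hγ1 : γ < 1 := hyv ▸ hy1
    rcases Nat.lt_or_ge (2 * m + 1) (2 * k) with hlt | hge
    · exact (pow_lt_pow_right_of_lt_one₀ (zero_lt_iff.2 hγ0) hγ1 hlt).ne' hk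
    · exact (pow_lt_pow_right_of_lt_one₀ (zero_lt_iff.2 hγ0) hγ1 (by omega)).ne hk
  obtain ⟨γ, hγ | hγ⟩ := hT.exists_label hns
  · obtain ⟨hX, k, hk⟩ := key γ _ hγ hQ
    exact ⟨k, by rw [hxv, hX, hk]⟩
  · rw [Affine.Point.neg_some] at hγ
    obtain ⟨hX, k, hk⟩ := key γ _ hγ (by
      rw [← Affine.Point.neg_some (vc_nonsingular (W'⁄K) C h), smul_neg, hQ, neg_zero])
    exact ⟨k, by rw [hxv, hX, hk]⟩

end Fermat.Agent.ECLocal
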