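import Fermat.Agent.ECLocal.Defs
import Mathlib.Algebra.Order.GroupWithZero.Canonical
import Mathlib.Algebra.Order.GroupWithZero.Basic

/-!
# Elementary valuation estimates
-/

set_option autoImplicit false

universe v

namespace Fermat.Agent.ECLocal

open WeierstrassCurve

variable {K : Type v} [Field K] {A : ValuationSubring K}

theorem v_le_one {x : K} (h : x ∈ A) : A.valuation x ≤ 1 := (A.valuation_le_one_iff x).2 h

theorem one_lt_v {x : K} (h : x ∉ A) : 1 < A.valuation x :=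
  lt_of_not_ge fun hx => h ((A.valuation_le_one_iff x).1 hx)

theorem not_mem_of_one_lt {x : K} (h : 1 < A.valuation x) : x ∉ A :=
  fun hx => absurd (v_le_one hx) (not_le.2 h)

theorem mem_of_v_lt_one {x : K} (h : A.valuation x < 1) : x ∈ A :=
  (A.valuation_le_one_iff x).1 h.le

theorem ne_zero_of_v_eq_one {x : K} (h : A.valuation x = 1) : x ≠ 0 := by
  rintro rfl
  simp at h

theorem v_ne_zero {x : K} (h : x ≠ 0) : A.valuation x ≠ 0 :=
  (A.valuation.ne_zero_iff).2 h

theorem v_pos {x : K} (h : x ≠ 0) : 0 < A.valuation x :=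
  zero_lt_iff.2 (v_ne_zero h)

/-- Bound for a product with an integral factor. -/
theorem v_mul_le_of_mem {c x : K} {g : A.ValueGroup} (hc : c ∈ A) (hx : A.valuation x ≤ g) :
    A.valuation (c * x) ≤ g := by
  rw [map_mul]
  calc A.valuation c * A.valuation x ≤ 1 * g := mul_le_mul' (v_le_one hc) hx
    _ = g := one_mul g

theorem v_mul_le {x y : K} {g h : A.ValueGroup} (hx : A.valuation x ≤ g)
    (hy : A.valuation y ≤ h) : A.valuation (x * y) ≤ g * h := by
  rw [map_mul]; exact mul_le_mul' hx hy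

theorem v_mul_lt_one {x y : K} (hx : A.valuation x < 1) (hy : A.valuation y ≤ 1) :
    A.valuation (x * y) < 1 := by
  rw [map_mul]
  calc A.valuation x * A.valuation y ≤ A.valuation x * 1 := mul_le_mul' le_rfl hy
    _ = A.valuation x := mul_one _
    _ < 1 := hx

theorem v_mul_lt_one' {x y : K} (hx : A.valuation x ≤ 1) (hy : A.valuation y < 1) :
    A.valuation (x * y) < 1 := by
  rw [mul_comm]; exact v_mul_lt_one hy hx

/-- A root of a monic quadratic polynomial with integral coefficients is integral. -/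
theorem mem_of_monic_quadratic {x b c : K} (hb : b ∈ A) (hc : c ∈ A)
    (h : x ^ 2 + b * x + c = 0) : x ∈ A := by
  by_contra hx
  have h1 := one_lt_v hx
  have hx2 : A.valuation x < A.valuation (x ^ 2) := by
    rw [map_pow, sq]
    exact lt_mul_of_one_lt_left (zero_lt_one.trans h1) h1
  have h2 : A.valuation (b * x + c) < A.valuation (x ^ 2) :=
    A.valuation.map_add_lt ((v_mul_le_of_mem hb le_rfl).trans_lt hx2)
      (((v_le_one hc).trans_lt h1).trans hx2)
  have h3 := A.valuation.map_add_eq_of_lt_left h2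
  rw [← add_assoc, h, map_zero] at h3
  rw [← h3] at hx2
  exact absurd hx2 not_lt_zero'

theorem two_mul_mem {x : K} (hx : x ∈ A) : 2 * x ∈ A := by
  rw [two_mul]; exact A.add_mem _ _ hx hx

theorem natCast_mem_val (A : ValuationSubring K) (n : ℕ) : (n : K) ∈ A :=
  _root_.natCast_mem A.toSubring n

theorem ofNat_mem (A : ValuationSubring K) (n : ℕ) [n.AtLeastTwo] :
    (OfNat.ofNat n : K) ∈ A := by
  rw [← Nat.cast_ofNat]
  exact natCast_mem_val A n

/-- Integrality of the two coordinates of a point are equivalent. -/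
theorem y_mem_of_x_mem {V : WeierstrassCurve K} (hV : IntegralAt A V) {x y : K}
    (h : V.toAffine.Equation x y) (hx : x ∈ A) : y ∈ A := by
  refine mem_of_monic_quadratic (b := V.a₁ * x + V.a₃)
    (c := -(x ^ 3 + V.a₂ * x ^ 2 + V.a₄ * x + V.a₆)) ?_ ?_ ?_
  · exact A.add_mem _ _ (A.mul_mem _ _ hV.a₁_mem hx) hV.a₃_mem
  · refine A.neg_mem _ (A.add_mem _ _ (A.add_mem _ _ (A.add_mem _ _ ?_ ?_) ?_) hV.a₆_mem)
    · exact pow_mem hx 3
    · exact A.mul_mem _ _ hV.a₂_mem (pow_mem hx 2)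
    · exact A.mul_mem _ _ hV.a₄_mem hx
  · rw [Affine.equation_iff] at h
    linear_combination h

/-- A point with nonintegral `x`: `|y|² = |x|³` and `|x| < |y|`. -/
theorem v_coords_of_not_mem {V : WeierstrassCurve K} (hV : IntegralAt A V) {x y : K}
    (h : V.toAffine.Equation x y) (hx : x ∉ A) :
    A.valuation x < A.valuation y ∧ A.valuation y ^ 2 = A.valuation x ^ 3 := by
  rw [Affine.equation_iff] at h
  have h1 := one_lt_v hx
  have h0 : 0 < A.valuation x := zero_lt_one.trans h1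
  have hX12 : A.valuation x < A.valuation x ^ 2 := by
    rw [sq]; exact lt_mul_of_one_lt_left h0 h1
  have hX23 : A.valuation x ^ 2 < A.valuation x ^ 3 := by
    rw [pow_succ _ 2]; exact lt_mul_of_one_lt_right (pow_pos h0 2) h1
  have h1le : (1 : A.ValueGroup) ≤ A.valuation x ^ 2 := (h1.trans hX12).le
  -- the right hand side has valuation `|x|³`
  have hrest : A.valuation (V.a₂ * x ^ 2 + V.a₄ * x + V.a₆) ≤ A.valuation x ^ 2 := by
    refine A.valuation.map_add_le (A.valuation.map_add_le ?_ ?_) ?_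
    · exact v_mul_le_of_mem hV.a₂_mem (by rw [map_pow])
    · exact v_mul_le_of_mem hV.a₄_mem hX12.le
    · exact (v_le_one hV.a₆_mem).trans h1le
  have hR : A.valuation (x ^ 3 + (V.a₂ * x ^ 2 + V.a₄ * x + V.a₆)) = A.valuation x ^ 3 := by
    rw [A.valuation.map_add_eq_of_lt_left, map_pow]
    rw [map_pow]; exact hrest.trans_lt hX23
  have hy : A.valuation x < A.valuation y := by
    by_contra hy
    rw [not_lt] at hy
    have hL : A.valuation (y ^ 2 + (V.a₁ * x + V.a₃) * y) ≤ A.valuation x ^ 2 := by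
      refine A.valuation.map_add_le ?_ ?_
      · rw [map_pow]; exact pow_le_pow_left' hy 2
      · rw [sq]
        refine v_mul_le (A.valuation.map_add_le (v_mul_le_of_mem hV.a₁_mem le_rfl) ?_) hy
        exact (v_le_one hV.a₃_mem).trans h1.le
    rw [show y ^ 2 + (V.a₁ * x + V.a₃) * y = x ^ 3 + (V.a₂ * x ^ 2 + V.a₄ * x + V.a₆) by
      linear_combination h, hR] at hL
    exact absurd hL (not_le.2 hX23)
  refine ⟨hy, ?_⟩
  have hsmall : A.valuation ((V.a₁ * x + V.a₃) * y) < A.valuation (y ^ 2) := by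
    rw [map_mul, map_pow, sq]
    refine mul_lt_mul_of_pos_right ?_ (h0.trans hy)
    exact A.valuation.map_add_lt ((v_mul_le_of_mem hV.a₁_mem le_rfl).trans_lt hy)
      (((v_le_one hV.a₃_mem).trans_lt h1).trans hy)
  have hL := A.valuation.map_add_eq_of_lt_left hsmall
  rw [show y ^ 2 + (V.a₁ * x + V.a₃) * y = x ^ 3 + (V.a₂ * x ^ 2 + V.a₄ * x + V.a₆) by
    linear_combination h, hR, map_pow] at hL
  exact hL.symm

/-- Vieta's formulas for the three intersection points of the line `Y = ℓX + (y₁ - ℓ x₁)`. -/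
theorem chord_vieta [DecidableEq K] {V : WeierstrassCurve K} {x₁ x₂ y₁ y₂ : K}
    (h₁ : V.toAffine.Equation x₁ y₁) (h₂ : V.toAffine.Equation x₂ y₂)
    (hxy : ¬(x₁ = x₂ ∧ y₁ = V.toAffine.negY x₂ y₂)) {ℓ c x₃ : K}
    (hℓ : ℓ = V.toAffine.slope x₁ x₂ y₁ y₂) (hc : c = y₁ - ℓ * x₁)
    (hx₃ : x₃ = V.toAffine.addX x₁ x₂ ℓ) :
    x₁ + x₂ + x₃ = ℓ ^ 2 + V.a₁ * ℓ - V.a₂ ∧
    x₁ * x₂ + x₁ * x₃ + x₂ * x₃ = -(2 * ℓ * c + V.a₁ * c + V.a₃ * ℓ - V.a₄) ∧
    x₁ * x₂ * x₃ = c ^ 2 + V.a₃ * c - V.a₆ ∧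
    y₂ = ℓ * x₂ + c ∧ V.toAffine.negAddY x₁ x₂ y₁ ℓ = ℓ * x₃ + c := by
  have key := Affine.addPolynomial_slope h₁ h₂ hxy
  rw [← hℓ, ← hx₃, Affine.addPolynomial_eq, neg_inj, Cubic.prod_X_sub_C_eq,
    Cubic.toPoly_injective] at key
  injection key with k1 k2 k3 k4
  refine ⟨?_, ?_, ?_, ?_, ?_⟩
  · linear_combination k2
  · rw [hc]; linear_combination -k3
  · rw [hc]; linear_combination k4
  · by_cases hx : x₁ = x₂
    · have hy := Affine.Y_eq_of_Y_ne h₁ h₂ hx fun h => hxy ⟨hx, h⟩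
      rw [hc, ← hx, ← hy]; ring
    · rw [hc, hℓ, Affine.slope_of_X_ne hx]
      field_simp [sub_ne_zero.2 hx]
      ring
  · rw [Affine.negAddY, hc, hx₃]; ring

end Fermat.Agent.ECLocal
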