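import Fermat.Agent.ECLocal.Tate

/-!
# Labels of torsion points: the label of a `p`-torsion point is a `p`-th root of a power of `|a|`
-/

set_option autoImplicit false

universe v

namespace Fermat.Agent.ECLocal

open WeierstrassCurve

variable {K : Type v} [Field K] [DecidableEq K] {A : ValuationSubring K} {V : WeierstrassCurve K}

/-- `E₀` as a subgroup. -/
def nonsingSubgroup (hV : IntegralAt A V) : AddSubgroup V.toAffine.Point where
  carrier := {P : V.toAffine.Point | NonsingRed A P}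
  add_mem' := fun hP hQ => NonsingRed.add hV hP hQ
  zero_mem' := nonsingRed_zero (V := V) A
  neg_mem' := fun hP => NonsingRed.neg hV hP

theorem mem_nonsingSubgroup (hV : IntegralAt A V) {P : V.toAffine.Point} :
    P ∈ nonsingSubgroup hV ↔ NonsingRed A P := Iff.rfl

/-- `E₁` as a subgroup. -/
def kernelSubgroup (hV : IntegralAt A V) : AddSubgroup V.toAffine.Point where
  carrier := {P : V.toAffine.Point | InKernel A P}
  add_mem' := fun hP hQ => InKernel.add hV hP hQ
  zero_mem' := inKernel_zero (V := V) A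
  neg_mem' := fun hP => InKernel.neg hV hP

theorem mem_kernelSubgroup (hV : IntegralAt A V) {P : V.toAffine.Point} :
    P ∈ kernelSubgroup hV ↔ InKernel A P := Iff.rfl

namespace TateForm

/-- The class modulo `E₀` of the points with label `γ` (zero if there is none). -/
noncomputable def labelClass (hT : TateForm A V) (γ : A.ValueGroup) :
    V.toAffine.Point ⧸ nonsingSubgroup hT.integralAt :=
  open scoped Classical in
  if h : ∃ P : V.toAffine.Point, HasLabel A γ P then QuotientAddGroup.mk h.choose else 0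

theorem labelClass_eq (hT : TateForm A V) {γ : A.ValueGroup} {P : V.toAffine.Point}
    (hP : HasLabel A γ P) : labelClass hT γ = QuotientAddGroup.mk P := by
  have hex : ∃ P : V.toAffine.Point, HasLabel A γ P := ⟨P, hP⟩
  rw [labelClass, dif_pos hex, QuotientAddGroup.eq]
  rw [mem_nonsingSubgroup, neg_add_eq_sub]
  exact hT.nonsingRed_sub hP hex.choose_spec

omit [DecidableEq K] in
theorem not_hasLabel_one (hT : TateForm A V) (P : V.toAffine.Point) : ¬ HasLabel A 1 P := by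
  match P with
  | .zero => exact id
  | .some x y h =>
    rintro ⟨-, hy, hy', -⟩
    have _ := hT
    exact hy.ne hy'

theorem labelClass_one (hT : TateForm A V) : labelClass hT 1 = 0 := by
  rw [labelClass, dif_neg]
  exact fun ⟨P, hP⟩ => hT.not_hasLabel_one P hP

variable [IsAlgClosed K]

theorem labelClass_mul (hT : TateForm A V) {γ δ : A.ValueGroup} (hγ : γ ≤ 1) (hδ : δ ≤ 1)
    (hε : A.valuation V.a₆ ≤ (γ * δ) ^ 2) :
    labelClass hT (γ * δ) = labelClass hT γ + labelClass hT δ := by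
  wlog hle : γ ≤ δ generalizing γ δ
  · rw [mul_comm γ δ, add_comm]
    exact this hδ hγ (by rwa [mul_comm]) (le_of_not_ge hle)
  rcases hδ.lt_or_eq with hδ1 | rfl
  swap
  · rw [mul_one, labelClass_one, add_zero]
  have hγ1 : γ < 1 := hle.trans_lt hδ1
  obtain ⟨P, hP⟩ := hT.exists_hasLabel (γ := γ)
    (hε.trans (pow_le_pow_left' (mul_le_of_le_one_right zero_le hδ) 2)) hγ1
  obtain ⟨Q, hQ⟩ := hT.exists_hasLabel (γ := δ)
    (hε.trans (pow_le_pow_left' (mul_le_of_le_one_left zero_le hγ) 2)) hδ1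
  rw [hT.labelClass_eq (hT.hasLabel_add hP hQ hle hε), hT.labelClass_eq hP, hT.labelClass_eq hQ,
    QuotientAddGroup.mk_add]

theorem labelClass_eq_zero (hT : TateForm A V) {γ : A.ValueGroup}
    (hε : A.valuation V.a₆ ≤ γ ^ 2) (hγ : γ ≤ 1) (h0 : labelClass hT γ = 0) : γ = 1 := by
  by_contra hne
  obtain ⟨P, hP⟩ := hT.exists_hasLabel hε (lt_of_le_of_ne hγ hne)
  rw [hT.labelClass_eq hP, QuotientAddGroup.eq_zero_iff, mem_nonsingSubgroup] at h0
  exact hT.not_nonsingRed_of_hasLabel hP h0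

/-- The square root of `|a|`. -/
theorem exists_sqrt (hT : TateForm A V) : ∃ h : A.ValueGroup, 0 < h ∧ h < 1 ∧
    h ^ 2 = A.valuation V.a₆ ∧ labelClass hT h + labelClass hT h = 0 := by
  obtain ⟨b, hb⟩ := IsAlgClosed.exists_pow_nat_eq V.a₆ (n := 2) two_pos
  have hsq : A.valuation b ^ 2 = A.valuation V.a₆ := by rw [← map_pow, hb]
  have hpos : 0 < A.valuation b := v_pos fun h => hT.a₆_ne (by rw [← hb, h]; ring)
  have hlt : A.valuation b < 1 := by
    by_contra hge
    exact (hsq ▸ one_le_pow₀ (not_lt.1 hge) : (1 : A.ValueGroup) ≤ _).not_gt hT.a₆_lt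
  refine ⟨_, hpos, hlt, hsq, ?_⟩
  obtain ⟨P, hP⟩ := hT.exists_hasLabel hsq.ge hlt
  -- at the middle label the negative has the same label
  have hP' : HasLabel A (A.valuation b) (-P) := by
    match P, hP with
    | .some x y h, hP =>
      obtain ⟨hx, hy, hyv, hz⟩ := hP
      obtain ⟨hxv, -, -, -, -⟩ := hT.label_facts h.1 hy hyv hz
      have heq : A.valuation (y + x) = A.valuation b := by
        refine le_antisymm hz ?_
        have he := congrArg A.valuation ((hT.equation_iff x y).1 h.1)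
        rw [map_mul, hyv, A.valuation.map_add_eq_of_lt_right (x := x ^ 3) (y := V.a₆), ← hsq, sq] at he
        · exact (mul_left_cancel₀ hpos.ne' he).ge
        · rw [← hsq, map_pow]
          calc A.valuation x ^ 3 ≤ A.valuation b ^ 3 := pow_le_pow_left' hxv 3
            _ = A.valuation b ^ 2 * A.valuation b := pow_succ _ 2
            _ < A.valuation b ^ 2 := mul_lt_of_lt_one_right (pow_pos hpos 2) hlt
      rw [Affine.Point.neg_some]
      refine ⟨hx, ?_, ?_, ?_⟩
      · rw [hT.negY_eq, Valuation.map_neg, heq]; exact hlt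
      · rw [hT.negY_eq, Valuation.map_neg, heq]
      · rw [hT.negY_eq, show -(y + x) + x = -y by ring, Valuation.map_neg, hyv]
  rw [← eq_neg_iff_add_eq_zero]
  conv_lhs => rw [hT.labelClass_eq hP']
  rw [hT.labelClass_eq hP, QuotientAddGroup.mk_neg]

/-- The crossing rule. -/
theorem labelClass_cross (hT : TateForm A V) {γ δ : A.ValueGroup}
    (hγ : A.valuation V.a₆ ≤ γ ^ 2) (hγ1 : γ ≤ 1) (hδ : A.valuation V.a₆ ≤ δ ^ 2) (hδ1 : δ ≤ 1)
    (hlt : (γ * δ) ^ 2 < A.valuation V.a₆) :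
    A.valuation V.a₆ ≤ (A.valuation V.a₆ / (γ * δ)) ^ 2 ∧ A.valuation V.a₆ / (γ * δ) ≤ 1 ∧
      labelClass hT γ + labelClass hT δ = -labelClass hT (A.valuation V.a₆ / (γ * δ)) := by
  obtain ⟨h, hh0, hh1, hsq, htwo⟩ := hT.exists_sqrt
  rw [← hsq] at hγ hδ hlt ⊢
  replace hγ : h ≤ γ := le_of_pow_le_pow_left₀ two_ne_zero zero_le hγ
  replace hδ : h ≤ δ := le_of_pow_le_pow_left₀ two_ne_zero zero_le hδ
  replace hlt : γ * δ < h := lt_of_pow_lt_pow_left₀ 2 zero_le hlt
  have hγ0 : 0 < γ := hh0.trans_le hγ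
  have hδ0 : 0 < δ := hh0.trans_le hδ
  have hgd0 : 0 < γ * δ := mul_pos hγ0 hδ0
  have hgd : h ^ 2 ≤ γ * δ := by rw [sq]; exact mul_le_mul' hγ hδ
  have hr1 : h ^ 2 / (γ * δ) ≤ 1 := (div_le_one₀ hgd0).2 hgd
  have hrh : h ≤ h ^ 2 / (γ * δ) := by
    rw [le_div_iff₀ hgd0, sq]; exact mul_le_mul' le_rfl hlt.le
  refine ⟨pow_le_pow_left' hrh 2, hr1, ?_⟩
  -- `f δ + f (h/δ) = f h` and `f γ = f (h/δ) + f (γδ/h)`
  have e1 : labelClass hT h = labelClass hT δ + labelClass hT (h / δ) := by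
    rw [← hT.labelClass_mul hδ1 ((div_le_one₀ hδ0).2 hδ) (by rw [mul_div_cancel₀ h hδ0.ne', hsq]),
      mul_div_cancel₀ h hδ0.ne']
  have hq : h / δ * (γ * δ / h) = γ := by field_simp
  have e2 : labelClass hT γ = labelClass hT (h / δ) + labelClass hT (γ * δ / h) := by
    rw [← hT.labelClass_mul ((div_le_one₀ hδ0).2 hδ) ((div_le_one₀ hh0).2 hlt.le)
      (by rw [hq, ← hsq]; exact pow_le_pow_left' hγ 2), hq]
  have hm : h ^ 2 / (γ * δ) * (γ * δ / h) = h := by field_simp
  have e3 : labelClass hT h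
      = labelClass hT (h ^ 2 / (γ * δ)) + labelClass hT (γ * δ / h) := by
    rw [← hT.labelClass_mul hr1 ((div_le_one₀ hh0).2 hlt.le) (by rw [hm, hsq]), hm]
  rw [e2, eq_neg_iff_add_eq_zero]
  calc labelClass hT (h / δ) + labelClass hT (γ * δ / h) + labelClass hT δ
        + labelClass hT (h ^ 2 / (γ * δ))
      = (labelClass hT δ + labelClass hT (h / δ))
        + (labelClass hT (h ^ 2 / (γ * δ)) + labelClass hT (γ * δ / h)) := by abel
    _ = 0 := by rw [← e1, ← e3, htwo]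

/-- Multiples of a label. -/
theorem labelClass_nsmul (hT : TateForm A V) {γ : A.ValueGroup}
    (hγ : A.valuation V.a₆ ≤ γ ^ 2) (hγ1 : γ ≤ 1) (k : ℕ) :
    ∃ (m : ℕ) (r : A.ValueGroup), A.valuation V.a₆ ≤ r ^ 2 ∧ r ≤ 1 ∧
      ((γ ^ k = A.valuation V.a₆ ^ m * r ∧ k • labelClass hT γ = labelClass hT r) ∨
        (γ ^ k * r = A.valuation V.a₆ ^ m ∧ k • labelClass hT γ = -labelClass hT r)) := by
  have hε0 : 0 < A.valuation V.a₆ := v_pos hT.a₆_ne
  have hne : ∀ {g : A.ValueGroup}, A.valuation V.a₆ ≤ g ^ 2 → 0 < g := fun {g} hg =>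
    zero_lt_iff.2 fun h0 => by
      rw [h0, zero_pow two_ne_zero] at hg
      exact absurd (hε0.trans_le hg) (lt_irrefl _)
  induction k with
  | zero =>
    refine ⟨0, 1, ?_, le_rfl, Or.inl ⟨by simp, ?_⟩⟩
    · rw [one_pow]; exact hT.a₆_lt.le
    · rw [zero_nsmul, labelClass_one]
  | succ k ih =>
    obtain ⟨m, r, hr, hr1, ⟨e, f⟩ | ⟨e, f⟩⟩ := ih
    · rcases le_or_gt (A.valuation V.a₆) ((r * γ) ^ 2) with hh | hh
      · refine ⟨m, r * γ, hh, mul_le_one' hr1 hγ1, Or.inl ⟨?_, ?_⟩⟩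
        · rw [pow_succ, e, mul_assoc]
        · rw [succ_nsmul, f, hT.labelClass_mul hr1 hγ1 hh]
      · obtain ⟨h1, h2, h3⟩ := hT.labelClass_cross hr hr1 hγ hγ1 hh
        refine ⟨m + 1, A.valuation V.a₆ / (r * γ), h1, h2, Or.inr ⟨?_, ?_⟩⟩
        · rw [pow_succ, pow_succ, e, mul_assoc (A.valuation V.a₆ ^ m) r γ, mul_assoc,
            mul_div_cancel₀ _ (mul_pos (hne hr) (hne hγ)).ne']
        · rw [succ_nsmul, f, h3]
    · rcases le_or_gt r γ with hle | hlt
      · -- `r = γ * (r/γ)`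
        have hq : γ * (r / γ) = r := mul_div_cancel₀ _ (hne hγ).ne'
        have h1 : r / γ ≤ 1 := (div_le_one₀ (hne hγ)).2 hle
        have h2 : A.valuation V.a₆ ≤ (r / γ) ^ 2 := hr.trans (pow_le_pow_left'
          (by conv_lhs => rw [← hq]
              exact mul_le_of_le_one_left zero_le hγ1) 2)
        refine ⟨m, r / γ, h2, h1, Or.inr ⟨?_, ?_⟩⟩
        · rw [pow_succ, mul_assoc, hq, e]
        · have := hT.labelClass_mul hγ1 h1 (hq.symm ▸ hr)
          rw [hq] at this
          rw [succ_nsmul, f, this]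
          abel
      · have hq : r * (γ / r) = γ := mul_div_cancel₀ _ (hne hr).ne'
        have h1 : γ / r ≤ 1 := (div_le_one₀ (hne hr)).2 hlt.le
        have h2 : A.valuation V.a₆ ≤ (γ / r) ^ 2 := hγ.trans (pow_le_pow_left'
          (by conv_lhs => rw [← hq]
              exact mul_le_of_le_one_left zero_le hr1) 2)
        refine ⟨m, γ / r, h2, h1, Or.inl ⟨?_, ?_⟩⟩
        · rw [pow_succ, ← e, mul_assoc, hq]
        · have := hT.labelClass_mul hr1 h1 (hq.symm ▸ hγ)
          rw [hq] at this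
          rw [succ_nsmul, f, this]
          abel

/-- The label of an `n`-torsion point: `γ^n` is a power of `|a|`. -/
theorem exists_pow_of_torsion (hT : TateForm A V) {γ : A.ValueGroup} {P : V.toAffine.Point}
    (hP : HasLabel A γ P) {n : ℕ} (hn : n • P = 0) :
    ∃ m : ℕ, γ ^ n = A.valuation V.a₆ ^ m := by
  have hb : A.valuation V.a₆ ≤ γ ^ 2 ∧ γ < 1 := by
    match P, hP with
    | .some x y h, hP =>
      obtain ⟨-, hy, hy', hz⟩ := hP
      obtain ⟨-, h1, h2, -, -⟩ := hT.label_facts h.1 hy hy' hz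
      exact ⟨h2, h1⟩
  obtain ⟨m, r, hr, hr1, hh⟩ := hT.labelClass_nsmul hb.1 hb.2.le n
  have h0 : n • labelClass hT γ = 0 := by
    rw [hT.labelClass_eq hP, ← QuotientAddGroup.mk_nsmul, hn, QuotientAddGroup.mk_zero]
  refine ⟨m, ?_⟩
  rcases hh with ⟨e, f⟩ | ⟨e, f⟩
  · rw [h0] at f
    rw [e, hT.labelClass_eq_zero hr hr1 f.symm, mul_one]
  · rw [h0, eq_comm, neg_eq_zero] at f
    rw [← e, hT.labelClass_eq_zero hr hr1 f, mul_one]

end TateForm

end Fermat.Agent.ECLocal
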