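import Mathlib.AlgebraicGeometry.EllipticCurve.Affine.Point
import Mathlib.RingTheory.Valuation.ValuationSubring
import Mathlib.RingTheory.Valuation.RamificationGroup
import Mathlib.RingTheory.LocalRing.ResidueField.Basic

/-!
# Local theory of Weierstrass curves at a valuation subring: definitions

`V` is a Weierstrass curve over a field `K`, `A` a valuation subring of `K`.
* `IntegralAt A V`: the coefficients of `V` lie in `A`.
* `GoodAt A V`: integral with unit discriminant.
* `MultAt A V`: integral, discriminant in the maximal ideal, `c₄` a unit.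
* `InKernel A P`: `P` reduces to the origin (`E₁`).
* `NonsingRed A P`: `P` reduces to a nonsingular point (`E₀`).
* `redPoint`: the reduction of a point (junk value `0` on singularly reduced points).
-/

set_option autoImplicit false

universe v

namespace Fermat.Agent.ECLocal

open WeierstrassCurve

variable {K : Type v} [Field K]

/-- All coefficients of `V` lie in `A`. -/
structure IntegralAt (A : ValuationSubring K) (V : WeierstrassCurve K) : Prop where
  a₁_mem : V.a₁ ∈ A
  a₂_mem : V.a₂ ∈ A
  a₃_mem : V.a₃ ∈ A
  a₄_mem : V.a₄ ∈ A
  a₆_mem : V.a₆ ∈ A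

/-- Integral model with good reduction at `A`. -/
structure GoodAt (A : ValuationSubring K) (V : WeierstrassCurve K) : Prop
    extends IntegralAt A V where
  valuation_Δ : A.valuation V.Δ = 1

/-- Integral model with multiplicative reduction at `A`. -/
structure MultAt (A : ValuationSubring K) (V : WeierstrassCurve K) : Prop
    extends IntegralAt A V where
  Δ_ne_zero : V.Δ ≠ 0
  valuation_Δ : A.valuation V.Δ < 1
  valuation_c₄ : A.valuation V.c₄ = 1

/-- `P` reduces to the point at infinity. -/
def InKernel (A : ValuationSubring K) {V : WeierstrassCurve K} : V.toAffine.Point → Prop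
  | .zero => True
  | .some x _ _ => x ∉ A

/-- `P` reduces to a nonsingular point of the reduced curve. -/
def NonsingRed (A : ValuationSubring K) {V : WeierstrassCurve K} : V.toAffine.Point → Prop
  | .zero => True
  | .some x y _ => x ∉ A ∨
      (x ∈ A ∧ y ∈ A ∧ (A.valuation (V.toAffine.polynomialX.evalEval x y) = 1 ∨
        A.valuation (V.toAffine.polynomialY.evalEval x y) = 1))

theorem inKernel_zero (A : ValuationSubring K) {V : WeierstrassCurve K} :
    InKernel A (0 : V.toAffine.Point) := trivial

theorem nonsingRed_zero (A : ValuationSubring K) {V : WeierstrassCurve K} :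
    NonsingRed A (0 : V.toAffine.Point) := trivial

theorem inKernel_some_iff (A : ValuationSubring K) {V : WeierstrassCurve K} {x y : K}
    {h : V.toAffine.Nonsingular x y} :
    InKernel A (Affine.Point.some x y h) ↔ x ∉ A := Iff.rfl

theorem InKernel.nonsingRed {A : ValuationSubring K} {V : WeierstrassCurve K}
    {P : V.toAffine.Point} (h : InKernel A P) : NonsingRed A P := by
  match P with
  | .zero => exact trivial
  | .some x y hxy => exact Or.inl h

/-- The reduced curve. -/
noncomputable def redCurve {A : ValuationSubring K} {V : WeierstrassCurve K} (h : IntegralAt A V) :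
    WeierstrassCurve (IsLocalRing.ResidueField A) where
  a₁ := IsLocalRing.residue A ⟨V.a₁, h.a₁_mem⟩
  a₂ := IsLocalRing.residue A ⟨V.a₂, h.a₂_mem⟩
  a₃ := IsLocalRing.residue A ⟨V.a₃, h.a₃_mem⟩
  a₄ := IsLocalRing.residue A ⟨V.a₄, h.a₄_mem⟩
  a₆ := IsLocalRing.residue A ⟨V.a₆, h.a₆_mem⟩

open scoped Classical in
/-- The reduction of a point (value `0` on points reducing to `0` or to a singular point). -/
noncomputable def redPoint {A : ValuationSubring K} {V : WeierstrassCurve K}
    (h : IntegralAt A V) : V.toAffine.Point → (redCurve h).toAffine.Point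
  | .zero => .zero
  | .some x y _ =>
    if hxy : ∃ (hx : x ∈ A) (hy : y ∈ A), (redCurve h).toAffine.Nonsingular
        (IsLocalRing.residue A ⟨x, hx⟩) (IsLocalRing.residue A ⟨y, hy⟩) then
      .some _ _ hxy.choose_spec.choose_spec
    else .zero

end Fermat.Agent.ECLocal
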