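import Fermat.Prelude.Def_FLTPrelim_FreyPackage
import Fermat.Prelude.Def_FLTPrelim_Modularity
import Mathlib

/-!
# The integral model of the Frey curve
-/

set_option autoImplicit false

namespace Fermat.Agent.ECLocal

open WeierstrassCurve

theorem four_dvd_frey_a₂ (P : FreyPackage) : (4 : ℤ) ∣ P.b ^ P.p - 1 - P.a ^ P.p := by
  refine (ZMod.intCast_zmod_eq_zero_iff_dvd _ 4).1 ?_
  push_cast
  obtain ⟨k, hk⟩ := (ZMod.intCast_zmod_eq_zero_iff_dvd P.b 2).1 P.hb2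
  have hb : (P.b : ZMod 4) ^ P.p = 0 := by
    obtain ⟨j, hj⟩ := Nat.exists_eq_add_of_le (le_trans (by norm_num : 2 ≤ 5) P.hp5)
    rw [hj, pow_add, hk]
    push_cast
    rw [mul_pow, show (2 : ZMod 4) ^ 2 = 0 from rfl, zero_mul, zero_mul]
  have ha : (P.a : ZMod 4) ^ P.p = 3 := by
    obtain ⟨j, hj⟩ := P.hp_odd
    rw [P.ha4, hj, pow_succ, pow_mul, show (3 : ZMod 4) ^ 2 = 1 from rfl, one_pow, one_mul]
  rw [hb, ha]
  rfl

theorem sixteen_dvd_frey_a₄ (P : FreyPackage) :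
    (16 : ℤ) ∣ -(P.a ^ P.p) * (P.b ^ P.p) := by
  refine dvd_mul_of_dvd_right ?_ _
  obtain ⟨k, hk⟩ := (ZMod.intCast_zmod_eq_zero_iff_dvd P.b 2).1 P.hb2
  obtain ⟨j, hj⟩ := Nat.exists_eq_add_of_le (le_trans (by norm_num : 4 ≤ 5) P.hp5)
  exact ⟨k ^ 4 * P.b ^ j, by rw [hj, pow_add, hk]; push_cast; ring⟩

theorem freyCurveInt_map (P : FreyPackage) :
    P.freyCurveInt.map (Int.castRingHom ℚ) = P.freyCurve := by
  ext <;> simp only [FreyPackage.freyCurveInt, FreyPackage.freyCurve, WeierstrassCurve.map_a₁,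
    WeierstrassCurve.map_a₂, WeierstrassCurve.map_a₃, WeierstrassCurve.map_a₄,
    WeierstrassCurve.map_a₆, eq_intCast, Int.cast_one, Int.cast_zero]
  · rw [Int.cast_div (four_dvd_frey_a₂ P) (by norm_num)]
    norm_num
  · rw [Int.cast_div (sixteen_dvd_frey_a₄ P) (by norm_num)]
    norm_num

/-- The invariants of the integral Frey model. -/
theorem freyCurveInt_invariants (P : FreyPackage) :
    2 ^ 8 * P.freyCurveInt.Δ = ((P.a ^ P.p * P.b ^ P.p * P.c ^ P.p)) ^ 2 ∧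
      P.freyCurveInt.c₄ = (P.a ^ P.p) ^ 2 + P.a ^ P.p * P.b ^ P.p + (P.b ^ P.p) ^ 2 := by
  obtain ⟨k, hk⟩ := four_dvd_frey_a₂ P
  obtain ⟨m, hm⟩ := sixteen_dvd_frey_a₄ P
  have h2 : P.freyCurveInt.a₂ = k := by
    simp only [FreyPackage.freyCurveInt]; rw [hk]; omega
  have h4 : P.freyCurveInt.a₄ = m := by
    simp only [FreyPackage.freyCurveInt]; rw [hm]; omega
  have h1 : P.freyCurveInt.a₁ = 1 := rfl
  have h3 : P.freyCurveInt.a₃ = 0 := rfl
  have h6 : P.freyCurveInt.a₆ = 0 := rfl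
  rw [← P.hFLT]
  generalize P.a ^ P.p = a at hk hm ⊢
  generalize P.b ^ P.p = b at hk hm ⊢
  simp only [WeierstrassCurve.Δ, WeierstrassCurve.c₄, WeierstrassCurve.b₂, WeierstrassCurve.b₄,
    WeierstrassCurve.b₆, WeierstrassCurve.b₈, h1, h2, h3, h4, h6]
  have hb : b = a + 1 + 4 * k := by linear_combination hk
  subst hb
  constructor
  · have : a * (a + 1 + 4 * k) = -(16 * m) := by linear_combination -hm
    linear_combination
      (-((a + (a + 1 + 4 * k)) ^ 2) * (a * (a + 1 + 4 * k) - 16 * m)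
        - 1024 * m ^ 2) * this
  · linear_combination 3 * hm

theorem freyCurveInt_Δ (P : FreyPackage) :
    2 ^ 8 * P.freyCurveInt.Δ = ((P.a * P.b * P.c) ^ P.p) ^ 2 := by
  rw [(freyCurveInt_invariants P).1, mul_pow (P.a * P.b) P.c, mul_pow P.a P.b]

theorem freyCurveInt_Δ_ne_zero (P : FreyPackage) : P.freyCurveInt.Δ ≠ 0 := by
  intro h
  have := freyCurveInt_Δ P
  rw [h, mul_zero] at this
  exact pow_ne_zero 2 (pow_ne_zero _ P.habc0) this.symm

theorem freyCurve_Δ (P : FreyPackage) :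
    P.freyCurve.Δ = ((P.a * P.b * P.c : ℤ) : ℚ) ^ (2 * P.p) / 2 ^ 8 := by
  rw [← freyCurveInt_map, WeierstrassCurve.map_Δ, eq_intCast, eq_div_iff (by norm_num),
    mul_comm 2 P.p, pow_mul]
  have := congrArg (fun z : ℤ => (z : ℚ)) (freyCurveInt_Δ P)
  push_cast at this ⊢
  linear_combination this

theorem dvd_abc_of_dvd_freyCurveInt_Δ (P : FreyPackage) {q : ℕ} (hq : q.Prime)
    (h : (q : ℤ) ∣ P.freyCurveInt.Δ) : (q : ℤ) ∣ P.a * P.b * P.c := by
  have hqp := Nat.prime_iff_prime_int.1 hq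
  refine hqp.dvd_of_dvd_pow (n := P.p) (hqp.dvd_of_dvd_pow (n := 2) ?_)
  rw [← freyCurveInt_Δ]
  exact dvd_mul_of_dvd_right h _

theorem isSemistableModel_freyCurveInt (P : FreyPackage) :
    P.freyCurveInt.IsSemistableModel := by
  intro q hq hΔ hc
  have hqp := Nat.prime_iff_prime_int.1 hq
  have habc := dvd_abc_of_dvd_freyCurveInt_Δ P hq hΔ
  rw [(freyCurveInt_invariants P).2] at hc
  have hab : ¬((q : ℤ) ∣ P.a ∧ (q : ℤ) ∣ P.b) := fun h => by
    have := dvd_gcd h.1 h.2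
    rw [P.hgcdab] at this
    exact hqp.not_dvd_one this
  have hA : (q : ℤ) ∣ P.a → False := fun ha => by
    refine hab ⟨ha, hqp.dvd_of_dvd_pow (n := P.p) (hqp.dvd_of_dvd_pow (n := 2) ?_)⟩
    refine (dvd_add_right ?_).1 hc
    exact dvd_add (dvd_pow (dvd_pow ha P.hp0) two_ne_zero)
      (dvd_mul_of_dvd_left (dvd_pow ha P.hp0) _)
  have hB : (q : ℤ) ∣ P.b → False := fun hb => by
    refine hab ⟨hqp.dvd_of_dvd_pow (n := P.p) (hqp.dvd_of_dvd_pow (n := 2) ?_), hb⟩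
    rw [add_assoc] at hc
    exact (dvd_add_left (dvd_add (dvd_mul_of_dvd_right (dvd_pow hb P.hp0) _)
      (dvd_pow (dvd_pow hb P.hp0) two_ne_zero))).1 hc
  rcases hqp.dvd_or_dvd habc with h | h
  · rcases hqp.dvd_or_dvd h with h | h
    · exact hA h
    · exact hB h
  · have hC : (q : ℤ) ∣ (P.c ^ P.p) ^ 2 := dvd_pow (dvd_pow h P.hp0) two_ne_zero
    have : (q : ℤ) ∣ P.a ^ P.p * P.b ^ P.p := by
      have e : P.a ^ P.p * P.b ^ P.p = (P.c ^ P.p) ^ 2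
          - ((P.a ^ P.p) ^ 2 + P.a ^ P.p * P.b ^ P.p + (P.b ^ P.p) ^ 2) := by
        rw [← P.hFLT]; ring
      rw [e]; exact dvd_sub hC hc
    rcases hqp.dvd_or_dvd this with h | h
    · exact hA (hqp.dvd_of_dvd_pow h)
    · exact hB (hqp.dvd_of_dvd_pow h)

theorem padicValInt_freyCurveInt_Δ (P : FreyPackage) {q : ℕ} (hq : q.Prime) (hq2 : q ≠ 2) :
    padicValInt q P.freyCurveInt.Δ = 2 * P.p * padicValInt q (P.a * P.b * P.c) := by
  haveI := Fact.mk hq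
  have h := congrArg (padicValInt q) (freyCurveInt_Δ P)
  rw [padicValInt.mul (by norm_num) (freyCurveInt_Δ_ne_zero P), padicValInt.eq_zero_of_not_dvd,
    zero_add, ← pow_mul] at h
  · rw [h, padicValInt, Int.natAbs_pow, padicValNat.pow,
      padicValInt, mul_comm 2 P.p]
  · intro hd
    have h2 := (Nat.prime_iff_prime_int.1 hq).dvd_of_dvd_pow hd
    exact hq2 ((Nat.prime_dvd_prime_iff_eq hq Nat.prime_two).1 (Int.natCast_dvd_natCast.1 h2))

theorem dvd_freyCurveInt_Δ_iff (P : FreyPackage) {q : ℕ} (hq : q.Prime) :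
    (q : ℤ) ∣ P.freyCurveInt.Δ ↔ (q : ℤ) ∣ P.a * P.b * P.c := by
  refine ⟨dvd_abc_of_dvd_freyCurveInt_Δ P hq, fun h => ?_⟩
  have hqp := Nat.prime_iff_prime_int.1 hq
  have hd : (q : ℤ) ∣ 2 ^ 8 * P.freyCurveInt.Δ := by
    rw [freyCurveInt_Δ]; exact dvd_pow (dvd_pow h P.hp0) two_ne_zero
  rcases hqp.dvd_or_dvd hd with h2 | h2
  · have hq2 : q = 2 := (Nat.prime_dvd_prime_iff_eq hq Nat.prime_two).1
      (Int.natCast_dvd_natCast.1 (hqp.dvd_of_dvd_pow h2))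
    subst hq2
    -- `2^10 ∣ 2^8 Δ`
    obtain ⟨k, hk⟩ := h
    obtain ⟨j, hj⟩ := Nat.exists_eq_add_of_le P.hp5
    refine ⟨2 * (k ^ 10 * ((P.a * P.b * P.c) ^ j) ^ 2),
      mul_left_cancel₀ (by norm_num : (2 : ℤ) ^ 8 ≠ 0) ?_⟩
    rw [freyCurveInt_Δ, hj, pow_add, hk]
    push_cast
    ring
  · exact h2

end Fermat.Agent.ECLocal
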