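import Fermat.Agent.ECLocal.Reduction
import Fermat.Prelude.Def_FLTPrelim_Ramification
import Mathlib.FieldTheory.Minpoly.Field

/-!
# Decomposition and inertia acting on points
-/

set_option autoImplicit false

universe r s v

namespace Fermat.Agent.ECLocal

open WeierstrassCurve
open scoped WeierstrassCurve.Affine Pointwise

section Field

variable {S : Type s} {K : Type v} [Field S] [Field K] [Algebra S K] {A : ValuationSubring K}

theorem map_mem_iff_of_decomposition {σ : K ≃ₐ[S] K} (hσ : σ ∈ A.decompositionSubgroup S)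
    (x : K) : σ x ∈ A ↔ x ∈ A := by
  have h := ValuationSubring.smul_mem_pointwise_smul_iff (g := σ) (S := A) (x := x)
  rw [MulAction.mem_stabilizer_iff.1 hσ] at h
  exact h

theorem decomposition_of_inertia {σ : K ≃ₐ[S] K} (hσ : σ ∈ A.inertiaSubgroupIn S) :
    σ ∈ A.decompositionSubgroup S := by
  obtain ⟨g, -, rfl⟩ := hσ
  exact g.2

theorem valuation_map_le_iff {σ : K ≃ₐ[S] K} (hσ : σ ∈ A.decompositionSubgroup S) (x y : K) :
    A.valuation (σ x) ≤ A.valuation (σ y) ↔ A.valuation x ≤ A.valuation y := by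
  rcases eq_or_ne y 0 with rfl | hy
  · simp
  have hy' : σ y ≠ 0 := fun h => hy ((map_eq_zero σ).1 h)
  rw [← div_le_one₀ (v_pos hy'), ← div_le_one₀ (v_pos hy), ← map_div₀ A.valuation,
    ← map_div₀ A.valuation, ← map_div₀ σ,
    A.valuation_le_one_iff, A.valuation_le_one_iff, map_mem_iff_of_decomposition hσ]

theorem valuation_map_lt_iff {σ : K ≃ₐ[S] K} (hσ : σ ∈ A.decompositionSubgroup S) (x y : K) :
    A.valuation (σ x) < A.valuation (σ y) ↔ A.valuation x < A.valuation y := by
  rw [← not_le, ← not_le, valuation_map_le_iff hσ]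

theorem valuation_map_eq_one_iff {σ : K ≃ₐ[S] K} (hσ : σ ∈ A.decompositionSubgroup S) (x : K) :
    A.valuation (σ x) = 1 ↔ A.valuation x = 1 := by
  have h1 := valuation_map_le_iff hσ x 1
  have h2 := valuation_map_le_iff hσ 1 x
  rw [map_one σ, map_one A.valuation] at h1 h2
  exact ⟨fun h => le_antisymm (h1.1 h.le) (h2.1 h.ge),
    fun h => le_antisymm (h1.2 h.le) (h2.2 h.ge)⟩

theorem valuation_map_lt_one_iff {σ : K ≃ₐ[S] K} (hσ : σ ∈ A.decompositionSubgroup S) (x : K) :
    A.valuation (σ x) < 1 ↔ A.valuation x < 1 := by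
  have h := valuation_map_lt_iff hσ x 1
  rwa [map_one σ, map_one A.valuation] at h

/-- Decomposition elements preserve the valuation of algebraic elements. -/
theorem valuation_map_eq [Algebra.IsAlgebraic S K] {σ : K ≃ₐ[S] K}
    (hσ : σ ∈ A.decompositionSubgroup S) (x : K) : A.valuation (σ x) = A.valuation x := by
  -- the orbit of `x` is finite
  obtain ⟨k, hk, hkx⟩ : ∃ k : ℕ, 0 < k ∧ (σ ^ k) x = x := by
    have hfin : Set.Finite ((minpoly S x).rootSet K) := Polynomial.rootSet_finite _ _
    have hmaps : ∀ n : ℕ, (σ ^ n) x ∈ (minpoly S x).rootSet K := by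
      intro n
      rw [Polynomial.mem_rootSet]
      refine ⟨minpoly.ne_zero (Algebra.IsIntegral.isIntegral x), ?_⟩
      rw [Polynomial.aeval_algHom_apply, minpoly.aeval, map_zero]
    obtain ⟨m, n, hmn, heq⟩ : ∃ m n : ℕ, m < n ∧ (σ ^ m) x = (σ ^ n) x := by
        have hr : (Set.range fun n : ℕ => (σ ^ n) x).Finite :=
          hfin.subset (Set.range_subset_iff.2 hmaps)
        obtain ⟨m, -, n, -, hne, heq⟩ := Set.infinite_univ.exists_ne_map_eq_of_mapsTo
          (f := fun n : ℕ => (σ ^ n) x) (fun a _ => Set.mem_range_self a) hr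
        rcases lt_or_gt_of_ne hne with h | h
        · exact ⟨m, n, h, heq⟩
        · exact ⟨n, m, h, heq.symm⟩
    refine ⟨n - m, Nat.sub_pos_of_lt hmn, (σ ^ m).injective ?_⟩
    rw [← AlgEquiv.mul_apply, ← pow_add, Nat.add_sub_cancel' hmn.le, heq]
  have hstep : ∀ n : ℕ, (σ ^ (n + 1)) x = σ ((σ ^ n) x) := fun n => by
    rw [pow_succ', AlgEquiv.mul_apply]
  rcases lt_trichotomy (A.valuation (σ x)) (A.valuation x) with h | h | h
  · exfalso
    have : ∀ n : ℕ, A.valuation ((σ ^ (n + 1)) x) < A.valuation x := by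
      intro n
      induction n with
      | zero => rw [zero_add, pow_one]; exact h
      | succ n ih =>
        rw [hstep (n + 1)]
        exact ((valuation_map_lt_iff hσ _ _).2 ih).trans h
    obtain ⟨j, rfl⟩ := Nat.exists_eq_succ_of_ne_zero hk.ne'
    exact (this j).ne (by rw [hkx])
  · exact h
  · exfalso
    have : ∀ n : ℕ, A.valuation x < A.valuation ((σ ^ (n + 1)) x) := by
      intro n
      induction n with
      | zero => rw [zero_add, pow_one]; exact h
      | succ n ih =>
        rw [hstep (n + 1)]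
        exact h.trans ((valuation_map_lt_iff hσ _ _).2 ih)
    obtain ⟨j, rfl⟩ := Nat.exists_eq_succ_of_ne_zero hk.ne'
    exact (this j).ne' (by rw [hkx])

/-- An inertia element acts trivially on residues. -/
theorem valuation_map_sub_lt_one {σ : K ≃ₐ[S] K} (hσ : σ ∈ A.inertiaSubgroupIn S) {x : K}
    (hx : x ∈ A) : A.valuation (σ x - x) < 1 := by
  obtain ⟨g, hg, rfl⟩ := hσ
  have h1 := RingEquiv.congr_fun (MonoidHom.mem_ker.1 hg) (IsLocalRing.residue A ⟨x, hx⟩)
  change g • IsLocalRing.residue A ⟨x, hx⟩ = IsLocalRing.residue A ⟨x, hx⟩ at h1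
  rw [← IsLocalRing.ResidueField.residue_smul, ← sub_eq_zero, ← map_sub,
    IsLocalRing.residue_eq_zero_iff, A.valuation_lt_one_iff] at h1
  exact h1

end Field

section Points

variable {R : Type r} {S : Type s} {K : Type v} [CommRing R] [Field S] [Field K]
  [DecidableEq K] [Algebra R S] [Algebra R K] [Algebra S K] [IsScalarTower R S K]
  {W' : WeierstrassCurve R} {A : ValuationSubring K}

omit [IsScalarTower R S K] [DecidableEq K] in
theorem map_coeff (σ : K ≃ₐ[S] K) [IsScalarTower R S K] (a : R) :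
    σ (algebraMap R K a) = algebraMap R K a := by
  rw [IsScalarTower.algebraMap_apply R S K, σ.commutes]

theorem smul_some_eq {x y : K} (h : (W'⁄K).toAffine.Nonsingular x y) (σ : K ≃ₐ[S] K) :
    σ • (Affine.Point.some x y h : (W'⁄K).Point)
      = Affine.Point.some (σ x) (σ y)
          ((W'.toAffine.baseChange_nonsingular (f := σ.toAlgHom) σ.toAlgHom.injective x y).2 h) := rfl

/-- Decomposition elements preserve `E₁`. -/
theorem InKernel.smul {P : (W'⁄K).Point} (hP : InKernel A P) {σ : K ≃ₐ[S] K}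
    (hσ : σ ∈ A.decompositionSubgroup S) : InKernel A (σ • P) := by
  match P, hP with
  | .zero, _ => exact trivial
  | .some x y h, hP => exact fun hx => hP ((map_mem_iff_of_decomposition hσ x).1 hx)

theorem map_polyX (σ : K ≃ₐ[S] K) (x y : K) :
    (W'⁄K).a₁ * σ y - (3 * σ x ^ 2 + 2 * (W'⁄K).a₂ * σ x + (W'⁄K).a₄)
      = σ ((W'⁄K).a₁ * y - (3 * x ^ 2 + 2 * (W'⁄K).a₂ * x + (W'⁄K).a₄)) := by
  simp only [WeierstrassCurve.baseChange, WeierstrassCurve.map_a₁, WeierstrassCurve.map_a₂,
    WeierstrassCurve.map_a₄, map_sub, map_add, map_mul, map_pow, map_ofNat, map_coeff σ]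

theorem map_polyY (σ : K ≃ₐ[S] K) (x y : K) :
    2 * σ y + (W'⁄K).a₁ * σ x + (W'⁄K).a₃ = σ (2 * y + (W'⁄K).a₁ * x + (W'⁄K).a₃) := by
  simp only [WeierstrassCurve.baseChange, WeierstrassCurve.map_a₁, WeierstrassCurve.map_a₃,
    map_add, map_mul, map_ofNat, map_coeff σ]

/-- Decomposition elements preserve `E₀`. -/
theorem NonsingRed.smul {P : (W'⁄K).Point} (hP : NonsingRed A P) {σ : K ≃ₐ[S] K}
    (hσ : σ ∈ A.decompositionSubgroup S) : NonsingRed A (σ • P) := by
  match P, hP with
  | .zero, _ => exact trivial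
  | .some x y h, hP =>
    rw [smul_some_eq]
    rcases hP with hx | ⟨hx, hy, hv⟩
    · exact Or.inl fun hx' => hx ((map_mem_iff_of_decomposition hσ x).1 hx')
    · rw [Affine.evalEval_polynomialX, Affine.evalEval_polynomialY] at hv
      rw [nonsingRed_some_iff ((map_mem_iff_of_decomposition hσ x).2 hx)
        ((map_mem_iff_of_decomposition hσ y).2 hy), map_polyX, map_polyY,
        valuation_map_eq_one_iff hσ, valuation_map_eq_one_iff hσ]
      exact hv

/-- An inertia element moves a point of `E₀` by an element of `E₁`. -/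
theorem inKernel_smul_sub (hV : IntegralAt A (W'⁄K)) {σ : K ≃ₐ[S] K}
    (hσ : σ ∈ A.inertiaSubgroupIn S) {P : (W'⁄K).Point} (hP : NonsingRed A P) :
    InKernel A (σ • P - P) := by
  have hσ' := decomposition_of_inertia hσ
  match P, hP with
  | .zero, _ => rw [← Affine.Point.zero_def, smul_zero, sub_zero]; exact trivial
  | .some x y h, hP =>
    by_cases hx : x ∈ A
    · have hy := y_mem_of_x_mem hV h.1 hx
      have hP' := NonsingRed.smul hP hσ'
      rw [smul_some_eq] at hP' ⊢
      rw [sub_eq_add_neg, Affine.Point.neg_some]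
      refine inKernel_add_of_opposite hV ((map_mem_iff_of_decomposition hσ' x).2 hx) hx hP'
        (valuation_map_sub_lt_one hσ hx) ?_
      rw [Affine.negY_negY]
      exact valuation_map_sub_lt_one hσ hy
    · rw [sub_eq_add_neg]
      exact InKernel.add hV (InKernel.smul (P := .some x y h) hx hσ') (InKernel.neg hV hx)

/-- Inertia fixes the prime-to-residue-characteristic torsion of `E₀`. -/
theorem smul_eq_self_of_nonsingRed (hV : IntegralAt A (W'⁄K)) {σ : K ≃ₐ[S] K}
    (hσ : σ ∈ A.inertiaSubgroupIn S) {P : (W'⁄K).Point} (hP : NonsingRed A P)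
    {m : ℕ} (hm : A.valuation (m : K) = 1) (h : m • P = 0) : σ • P = P := by
  refine sub_eq_zero.1 ((inKernel_smul_sub hV hσ hP).eq_zero_of_nsmul hV hm ?_)
  rw [smul_sub, h, sub_zero, smul_comm, h, smul_zero]

/-- Good reduction: every point reduces to a nonsingular point. -/
theorem nonsingRed_of_good {V : WeierstrassCurve K} (hV : GoodAt A V) (P : V.toAffine.Point) :
    NonsingRed A P := by
  match P with
  | .zero => exact trivial
  | .some x y h =>
    by_cases hx : x ∈ A
    · have hi := hV.toIntegralAt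
      have hy := y_mem_of_x_mem hi h.1 hx
      rw [← redCurve_nonsingular_iff hi hx hy]
      refine ((redCurve hi).toAffine.equation_iff_nonsingular_of_Δ_ne_zero ?_).1
        (redCurve_equation hi h.1 hx hy)
      change (redCurve hi).Δ ≠ 0
      rw [← modelOver_map_residue hi, WeierstrassCurve.map_Δ, Ne,
        IsLocalRing.residue_eq_zero_iff, A.valuation_lt_one_iff]
      have : (((modelOver hi).Δ : A) : K) = V.Δ := by
        conv_rhs => rw [← modelOver_map_subtype hi, WeierstrassCurve.map_Δ]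
        rfl
      rw [this, hV.valuation_Δ]
      exact lt_irrefl _
    · exact Or.inl hx

/-- Néron–Ogg–Shafarevich, the easy direction. -/
theorem smul_eq_self_of_good (hV : GoodAt A (W'⁄K)) {σ : K ≃ₐ[S] K}
    (hσ : σ ∈ A.inertiaSubgroupIn S) {P : (W'⁄K).Point}
    {m : ℕ} (hm : A.valuation (m : K) = 1) (h : m • P = 0) : σ • P = P :=
  smul_eq_self_of_nonsingRed hV.toIntegralAt hσ (nonsingRed_of_good hV P) hm h

theorem redPoint_add_of_good [DecidableEq (IsLocalRing.ResidueField A)] {V : WeierstrassCurve K}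
    (hV : GoodAt A V) (P Q : V.toAffine.Point) :
    redPoint hV.toIntegralAt (P + Q)
      = redPoint hV.toIntegralAt P + redPoint hV.toIntegralAt Q :=
  redPoint_add hV.toIntegralAt (nonsingRed_of_good hV P) (nonsingRed_of_good hV Q)

theorem redPoint_eq_zero_iff_of_good {V : WeierstrassCurve K} (hV : GoodAt A V)
    (P : V.toAffine.Point) : redPoint hV.toIntegralAt P = 0 ↔ InKernel A P :=
  redPoint_eq_zero_iff hV.toIntegralAt (nonsingRed_of_good hV P)

/-- Reduction is injective on torsion of order invertible in the residue field. -/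
theorem redPoint_eq_zero_imp_of_good {V : WeierstrassCurve K} (hV : GoodAt A V)
    {P : V.toAffine.Point} {m : ℕ} (hm : A.valuation (m : K) = 1) (h : m • P = 0)
    (h0 : redPoint hV.toIntegralAt P = 0) : P = 0 :=
  ((redPoint_eq_zero_iff_of_good hV P).1 h0).eq_zero_of_nsmul hV.toIntegralAt hm h

end Points

end Fermat.Agent.ECLocal
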