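import Fermat.Agent.ECLocal.Basic

/-!
# The kernel of reduction via the chord construction in the coordinates `z = -x/y`, `w = -1/y`
-/

set_option autoImplicit false

universe v

namespace Fermat.Agent.ECLocal

open WeierstrassCurve

variable {K : Type v} [Field K] {A : ValuationSubring K} {V : WeierstrassCurve K}

/-- The parameter `z = -x/y` at infinity. -/
def zCoord : V.toAffine.Point → K
  | .zero => 0
  | .some x y _ => -x / y

theorem zCoord_zero : zCoord (0 : V.toAffine.Point) = 0 := rfl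

theorem zCoord_some {x y : K} (h : V.toAffine.Nonsingular x y) :
    zCoord (Affine.Point.some x y h) = -x / y := rfl

/-- The coordinates `(z, w)` of a point with nonintegral `x`. -/
theorem zw_of_not_mem (hV : IntegralAt A V) {x y : K} (h : V.toAffine.Equation x y) (hx : x ∉ A) :
    y ≠ 0 ∧ A.valuation (-x / y) < 1 ∧ 0 < A.valuation (-x / y) ∧
      A.valuation (-1 / y) = A.valuation (-x / y) ^ 3 ∧
      (-1 / y) = (-x / y) ^ 3 + V.a₁ * (-x / y) * (-1 / y) + V.a₂ * (-x / y) ^ 2 * (-1 / y)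
        + V.a₃ * (-1 / y) ^ 2 + V.a₄ * (-x / y) * (-1 / y) ^ 2 + V.a₆ * (-1 / y) ^ 3 := by
  obtain ⟨hxy, hsq⟩ := v_coords_of_not_mem hV h hx
  have h1 := one_lt_v hx
  have hx0 : 0 < A.valuation x := zero_lt_one.trans h1
  have hy0 : 0 < A.valuation y := hx0.trans hxy
  have hy : y ≠ 0 := by rintro rfl; simp at hy0
  have hz : A.valuation (-x / y) = A.valuation x / A.valuation y := by
    rw [map_div₀, Valuation.map_neg]
  refine ⟨hy, ?_, ?_, ?_, ?_⟩
  · rw [hz, div_lt_one₀ hy0]; exact hxy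
  · rw [hz]; exact div_pos hx0 hy0
  · rw [hz, map_div₀, Valuation.map_neg, map_one, div_pow, ← hsq]
    field_simp
  · rw [Affine.equation_iff] at h
    field_simp
    linear_combination -h

/-- The cubic in `(z, w)`: the difference quotient along two of its points. -/
theorem zw_sub_identity {z₁ z₂ w₁ w₂ : K}
    (h₁ : w₁ = z₁ ^ 3 + V.a₁ * z₁ * w₁ + V.a₂ * z₁ ^ 2 * w₁ + V.a₃ * w₁ ^ 2
      + V.a₄ * z₁ * w₁ ^ 2 + V.a₆ * w₁ ^ 3)
    (h₂ : w₂ = z₂ ^ 3 + V.a₁ * z₂ * w₂ + V.a₂ * z₂ ^ 2 * w₂ + V.a₃ * w₂ ^ 2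
      + V.a₄ * z₂ * w₂ ^ 2 + V.a₆ * w₂ ^ 3) :
    (w₂ - w₁) * (1 - (V.a₁ * z₁ + V.a₂ * z₁ ^ 2 + V.a₃ * (w₁ + w₂) + V.a₄ * z₁ * (w₁ + w₂)
        + V.a₆ * (w₁ ^ 2 + w₁ * w₂ + w₂ ^ 2)))
      = (z₂ - z₁) * (z₁ ^ 2 + z₁ * z₂ + z₂ ^ 2 + V.a₁ * w₂ + V.a₂ * (z₁ + z₂) * w₂
        + V.a₄ * w₂ ^ 2) := by
  linear_combination h₂ - h₁

/-- Bounds on the two polynomials of the difference quotient. -/
theorem zw_bounds (hV : IntegralAt A V) {t : A.ValueGroup} (ht : t < 1) {z₁ z₂ w₁ w₂ : K}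
    (hz₁ : A.valuation z₁ ≤ t) (hz₂ : A.valuation z₂ ≤ t)
    (hw₁ : A.valuation w₁ ≤ t ^ 3) (hw₂ : A.valuation w₂ ≤ t ^ 3) :
    A.valuation (1 - (V.a₁ * z₁ + V.a₂ * z₁ ^ 2 + V.a₃ * (w₁ + w₂) + V.a₄ * z₁ * (w₁ + w₂)
        + V.a₆ * (w₁ ^ 2 + w₁ * w₂ + w₂ ^ 2))) = 1 ∧
    A.valuation (z₁ ^ 2 + z₁ * z₂ + z₂ ^ 2 + V.a₁ * w₂ + V.a₂ * (z₁ + z₂) * w₂
        + V.a₄ * w₂ ^ 2) ≤ t ^ 2 := by
  have h3t : t ^ 3 ≤ t := pow_le_of_le_one zero_le ht.le (by norm_num)
  have h2t : t ^ 2 ≤ t := pow_le_of_le_one zero_le ht.le (by norm_num)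
  have h32 : t ^ 3 ≤ t ^ 2 := pow_le_pow_right_of_le_one' ht.le (by norm_num)
  have hz₁A := v_le_one (mem_of_v_lt_one (hz₁.trans_lt ht))
  have hw₂1 : A.valuation w₂ ≤ 1 := hw₂.trans (h3t.trans ht.le)
  have hw₁1 : A.valuation w₁ ≤ 1 := hw₁.trans (h3t.trans ht.le)
  constructor
  · refine A.valuation.map_one_sub_of_lt (lt_of_le_of_lt ?_ ht)
    have hw12 : A.valuation (w₁ + w₂) ≤ t :=
      (A.valuation.map_add_le hw₁ hw₂).trans h3t
    refine A.valuation.map_add_le (A.valuation.map_add_le (A.valuation.map_add_le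
      (A.valuation.map_add_le ?_ ?_) ?_) ?_) ?_
    · exact v_mul_le_of_mem hV.a₁_mem hz₁
    · refine v_mul_le_of_mem hV.a₂_mem ?_
      rw [sq]; exact (v_mul_le hz₁ hz₁A).trans (le_of_eq (mul_one t))
    · exact v_mul_le_of_mem hV.a₃_mem hw12
    · exact (v_mul_le (v_mul_le_of_mem hV.a₄_mem hz₁A) hw12).trans (le_of_eq (one_mul t))
    · refine v_mul_le_of_mem hV.a₆_mem (A.valuation.map_add_le (A.valuation.map_add_le ?_ ?_) ?_)
      · rw [sq]; exact (v_mul_le hw₁ hw₁1).trans ((mul_one _).trans_le h3t)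
      · exact (v_mul_le hw₁ hw₂1).trans ((mul_one _).trans_le h3t)
      · rw [sq]; exact (v_mul_le hw₂ hw₂1).trans ((mul_one _).trans_le h3t)
  · refine A.valuation.map_add_le (A.valuation.map_add_le (A.valuation.map_add_le
      (A.valuation.map_add_le (A.valuation.map_add_le ?_ ?_) ?_) ?_) ?_) ?_
    · rw [map_pow]; exact pow_le_pow_left' hz₁ 2
    · exact (v_mul_le hz₁ hz₂).trans_eq (sq t).symm
    · rw [map_pow]; exact pow_le_pow_left' hz₂ 2
    · exact (v_mul_le_of_mem hV.a₁_mem hw₂).trans h32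
    · refine (v_mul_le (v_mul_le_of_mem hV.a₂_mem (A.valuation.map_add_le hz₁ hz₂)) hw₂).trans ?_
      calc t * t ^ 3 ≤ 1 * t ^ 2 := mul_le_mul' ht.le h32
        _ = t ^ 2 := one_mul _
    · refine v_mul_le_of_mem hV.a₄_mem ?_
      rw [sq]; exact (v_mul_le hw₂ hw₂1).trans ((mul_one _).trans_le h32)

/-- The line through two points of `E₁` in the `(z, w)` coordinates. -/
theorem line_of_not_mem [DecidableEq K] (hV : IntegralAt A V) {x₁ y₁ x₂ y₂ : K}
    (h₁ : V.toAffine.Equation x₁ y₁) (h₂ : V.toAffine.Equation x₂ y₂)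
    (hx₁ : x₁ ∉ A) (hx₂ : x₂ ∉ A) (hxy : ¬(x₁ = x₂ ∧ y₁ = V.toAffine.negY x₂ y₂))
    {t : A.ValueGroup} (ht : t < 1) (ht₁ : A.valuation (-x₁ / y₁) ≤ t)
    (ht₂ : A.valuation (-x₂ / y₂) ≤ t) :
    ∃ lam ν : K, A.valuation lam ≤ t ^ 2 ∧ A.valuation ν ≤ t ^ 3 ∧ ν ≠ 0 ∧
      V.toAffine.slope x₁ x₂ y₁ y₂ = lam / ν ∧
      y₁ - V.toAffine.slope x₁ x₂ y₁ y₂ * x₁ = -1 / ν := by
  obtain ⟨hy₁, hz₁, hz₁0, hw₁, he₁⟩ := zw_of_not_mem hV h₁ hx₁
  obtain ⟨hy₂, hz₂, hz₂0, hw₂, he₂⟩ := zw_of_not_mem hV h₂ hx₂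
  have hxv₁ : x₁ = (-x₁ / y₁) / (-1 / y₁) := by field_simp
  have hxv₂ : x₂ = (-x₂ / y₂) / (-1 / y₂) := by field_simp
  have hyv₁ : y₁ = -1 / (-1 / y₁) := by field_simp
  have hyv₂ : y₂ = -1 / (-1 / y₂) := by field_simp
  have hw₁0 : (-1 / y₁) ≠ 0 := div_ne_zero (neg_ne_zero.2 one_ne_zero) hy₁
  have hw₂0 : (-1 / y₂) ≠ 0 := div_ne_zero (neg_ne_zero.2 one_ne_zero) hy₂
  have hw₁t : A.valuation (-1 / y₁) ≤ t ^ 3 := hw₁ ▸ pow_le_pow_left' ht₁ 3
  have hw₂t : A.valuation (-1 / y₂) ≤ t ^ 3 := hw₂ ▸ pow_le_pow_left' ht₂ 3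
  generalize hz₁d : (-x₁ / y₁) = z₁ at *
  generalize hz₂d : (-x₂ / y₂) = z₂ at *
  generalize hw₁d : (-1 / y₁) = w₁ at *
  generalize hw₂d : (-1 / y₂) = w₂ at *
  obtain ⟨hH, hG⟩ := zw_bounds hV ht ht₁ ht₂ hw₁t hw₂t
  have hid := zw_sub_identity he₁ he₂
  generalize hHd : (1 - (V.a₁ * z₁ + V.a₂ * z₁ ^ 2 + V.a₃ * (w₁ + w₂) + V.a₄ * z₁ * (w₁ + w₂)
    + V.a₆ * (w₁ ^ 2 + w₁ * w₂ + w₂ ^ 2))) = H at hH hid
  generalize hGd : (z₁ ^ 2 + z₁ * z₂ + z₂ ^ 2 + V.a₁ * w₂ + V.a₂ * (z₁ + z₂) * w₂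
    + V.a₄ * w₂ ^ 2) = G at hG hid
  have hH0 := ne_zero_of_v_eq_one hH
  have hlam : A.valuation (G / H) ≤ t ^ 2 := by rw [map_div₀, hH, div_one]; exact hG
  have hν : A.valuation (w₁ - G / H * z₁) ≤ t ^ 3 :=
    A.valuation.map_sub_le hw₁t
      ((v_mul_le hlam ht₁).trans_eq (pow_succ t 2).symm)
  have main : (w₁ - G / H * z₁) ≠ 0 ∧
      V.toAffine.slope x₁ x₂ y₁ y₂ = G / H / (w₁ - G / H * z₁) := by
    by_cases hx : x₁ = x₂
    · have hy : y₁ ≠ V.toAffine.negY x₂ y₂ := fun h => hxy ⟨hx, h⟩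
      have hyy := Affine.Y_eq_of_Y_ne h₁ h₂ hx hy
      have hzz : z₁ = z₂ := by rw [← hz₁d, ← hz₂d, hx, hyy]
      have hww : w₁ = w₂ := by rw [← hw₁d, ← hw₂d, hyy]
      subst hzz hww
      rw [Affine.slope_of_Y_ne hx hy]
      have hψ : y₁ - V.toAffine.negY x₁ y₁
          = (-2 + V.a₁ * z₁ + V.a₃ * w₁) / w₁ := by
        rw [Affine.negY, hyv₁, hxv₁]; field_simp; ring
      have hN : 3 * x₁ ^ 2 + 2 * V.a₂ * x₁ + V.a₄ - V.a₁ * y₁ = G / w₁ ^ 2 := by
        rw [hyv₁, hxv₁, ← hGd]; field_simp; ring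
      have hrel : H * w₁ = G * z₁ + (-2 + V.a₁ * z₁ + V.a₃ * w₁) * w₁ := by
        rw [← hHd, ← hGd]; linear_combination 3 * he₁
      have hψ0 : (-2 + V.a₁ * z₁ + V.a₃ * w₁) ≠ 0 := by
        intro h0
        refine hy ?_
        have : y₁ - V.toAffine.negY x₁ y₁ = 0 := by rw [hψ, h0, zero_div]
        rw [← hx, ← hyy]
        exact sub_eq_zero.1 this
      have hνval : w₁ - G / H * z₁ = (-2 + V.a₁ * z₁ + V.a₃ * w₁) * w₁ / H := by
        field_simp
        linear_combination hrel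
      refine ⟨?_, ?_⟩
      · rw [hνval]; exact div_ne_zero (mul_ne_zero hψ0 hw₁0) hH0
      · rw [hψ, hN, hνval]; field_simp
    · have hne : z₁ ≠ z₂ := by
        intro hzz
        have : (w₂ - w₁) * H = 0 := by rw [hid, hzz]; ring
        have hww : w₁ = w₂ := (sub_eq_zero.1 ((mul_eq_zero.1 this).resolve_right hH0)).symm
        exact hx (by rw [hxv₁, hxv₂, hzz, hww])
      have hl₂ : w₂ = G / H * z₂ + (w₁ - G / H * z₁) := by
        field_simp
        linear_combination hid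
      have hν0 : w₁ - G / H * z₁ ≠ 0 := by
        intro h0
        rw [h0, add_zero] at hl₂
        rw [sub_eq_zero] at h0
        apply hx
        have hl0 : G / H ≠ 0 := fun hh => hw₁0 (by rw [h0, hh, zero_mul])
        have hz₁ne : z₁ ≠ 0 := fun hh => hw₁0 (by rw [h0, hh, mul_zero])
        have hz₂ne : z₂ ≠ 0 := fun hh => hw₂0 (by rw [hl₂, hh, mul_zero])
        rw [hxv₁, hxv₂, h0, hl₂]
        field_simp
      refine ⟨hν0, ?_⟩
      generalize G / H = lam at hl₂ hν0 ⊢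
      rw [Affine.slope_of_X_ne hx, div_eq_div_iff (sub_ne_zero.2 hx) hν0, hxv₁, hxv₂, hyv₁, hyv₂]
      field_simp
      linear_combination -w₁ * hl₂
  refine ⟨G / H, w₁ - G / H * z₁, hlam, hν, main.1, main.2, ?_⟩
  rw [main.2, hxv₁, hyv₁]
  have := main.1
  generalize G / H = lam at this ⊢
  generalize hνd : w₁ - lam * z₁ = ν at this ⊢
  obtain rfl : w₁ = ν + lam * z₁ := by rw [← hνd]; ring
  field_simp
  ring

/-- Addition of points of `E₁`, to first order in the parameter `z`. -/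
theorem add_inKernel_aux [DecidableEq K] (hV : IntegralAt A V) {P Q : V.toAffine.Point}
    (hP : InKernel A P) (hQ : InKernel A Q) {t : A.ValueGroup} (ht : t < 1)
    (htP : A.valuation (zCoord P) ≤ t) (htQ : A.valuation (zCoord Q) ≤ t) :
    InKernel A (P + Q) ∧ A.valuation (zCoord (P + Q)) ≤ t ∧
      A.valuation (zCoord (P + Q) - zCoord P - zCoord Q) ≤ t ^ 2 := by
  have h2t : t ^ 2 ≤ t := pow_le_of_le_one zero_le ht.le (by norm_num)
  match P, Q with
  | .zero, Q =>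
    rw [← Affine.Point.zero_def, zero_add, zCoord_zero, sub_zero, sub_self, map_zero]
    exact ⟨hQ, htQ, zero_le⟩
  | .some x₁ y₁ h₁, .zero =>
    rw [← Affine.Point.zero_def, add_zero, zCoord_zero, sub_zero, sub_self, map_zero]
    exact ⟨hP, htP, zero_le⟩
  | .some x₁ y₁ h₁, .some x₂ y₂ h₂ =>
    rw [inKernel_some_iff] at hP hQ
    rw [zCoord_some] at htP htQ
    obtain ⟨hy₁, hz₁, -, hw₁, -⟩ := zw_of_not_mem hV h₁.1 hP
    obtain ⟨hy₂, hz₂, -, hw₂, -⟩ := zw_of_not_mem hV h₂.1 hQ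
    by_cases hxy : x₁ = x₂ ∧ y₁ = V.toAffine.negY x₂ y₂
    · rw [Affine.Point.add_of_Y_eq hxy.1 hxy.2]
      refine ⟨trivial, by rw [zCoord_zero, map_zero]; exact zero_le, ?_⟩
      rw [zCoord_zero, zero_sub, zCoord_some, zCoord_some, hxy.1, hxy.2]
      have hden : A.valuation (V.a₁ * (-x₂ / y₂) + V.a₃ * (-1 / y₂)) ≤ t := by
        refine A.valuation.map_add_le (v_mul_le_of_mem hV.a₁_mem htQ)
          ((v_mul_le_of_mem hV.a₃_mem (hw₂.trans_le (pow_le_pow_left' htQ 3))).trans ?_)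
        exact pow_le_of_le_one zero_le ht.le (by norm_num)
      have hu : A.valuation (1 - (V.a₁ * (-x₂ / y₂) + V.a₃ * (-1 / y₂))) = 1 :=
        A.valuation.map_one_sub_of_lt (hden.trans_lt ht)
      have hn : V.toAffine.negY x₂ y₂ ≠ 0 := by
        rw [← hxy.2]; exact hy₁
      have heq : -(-x₂ / V.toAffine.negY x₂ y₂) - -x₂ / y₂
          = (-x₂ / y₂) * (V.a₁ * (-x₂ / y₂) + V.a₃ * (-1 / y₂))
            / (1 - (V.a₁ * (-x₂ / y₂) + V.a₃ * (-1 / y₂))) := by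
        rw [show (1 - (V.a₁ * (-x₂ / y₂) + V.a₃ * (-1 / y₂))) = -V.toAffine.negY x₂ y₂ / y₂ by
          rw [Affine.negY]; field_simp; ring]
        field_simp
        rw [Affine.negY]
        ring
      rw [heq, map_div₀, hu, div_one, sq]
      exact v_mul_le htQ hden
    · obtain ⟨lam, ν, hlam, hν, hν0, hl, hc⟩ := line_of_not_mem hV h₁.1 h₂.1 hP hQ hxy ht htP htQ
      obtain ⟨e1, e2, e3, hy2, hy3⟩ := chord_vieta h₁.1 h₂.1 hxy rfl rfl rfl
      have heq₃ := Affine.equation_negAdd h₁.1 h₂.1 hxy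
      rw [Affine.Point.add_some hxy]
      rw [inKernel_some_iff, zCoord_some, zCoord_some, zCoord_some, Affine.addY]
      generalize hld : V.toAffine.slope x₁ x₂ y₁ y₂ = ℓ at *
      generalize hx3d : V.toAffine.addX x₁ x₂ ℓ = x₃ at *
      generalize hy3d : V.toAffine.negAddY x₁ x₂ y₁ ℓ = y₃ at *
      generalize hcd : y₁ - ℓ * x₁ = c at *
      have hy₁' : y₁ = ℓ * x₁ + c := by rw [← hcd]; ring
      have h3t : t ^ 3 ≤ t := pow_le_of_le_one zero_le ht.le (by norm_num)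
      have hlamt : A.valuation lam ≤ t := hlam.trans h2t
      have hνt : A.valuation ν ≤ t := hν.trans h3t
      have hlam1 : A.valuation lam ≤ 1 := hlamt.trans ht.le
      have hA3 : A.valuation (1 + (V.a₂ * lam + V.a₄ * lam ^ 2 + V.a₆ * lam ^ 3)) = 1 := by
        refine A.valuation.map_one_add_of_lt (lt_of_le_of_lt ?_ ht)
        refine A.valuation.map_add_le (A.valuation.map_add_le ?_ ?_) ?_
        · exact v_mul_le_of_mem hV.a₂_mem hlamt
        · refine v_mul_le_of_mem hV.a₄_mem ?_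
          rw [sq]; exact (v_mul_le hlamt hlam1).trans_eq (mul_one t)
        · refine v_mul_le_of_mem hV.a₆_mem ?_
          rw [pow_succ, sq]
          exact (v_mul_le (v_mul_le hlamt hlam1) hlam1).trans_eq (by rw [mul_one, mul_one])
      have hA30 := ne_zero_of_v_eq_one hA3
      have hprod : y₁ * y₂ * y₃ * (-ν) ^ 3
          = 1 + (V.a₂ * lam + V.a₄ * lam ^ 2 + V.a₆ * lam ^ 3) := by
        have hl' : ℓ * (-ν) = -lam := by rw [hl]; field_simp
        have hc' : c * (-ν) = 1 := by rw [hc]; field_simp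
        have : y₁ * y₂ * y₃
            = c ^ 3 - V.a₂ * ℓ * c ^ 2 + V.a₄ * ℓ ^ 2 * c - V.a₆ * ℓ ^ 3 := by
          rw [hy₁', hy2, hy3]
          linear_combination c ^ 2 * ℓ * e1 + c * ℓ ^ 2 * e2 + ℓ ^ 3 * e3
        rw [this]
        rw [show (c ^ 3 - V.a₂ * ℓ * c ^ 2 + V.a₄ * ℓ ^ 2 * c - V.a₆ * ℓ ^ 3) * (-ν) ^ 3
          = (c * (-ν)) ^ 3 - V.a₂ * (ℓ * (-ν)) * (c * (-ν)) ^ 2
            + V.a₄ * (ℓ * (-ν)) ^ 2 * (c * (-ν)) - V.a₆ * (ℓ * (-ν)) ^ 3 by ring, hl', hc']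
        ring
      have hy₃ : y₃ ≠ 0 := fun h => hA30 (by rw [← hprod, h]; ring)
      have hB : A.valuation (V.a₁ * lam + V.a₃ * lam ^ 2 + V.a₂ * ν + 2 * V.a₄ * lam * ν
          + 3 * V.a₆ * lam ^ 2 * ν) ≤ t ^ 2 := by
        have h32 : t ^ 3 ≤ t ^ 2 := pow_le_pow_right_of_le_one' ht.le (by norm_num)
        refine A.valuation.map_add_le (A.valuation.map_add_le (A.valuation.map_add_le
          (A.valuation.map_add_le ?_ ?_) ?_) ?_) ?_
        · exact v_mul_le_of_mem hV.a₁_mem hlam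
        · refine v_mul_le_of_mem hV.a₃_mem ?_
          rw [sq lam]; exact (v_mul_le hlam hlam1).trans_eq (mul_one _)
        · exact (v_mul_le_of_mem hV.a₂_mem hν).trans h32
        · refine (v_mul_le (v_mul_le (v_le_one ?_) hlam1) hν).trans ?_
          · exact A.mul_mem _ _ (ofNat_mem A 2) hV.a₄_mem
          · rw [one_mul, one_mul]; exact h32
        · refine (v_mul_le (v_mul_le (v_le_one ?_)
            ((map_pow A.valuation lam 2).le.trans (pow_le_one' hlam1 2))) hν).trans ?_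
          · exact A.mul_mem _ _ (ofNat_mem A 3) hV.a₆_mem
          · rw [one_mul, one_mul]; exact h32
      have hl2 : ℓ = lam / ν := hl
      have hsum : (-x₁ / y₁ + -x₂ / y₂ + -x₃ / y₃)
            * (1 + (V.a₂ * lam + V.a₄ * lam ^ 2 + V.a₆ * lam ^ 3))
          = -(V.a₁ * lam + V.a₃ * lam ^ 2 + V.a₂ * ν + 2 * V.a₄ * lam * ν
            + 3 * V.a₆ * lam ^ 2 * ν) := by
        rw [← hprod]
        have hnum : x₁ * y₂ * y₃ + x₂ * y₁ * y₃ + x₃ * y₁ * y₂
            = 3 * ℓ ^ 2 * (c ^ 2 + V.a₃ * c - V.a₆)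
              - 2 * ℓ * c * (2 * ℓ * c + V.a₁ * c + V.a₃ * ℓ - V.a₄)
              + c ^ 2 * (ℓ ^ 2 + V.a₁ * ℓ - V.a₂) := by
          rw [hy₁', hy2, hy3]
          linear_combination c ^ 2 * e1 + 2 * ℓ * c * e2 + 3 * ℓ ^ 2 * e3
        have hm : (-x₁ / y₁ + -x₂ / y₂ + -x₃ / y₃) * (y₁ * y₂ * y₃ * (-ν) ^ 3)
            = -(x₁ * y₂ * y₃ + x₂ * y₁ * y₃ + x₃ * y₁ * y₂) * (-ν) ^ 3 := by
          field_simp
          ring
        rw [hm, hnum, hl, hc]
        field_simp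
        ring
      have hz123 : A.valuation (-x₁ / y₁ + -x₂ / y₂ + -x₃ / y₃) ≤ t ^ 2 := by
        have := congrArg A.valuation hsum
        rw [map_mul, hA3, mul_one, Valuation.map_neg] at this
        exact this ▸ hB
      have hz3 : A.valuation (-x₃ / y₃) ≤ t := by
        rw [show -x₃ / y₃ = (-x₁ / y₁ + -x₂ / y₂ + -x₃ / y₃) - (-x₁ / y₁ + -x₂ / y₂) by ring]
        exact A.valuation.map_sub_le (hz123.trans h2t) (A.valuation.map_add_le htP htQ)
      have hw3 : A.valuation (-1 / y₃) ≤ t ^ 3 := by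
        have : -1 / y₃ = lam * (-x₃ / y₃) + ν := by
          rw [hl, hc] at hy3
          field_simp at hy3 ⊢
          linear_combination -hy3
        rw [this]
        exact A.valuation.map_add_le ((v_mul_le hlam hz3).trans_eq (pow_succ t 2).symm) hν
      have hy3A : y₃ ∉ A := by
        intro h
        have h1 : A.valuation y₃ * A.valuation (-1 / y₃) = 1 := by
          rw [← map_mul, show y₃ * (-1 / y₃) = -1 by field_simp, Valuation.map_neg, map_one]
        have h2 : A.valuation y₃ * A.valuation (-1 / y₃) < 1 :=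
          (mul_le_mul' (v_le_one h) hw3).trans_lt (by
            rw [one_mul]; exact h3t.trans_lt ht)
        exact h2.ne h1
      have hx3A : x₃ ∉ A := fun h => hy3A (y_mem_of_x_mem hV heq₃ h)
      have hden : A.valuation (V.a₁ * (-x₃ / y₃) + V.a₃ * (-1 / y₃)) ≤ t :=
        A.valuation.map_add_le (v_mul_le_of_mem hV.a₁_mem hz3)
          ((v_mul_le_of_mem hV.a₃_mem hw3).trans h3t)
      have hu : A.valuation (1 - (V.a₁ * (-x₃ / y₃) + V.a₃ * (-1 / y₃))) = 1 :=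
        A.valuation.map_one_sub_of_lt (hden.trans_lt ht)
      have hnz : -x₃ / V.toAffine.negY x₃ y₃
          = -(-x₃ / y₃) / (1 - (V.a₁ * (-x₃ / y₃) + V.a₃ * (-1 / y₃))) := by
        rw [show (1 - (V.a₁ * (-x₃ / y₃) + V.a₃ * (-1 / y₃))) = -V.toAffine.negY x₃ y₃ / y₃ by
          rw [Affine.negY]; field_simp; ring]
        field_simp
      refine ⟨hx3A, ?_, ?_⟩
      · rw [hnz, map_div₀, hu, div_one, Valuation.map_neg]; exact hz3
      · have : -x₃ / V.toAffine.negY x₃ y₃ - -x₁ / y₁ - -x₂ / y₂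
            = (-(-x₁ / y₁ + -x₂ / y₂ + -x₃ / y₃)
              + (-x₁ / y₁ + -x₂ / y₂) * (V.a₁ * (-x₃ / y₃) + V.a₃ * (-1 / y₃)))
              / (1 - (V.a₁ * (-x₃ / y₃) + V.a₃ * (-1 / y₃))) := by
          rw [hnz, eq_div_iff (ne_zero_of_v_eq_one hu), sub_mul, sub_mul,
            div_mul_cancel₀ _ (ne_zero_of_v_eq_one hu)]
          ring
        rw [this, map_div₀, hu, div_one]
        refine A.valuation.map_add_le (by rw [Valuation.map_neg]; exact hz123) ?_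
        exact (v_mul_le (A.valuation.map_add_le htP htQ) hden).trans_eq (sq t).symm

theorem valuation_zCoord_lt_one (hV : IntegralAt A V) {P : V.toAffine.Point}
    (hP : InKernel A P) : A.valuation (zCoord P) < 1 := by
  match P, hP with
  | .zero, _ =>
    rw [← Affine.Point.zero_def, zCoord_zero, map_zero]; exact zero_lt_one
  | .some x y h, hP => exact (zw_of_not_mem hV h.1 hP).2.1

theorem zCoord_ne_zero (hV : IntegralAt A V) {P : V.toAffine.Point} (hP : InKernel A P)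
    (h0 : P ≠ 0) : zCoord P ≠ 0 := by
  match P, hP with
  | .zero, _ => exact absurd Affine.Point.zero_def.symm h0
  | .some x y h, hP =>
    intro hz
    have := (zw_of_not_mem hV h.1 hP).2.2.1
    rw [zCoord_some] at hz
    rw [hz, map_zero] at this
    exact lt_irrefl _ this

/-- `E₁` is closed under addition. -/
theorem InKernel.add [DecidableEq K] (hV : IntegralAt A V) {P Q : V.toAffine.Point}
    (hP : InKernel A P) (hQ : InKernel A Q) : InKernel A (P + Q) :=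
  (add_inKernel_aux hV hP hQ (t := max (A.valuation (zCoord P)) (A.valuation (zCoord Q)))
    (max_lt (valuation_zCoord_lt_one hV hP) (valuation_zCoord_lt_one hV hQ))
    (le_max_left _ _) (le_max_right _ _)).1

theorem InKernel.neg (hV : IntegralAt A V) {P : V.toAffine.Point}
    (hP : InKernel A P) : InKernel A (-P) := by
  have _ := hV
  match P, hP with
  | .zero, _ => exact trivial
  | .some x y h, hP => exact hP

theorem InKernel.nsmul [DecidableEq K] (hV : IntegralAt A V) {P : V.toAffine.Point}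
    (hP : InKernel A P) (k : ℕ) : InKernel A (k • P) := by
  induction k with
  | zero => rw [zero_nsmul]; exact trivial
  | succ k ih => rw [succ_nsmul]; exact ih.add hV hP

/-- `z(kP) ≡ k z(P)` to first order. -/
theorem zCoord_nsmul_aux [DecidableEq K] (hV : IntegralAt A V) {P : V.toAffine.Point}
    (hP : InKernel A P) (k : ℕ) :
    A.valuation (zCoord (k • P)) ≤ A.valuation (zCoord P) ∧
      A.valuation (zCoord (k • P) - k * zCoord P) ≤ A.valuation (zCoord P) ^ 2 := by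
  induction k with
  | zero =>
    rw [zero_nsmul, zCoord_zero, Nat.cast_zero, zero_mul, sub_zero, map_zero]
    exact ⟨zero_le, zero_le⟩
  | succ k ih =>
    rw [succ_nsmul]
    obtain ⟨-, h1, h2⟩ :=
      add_inKernel_aux hV (hP.nsmul hV k) hP (valuation_zCoord_lt_one hV hP) ih.1 le_rfl
    refine ⟨h1, ?_⟩
    rw [show zCoord (k • P + P) - ((k + 1 : ℕ) : K) * zCoord P
      = (zCoord (k • P + P) - zCoord (k • P) - zCoord P)
        + (zCoord (k • P) - k * zCoord P) by push_cast; ring]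
    exact A.valuation.map_add_le h2 ih.2

/-- `E₁` has no torsion of order invertible in the residue field. -/
theorem InKernel.eq_zero_of_nsmul [DecidableEq K] (hV : IntegralAt A V) {P : V.toAffine.Point}
    (hP : InKernel A P) {m : ℕ} (hm : A.valuation (m : K) = 1) (h : m • P = 0) : P = 0 := by
  by_contra h0
  have hz := zCoord_ne_zero hV hP h0
  have h2 := (zCoord_nsmul_aux hV hP m).2
  rw [h, zCoord_zero, zero_sub, Valuation.map_neg, map_mul, hm, one_mul, sq] at h2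
  exact absurd h2 (not_le.2 (mul_lt_of_lt_one_right (v_pos hz) (valuation_zCoord_lt_one hV hP)))

end Fermat.Agent.ECLocal
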