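import Fermat.Agent.ECLocal.NormalForm
import Fermat.Agent.ECLocal.Components

/-!
# Inertia on points at multiplicative reduction
-/

set_option autoImplicit false

universe r s v

namespace Fermat.Agent.ECLocal

open WeierstrassCurve
open scoped WeierstrassCurve.Affine

variable {R : Type r} {S : Type s} {K : Type v} [CommRing R] [Field S] [Field K]
  [DecidableEq K] [Algebra R S] [Algebra R K] [Algebra S K] [IsScalarTower R S K]
  {W' : WeierstrassCurve R} {A : ValuationSubring K}

omit [DecidableEq K] in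
theorem baseChange_map_algEquiv (σ : K ≃ₐ[S] K) :
    (W'⁄K).map (σ : K →+* K) = W'⁄K := by
  ext <;>
    simp only [WeierstrassCurve.baseChange, WeierstrassCurve.map_a₁, WeierstrassCurve.map_a₂,
      WeierstrassCurve.map_a₃, WeierstrassCurve.map_a₄, WeierstrassCurve.map_a₆] <;>
    exact map_coeff σ _

variable [IsAlgClosed K] [CharZero K]

/-- A normal form for which every inertia element acts coefficientwise. -/
theorem exists_equivariant_normalForm (hV : MultAt A (W'⁄K)) :
    ∃ (a : K) (C : VariableChange K), IntegralVC A C ∧ TateForm A (C • (W'⁄K)) ∧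
      A.valuation a = A.valuation (W'⁄K).Δ ∧ (C • (W'⁄K)).a₆ = a ∧
      ∀ σ : K ≃ₐ[S] K, σ ∈ A.inertiaSubgroupIn S → ∀ x y : K,
        vcX C (σ x) = σ (vcX C x) ∧ vcY C (σ x) (σ y) = σ (vcY C x y) := by
  obtain ⟨a, C, hI, hC, hT, hva, huniq⟩ := exists_normalForm hV hV.Δ_ne_zero
  refine ⟨a, C, hI, hC ▸ hT, hva, by rw [hC]; rfl, fun σ hσ x y => ?_⟩
  obtain ⟨-, hu, hr, hs, ht⟩ := normalForm_fixed hV hI hC hT.a₆_lt huniq (σ : K →+* K)
    (baseChange_map_algEquiv σ) fun z hz => valuation_map_sub_lt_one hσ hz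
  change σ (C.u : K) = C.u at hu
  change σ C.r = C.r at hr
  change σ C.s = C.s at hs
  change σ C.t = C.t at ht
  simp [vcX, vcY, map_div₀, map_sub, map_mul, map_pow, hu, hr, hs, ht]

variable [Algebra.IsAlgebraic S K]

/-- Multiplicative reduction: inertia moves every point by an element of `E₀`. -/
theorem nonsingRed_smul_sub (hV : MultAt A (W'⁄K)) {σ : K ≃ₐ[S] K}
    (hσ : σ ∈ A.inertiaSubgroupIn S) (P : (W'⁄K).Point) : NonsingRed A (σ • P - P) := by
  have hσ' := decomposition_of_inertia hσ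
  by_cases hP : NonsingRed A P
  · exact (inKernel_smul_sub hV.toIntegralAt hσ hP).nonsingRed
  obtain ⟨a, C, hI, hT, -, -, heq⟩ := exists_equivariant_normalForm (S := S) hV
  rw [← hI.nonsingRed_iff hV.toIntegralAt, map_sub]
  rw [← hI.nonsingRed_iff hV.toIntegralAt] at hP
  obtain ⟨γ, hγ⟩ := hT.exists_label hP
  match P, hP, hγ with
  | .zero, hP, _ => exact absurd trivial hP
  | .some x y h, _, hγ =>
    rw [smul_some_eq, vcMap_some, vcMap_some]
    rw [vcMap_some] at hγ
    obtain ⟨hX, hY⟩ := heq σ hσ x y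
    rcases hγ with hγ | hγ
    · refine hT.nonsingRed_sub (γ := γ) ?_ hγ
      obtain ⟨h1, h2, h3, h4⟩ := hγ
      exact ⟨by rw [hX, valuation_map_eq hσ']; exact h1,
        by rw [hY, valuation_map_eq hσ']; exact h2,
        by rw [hY, valuation_map_eq hσ']; exact h3,
        by rw [hX, hY, ← map_add σ, valuation_map_eq hσ']; exact h4⟩
    · rw [← neg_sub_neg]
      refine hT.nonsingRed_sub (γ := γ) hγ ?_
      rw [Affine.Point.neg_some] at hγ ⊢
      obtain ⟨h1, h2, h3, h4⟩ := hγ
      rw [hT.negY_eq] at h2 h3 h4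
      refine ⟨by rw [hX, valuation_map_eq hσ']; exact h1, ?_, ?_, ?_⟩ <;>
        rw [hT.negY_eq, hX, hY, ← map_add σ, ← map_neg σ]
      · rw [valuation_map_eq hσ']; exact h2
      · rw [valuation_map_eq hσ']; exact h3
      · rw [← map_add σ, valuation_map_eq hσ']; exact h4

/-- An inertia element fixing some `c` with `v(c) ^ p = v(Δ)` moves `p`-torsion by elements of
`E₁` (any residue characteristic, `p` included). -/
theorem inKernel_smul_sub_of_fixed (hV : MultAt A (W'⁄K)) {σ : K ≃ₐ[S] K}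
    (hσ : σ ∈ A.inertiaSubgroupIn S) {p : ℕ} (hp : p.Prime) {c : K} (hσc : σ c = c)
    (hc : A.valuation c ^ p = A.valuation (W'⁄K).Δ)
    {P : (W'⁄K).Point} (hP : p • P = 0) : InKernel A (σ • P - P) := by
  have hσ' := decomposition_of_inertia hσ
  by_cases hP0 : NonsingRed A P
  · exact inKernel_smul_sub hV.toIntegralAt hσ hP0
  obtain ⟨a, C, hI, hT, hva, ha6, heq⟩ := exists_equivariant_normalForm (S := S) hV
  rw [← hI.inKernel_iff, map_sub]
  rw [← hI.nonsingRed_iff hV.toIntegralAt] at hP0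
  obtain ⟨γ, hγ⟩ := hT.exists_label hP0
  have hQ : p • vcMap (W'⁄K) C P = 0 := by rw [← map_nsmul, hP, map_zero]
  -- the label is the valuation of an element fixed by `σ`
  have hlab : ∃ b : K, b ≠ 0 ∧ σ b = b ∧ A.valuation b = γ := by
    obtain ⟨m, hm⟩ : ∃ m : ℕ, γ ^ p = A.valuation (C • (W'⁄K)).a₆ ^ m := by
      rcases hγ with hγ | hγ
      · exact hT.exists_pow_of_torsion hγ hQ
      · exact hT.exists_pow_of_torsion hγ (by rw [smul_neg, hQ, neg_zero])
    rw [ha6, hva, ← hc, ← pow_mul, mul_comm, pow_mul, ← map_pow] at hm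
    refine ⟨c ^ m, pow_ne_zero m ?_, by rw [map_pow, hσc], ?_⟩
    · rintro rfl
      rw [map_zero, zero_pow hp.ne_zero] at hc
      exact v_ne_zero hV.Δ_ne_zero hc.symm
    · refine ((pow_left_inj₀ zero_le zero_le hp.ne_zero).1 ?_).symm
      rw [hm]
  obtain ⟨b, hb', hbσ, hb⟩ := hlab
  have hclose : ∀ z : K, A.valuation z = γ → A.valuation (σ z - z) < γ := by
    intro z hz
    have hq : z / b ∈ A := by
      rw [← A.valuation_le_one_iff, map_div₀, hz, hb, div_self]
      rw [← hb]; exact v_ne_zero hb'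
    have := valuation_map_sub_lt_one hσ hq
    rw [map_div₀ σ, hbσ, ← sub_div, map_div₀, div_lt_one₀ (v_pos hb'), hb] at this
    exact this
  match P, hP0, hγ with
  | .zero, hP0, _ => exact absurd trivial hP0
  | .some x y h, _, hγ =>
    rw [smul_some_eq, vcMap_some, vcMap_some]
    rw [vcMap_some] at hγ
    obtain ⟨hX, hY⟩ := heq σ hσ x y
    rcases hγ with hγ | hγ
    · refine hT.inKernel_sub (γ := γ) ?_ hγ ?_
      · obtain ⟨h1, h2, h3, h4⟩ := hγ
        exact ⟨by rw [hX, valuation_map_eq hσ']; exact h1,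
          by rw [hY, valuation_map_eq hσ']; exact h2,
          by rw [hY, valuation_map_eq hσ']; exact h3,
          by rw [hX, hY, ← map_add σ, valuation_map_eq hσ']; exact h4⟩
      · rw [hY]; exact hclose _ hγ.2.2.1
    · rw [← neg_sub_neg, Affine.Point.neg_some, Affine.Point.neg_some]
      rw [Affine.Point.neg_some] at hγ
      refine hT.inKernel_sub (γ := γ) hγ ?_ ?_
      · obtain ⟨h1, h2, h3, h4⟩ := hγ
        rw [hT.negY_eq] at h2 h3 h4
        refine ⟨by rw [hX, valuation_map_eq hσ']; exact h1, ?_, ?_, ?_⟩ <;>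
          rw [hT.negY_eq, hX, hY, ← map_add σ, ← map_neg σ]
        · rw [valuation_map_eq hσ']; exact h2
        · rw [valuation_map_eq hσ']; exact h3
        · rw [← map_add σ, valuation_map_eq hσ']; exact h4
      · have h3 := hγ.2.2.1
        rw [hT.negY_eq] at h3 ⊢
        rw [hT.negY_eq, hX, hY, ← map_add σ, ← map_neg σ, A.valuation.map_sub_swap]
        exact hclose _ h3

/-- Multiplicative reduction with `v(Δ) ∈ p·v(S)`: inertia moves `p`-torsion by elements of `E₁`
(any residue characteristic, `p` included). -/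
theorem inKernel_smul_sub_of_torsion (hV : MultAt A (W'⁄K)) {σ : K ≃ₐ[S] K}
    (hσ : σ ∈ A.inertiaSubgroupIn S) {p : ℕ} (hp : p.Prime) {c : S}
    (hc : A.valuation (algebraMap S K c) ^ p = A.valuation (W'⁄K).Δ)
    {P : (W'⁄K).Point} (hP : p • P = 0) : InKernel A (σ • P - P) :=
  inKernel_smul_sub_of_fixed hV hσ hp (σ.commutes c) hc hP

/-- An inertia element fixing some `c` with `v(c) ^ p = v(Δ)` fixes the `p`-torsion when `p` is
invertible in the residue field. -/
theorem smul_eq_self_of_fixed (hV : MultAt A (W'⁄K)) {σ : K ≃ₐ[S] K}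
    (hσ : σ ∈ A.inertiaSubgroupIn S) {p : ℕ} (hp : p.Prime) (hpu : A.valuation (p : K) = 1)
    {c : K} (hσc : σ c = c) (hc : A.valuation c ^ p = A.valuation (W'⁄K).Δ)
    {P : (W'⁄K).Point} (hP : p • P = 0) : σ • P = P := by
  refine sub_eq_zero.1 ((inKernel_smul_sub_of_fixed hV hσ hp hσc hc hP).eq_zero_of_nsmul
    hV.toIntegralAt hpu ?_)
  rw [smul_sub, hP, sub_zero, smul_comm, hP, smul_zero]

/-- Multiplicative reduction with `v(Δ) ∈ p·v(S)`: inertia fixes `p`-torsion. -/
theorem smul_eq_self_of_mult (hV : MultAt A (W'⁄K)) {σ : K ≃ₐ[S] K}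
    (hσ : σ ∈ A.inertiaSubgroupIn S) {p : ℕ} (hp : p.Prime) (hpu : A.valuation (p : K) = 1)
    {c : S} (hc : A.valuation (algebraMap S K c) ^ p = A.valuation (W'⁄K).Δ)
    {P : (W'⁄K).Point} (hP : p • P = 0) : σ • P = P := by
  refine sub_eq_zero.1 ((inKernel_smul_sub_of_torsion hV hσ hp hc hP).eq_zero_of_nsmul
    hV.toIntegralAt hpu ?_)
  rw [smul_sub, hP, sub_zero, smul_comm, hP, smul_zero]

/-- Multiplicative reduction: inertia is unipotent on the torsion of order invertible in the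
residue field; more precisely `(σ - 1)(τ - 1) = 0`. -/
theorem smul_smul_sub_eq_of_mult (hV : MultAt A (W'⁄K)) {σ τ : K ≃ₐ[S] K}
    (hσ : σ ∈ A.inertiaSubgroupIn S) (hτ : τ ∈ A.inertiaSubgroupIn S)
    {m : ℕ} (hm : A.valuation (m : K) = 1) {P : (W'⁄K).Point} (hP : m • P = 0) :
    σ • (τ • P - P) = τ • P - P :=
  smul_eq_self_of_nonsingRed hV.toIntegralAt hσ (nonsingRed_smul_sub hV hτ P) hm
    (by rw [smul_sub, hP, sub_zero, smul_comm, hP, smul_zero])

end Fermat.Agent.ECLocal
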