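import Fermat.Agent.ECLocal.Reduction
import Mathlib.GroupTheory.QuotientGroup.Defs
import Mathlib.FieldTheory.IsAlgClosed.Basic

/-!
# The component structure of `y² + xy = x³ + a`, `|a| < 1`

A singularly reduced point has a label `γ` (`HasLabel`), defined up to negation, with
`|a| ≤ γ² < 1`; the label is additive modulo `|a|`.
-/

set_option autoImplicit false

universe v

namespace Fermat.Agent.ECLocal

open WeierstrassCurve

variable {K : Type v} [Field K]

/-- The normal form `y² + xy = x³ + a` with `|a| < 1`. -/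
structure TateForm (A : ValuationSubring K) (V : WeierstrassCurve K) : Prop where
  a₁_eq : V.a₁ = 1
  a₂_eq : V.a₂ = 0
  a₃_eq : V.a₃ = 0
  a₄_eq : V.a₄ = 0
  a₆_ne : V.a₆ ≠ 0
  a₆_lt : A.valuation V.a₆ < 1

/-- A singularly reduced point with label `γ`. -/
def HasLabel (A : ValuationSubring K) (γ : A.ValueGroup) {V : WeierstrassCurve K} :
    V.toAffine.Point → Prop
  | .zero => False
  | .some x y _ => A.valuation x < 1 ∧ A.valuation y < 1 ∧ A.valuation y = γ ∧
      A.valuation (y + x) ≤ γ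

variable {A : ValuationSubring K} {V : WeierstrassCurve K}

namespace TateForm

theorem integralAt (hT : TateForm A V) : IntegralAt A V :=
  ⟨by rw [hT.a₁_eq]; exact A.one_mem, by rw [hT.a₂_eq]; exact A.zero_mem,
    by rw [hT.a₃_eq]; exact A.zero_mem, by rw [hT.a₄_eq]; exact A.zero_mem,
    mem_of_v_lt_one hT.a₆_lt⟩

theorem equation_iff (hT : TateForm A V) (x y : K) :
    V.toAffine.Equation x y ↔ y * (y + x) = x ^ 3 + V.a₆ := by
  rw [Affine.equation_iff, hT.a₁_eq, hT.a₂_eq, hT.a₃_eq, hT.a₄_eq]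
  constructor <;> intro h <;> linear_combination h

theorem negY_eq (hT : TateForm A V) (x y : K) : V.toAffine.negY x y = -(y + x) := by
  rw [Affine.negY, hT.a₁_eq, hT.a₃_eq]; ring

/-- A point is singularly reduced iff both coordinates are in the maximal ideal. -/
theorem nonsingRed_iff (hT : TateForm A V) {x y : K} {h : V.toAffine.Nonsingular x y} :
    NonsingRed A (Affine.Point.some x y h) ↔ ¬(A.valuation x < 1 ∧ A.valuation y < 1) := by
  by_cases hx : x ∈ A
  swap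
  · exact iff_of_true (Or.inl hx) fun h => hx (mem_of_v_lt_one h.1)
  have hy := y_mem_of_x_mem hT.integralAt h.1 hx
  rw [nonsingRed_some_iff hx hy, hT.a₁_eq, hT.a₂_eq, hT.a₃_eq, hT.a₄_eq]
  have e1 : (1 : K) * y - (3 * x ^ 2 + 2 * 0 * x + 0) = y - 3 * x ^ 2 := by ring
  have e2 : 2 * y + (1 : K) * x + 0 = 2 * y + x := by ring
  rw [e1, e2]
  have h3x : 3 * x ∈ A := A.mul_mem _ _ (ofNat_mem A 3) hx
  constructor
  · rintro hor ⟨hx1, hy1⟩
    have h2 : A.valuation (2 * y + x) < 1 :=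
      A.valuation.map_add_lt (v_mul_lt_one' (v_le_one (ofNat_mem A 2)) hy1) hx1
    have h1 : A.valuation (y - 3 * x ^ 2) < 1 := by
      rw [sq, ← mul_assoc]
      exact A.valuation.map_sub_lt hy1 (v_mul_lt_one' (v_le_one h3x) hx1)
    exact hor.elim h1.ne h2.ne
  · intro hn
    by_contra hcon
    rw [not_or] at hcon
    have hφm : y - 3 * x ^ 2 ∈ A := by
      rw [sq, ← mul_assoc]; exact A.toSubring.sub_mem hy (A.mul_mem _ _ h3x hx)
    have h1 := lt_of_le_of_ne (v_le_one hφm) hcon.1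
    have hψm : 2 * y + x ∈ A := A.add_mem _ _ (two_mul_mem hy) hx
    have h2 := lt_of_le_of_ne (v_le_one hψm) hcon.2
    have h6 : A.valuation ((6 * x + 1) * x) < 1 := by
      rw [show (6 * x + 1) * x = (2 * y + x) - 2 * (y - 3 * x ^ 2) by ring]
      exact A.valuation.map_sub_lt h2 (v_mul_lt_one' (v_le_one (ofNat_mem A 2)) h1)
    have he := (hT.equation_iff x y).1 h.1
    -- the equation on the singular locus: `x³ (9x + 2) ∈ 𝔪`
    have h9 : A.valuation (x ^ 3 * (9 * x + 2)) < 1 := by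
      rw [show x ^ 3 * (9 * x + 2)
        = (V.a₆ - (y + 3 * x ^ 2 + x) * (y - 3 * x ^ 2)) by linear_combination he]
      refine A.valuation.map_sub_lt hT.a₆_lt (v_mul_lt_one' (v_le_one ?_) h1)
      exact A.add_mem _ _ (A.add_mem _ _ hy (A.mul_mem _ _ (ofNat_mem A 3) (pow_mem hx 2))) hx
    refine hn ?_
    have hx1 : A.valuation x < 1 := by
      by_contra hx1
      have hxu := eq_one_of_not_lt hx hx1
      rw [map_mul, hxu, mul_one] at h6
      rw [map_mul, map_pow, hxu, one_pow, one_mul] at h9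
      have h : A.valuation ((3 : K) * (6 * x + 1) - 2 * (9 * x + 2)) < 1 :=
        A.valuation.map_sub_lt (v_mul_lt_one' (v_le_one (ofNat_mem A 3)) h6)
          (v_mul_lt_one' (v_le_one (ofNat_mem A 2)) h9)
      rw [show (3 : K) * (6 * x + 1) - 2 * (9 * x + 2) = -1 by ring, Valuation.map_neg,
        map_one] at h
      exact lt_irrefl _ h
    refine ⟨hx1, ?_⟩
    rw [show y = (y - 3 * x ^ 2) + (3 * x) * x by ring]
    exact A.valuation.map_add_lt h1 (v_mul_lt_one' (v_le_one h3x) hx1)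

theorem not_nonsingRed_of_hasLabel (hT : TateForm A V) {γ : A.ValueGroup}
    {P : V.toAffine.Point} (h : HasLabel A γ P) : ¬ NonsingRed A P := by
  match P, h with
  | .some x y hn, h => rw [hT.nonsingRed_iff, not_not]; exact ⟨h.1, h.2.1⟩

/-- The numerical facts about a labelled point. -/
theorem label_facts (hT : TateForm A V) {γ : A.ValueGroup} {x y : K}
    (he : V.toAffine.Equation x y) (hy1 : A.valuation y < 1) (hy : A.valuation y = γ)
    (hz : A.valuation (y + x) ≤ γ) :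
    A.valuation x ≤ γ ∧ γ < 1 ∧ A.valuation V.a₆ ≤ γ ^ 2 ∧ γ ≠ 0 ∧
      (A.valuation V.a₆ < γ ^ 2 → A.valuation (y + x) < γ ∧ A.valuation x = γ) := by
  have he' := (hT.equation_iff x y).1 he
  have hγ1 : γ < 1 := hy ▸ hy1
  have hx : A.valuation x ≤ γ := by
    rw [show x = (y + x) - y by ring]; exact A.valuation.map_sub_le hz hy.le
  have hγ0 : γ ≠ 0 := by
    intro h0
    rw [h0, le_zero_iff, A.valuation.zero_iff] at hx
    rw [h0, A.valuation.zero_iff] at hy
    rw [hx, hy] at he'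
    exact hT.a₆_ne (by linear_combination -he')
  have hx3 : A.valuation (x ^ 3) < γ ^ 2 := by
    rw [map_pow]
    calc A.valuation x ^ 3 ≤ γ ^ 3 := pow_le_pow_left' hx 3
      _ = γ ^ 2 * γ := pow_succ γ 2
      _ < γ ^ 2 := mul_lt_of_lt_one_right (pow_pos (zero_lt_iff.2 hγ0) 2) hγ1
  have hprod : A.valuation (x ^ 3 + V.a₆) ≤ γ ^ 2 := by
    rw [← he', map_mul, hy, sq]; exact mul_le_mul' le_rfl hz
  refine ⟨hx, hγ1, ?_, hγ0, fun hε => ?_⟩
  · rw [show V.a₆ = (x ^ 3 + V.a₆) - x ^ 3 by ring]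
    exact A.valuation.map_sub_le hprod hx3.le
  · have hlt : A.valuation (y + x) < γ := by
      by_contra hge
      rw [not_lt] at hge
      have : A.valuation (x ^ 3 + V.a₆) = γ ^ 2 := by
        rw [← he', map_mul, hy, le_antisymm hz hge, sq]
      exact (A.valuation.map_add_lt hx3 hε).ne this
    refine ⟨hlt, ?_⟩
    rw [show x = (y + x) - y by ring, A.valuation.map_sub_eq_of_lt_right (hy.symm ▸ hlt), hy]

/-- Every singularly reduced point or its negative carries a label. -/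
theorem exists_label (hT : TateForm A V) {P : V.toAffine.Point} (h : ¬ NonsingRed A P) :
    ∃ γ, HasLabel A γ P ∨ HasLabel A γ (-P) := by
  match P, h with
  | .zero, h => exact absurd trivial h
  | .some x y hn, h =>
    rw [hT.nonsingRed_iff, not_not] at h
    rcases le_total (A.valuation (y + x)) (A.valuation y) with hle | hle
    · exact ⟨_, Or.inl ⟨h.1, h.2, rfl, hle⟩⟩
    · refine ⟨A.valuation (y + x), Or.inr ?_⟩
      rw [Affine.Point.neg_some]
      refine ⟨h.1, ?_, ?_, ?_⟩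
      · rw [hT.negY_eq, Valuation.map_neg]; exact A.valuation.map_add_lt h.2 h.1
      · rw [hT.negY_eq, Valuation.map_neg]
      · rw [hT.negY_eq, show -(y + x) + x = -y by ring, Valuation.map_neg]; exact hle

/-- A label of every value `γ` with `|a| ≤ γ² < 1` occurs. -/
theorem exists_hasLabel [IsAlgClosed K] [DecidableEq K] (hT : TateForm A V) {γ : A.ValueGroup}
    (h1 : A.valuation V.a₆ ≤ γ ^ 2) (h2 : γ < 1) :
    ∃ P : V.toAffine.Point, HasLabel A γ P := by
  have hns : ∀ x y : K, A.valuation x < 1 → A.valuation y < 1 →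
      y * (y + x) = x ^ 3 + V.a₆ → ¬(x = 0 ∧ y = 0) → V.toAffine.Nonsingular x y := by
    intro x y hx hy he h0
    rw [Affine.nonsingular_iff']
    refine ⟨(hT.equation_iff x y).2 he, ?_⟩
    by_contra hc
    rw [not_or, not_not, not_not, hT.a₁_eq, hT.a₂_eq, hT.a₃_eq, hT.a₄_eq] at hc
    have hy' : y = 3 * x ^ 2 := by linear_combination hc.1
    have hx' : x * (6 * x + 1) = 0 := by linear_combination hc.2 - 2 * hy'
    rcases mul_eq_zero.1 hx' with h | h
    · exact h0 ⟨h, by rw [hy', h]; ring⟩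
    · have hu : A.valuation (6 * x + 1) = 1 := by
        rw [add_comm]
        exact A.valuation.map_one_add_of_lt (v_mul_lt_one' (v_le_one (ofNat_mem A 6)) hx)
      exact ne_zero_of_v_eq_one hu h
  rcases h1.lt_or_eq with hlt | heq
  · obtain ⟨c, rfl⟩ := A.valuation_surjective γ
    have hc0 : c ≠ 0 := fun h => by
      rw [h, map_zero, zero_pow two_ne_zero] at hlt
      exact absurd hlt not_lt_zero'
    obtain ⟨y₀, hy₀⟩ := IsAlgClosed.exists_root (k := K)
      (Polynomial.X ^ 2 + Polynomial.C c * Polynomial.X - Polynomial.C (c ^ 3 + V.a₆))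
      (by
        rw [show Polynomial.degree (Polynomial.X ^ 2 + Polynomial.C c * Polynomial.X
          - Polynomial.C (c ^ 3 + V.a₆)) = 2 by compute_degree!]
        norm_num)
    simp only [Polynomial.IsRoot.def, Polynomial.eval_sub, Polynomial.eval_add,
      Polynomial.eval_pow, Polynomial.eval_X, Polynomial.eval_mul, Polynomial.eval_C] at hy₀
    -- the root of larger valuation
    obtain ⟨y, he, hle⟩ : ∃ y : K, y * (y + c) = c ^ 3 + V.a₆ ∧
        A.valuation (y + c) ≤ A.valuation y := by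
      rcases le_total (A.valuation (y₀ + c)) (A.valuation y₀) with h | h
      · exact ⟨y₀, by linear_combination hy₀, h⟩
      · refine ⟨-(y₀ + c), by linear_combination hy₀, ?_⟩
        rwa [show -(y₀ + c) + c = -y₀ by ring, Valuation.map_neg, Valuation.map_neg]
    have hsmall : A.valuation (y * (y + c)) < A.valuation c ^ 2 := by
      rw [he]
      refine A.valuation.map_add_lt ?_ hlt
      rw [map_pow, pow_succ _ 2]
      exact mul_lt_of_lt_one_right (pow_pos (v_pos hc0) 2) h2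
    have hy : A.valuation y = A.valuation c := by
      rcases lt_trichotomy (A.valuation y) (A.valuation c) with h | h | h
      · exfalso
        rw [A.valuation.map_add_eq_of_lt_right h] at hle
        exact (hle.trans_lt h).false
      · exact h
      · exfalso
        rw [map_mul, A.valuation.map_add_eq_of_lt_left h, sq] at hsmall
        exact absurd hsmall (not_lt.2 (mul_le_mul' h.le h.le))
    have hy1 : A.valuation y < 1 := hy.trans_lt h2
    exact ⟨.some c y (hns c y h2 hy1 he fun h => hc0 h.1), h2, hy1, hy, hy ▸ hle⟩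
  · obtain ⟨y, hy⟩ := IsAlgClosed.exists_pow_nat_eq V.a₆ (n := 2) two_pos
    have hyv : A.valuation y = γ := by
      refine (pow_left_inj₀ zero_le zero_le two_ne_zero).1 ?_
      rw [← map_pow, hy, heq]
    have hy1 : A.valuation y < 1 := hyv ▸ h2
    have h00 : ¬((0 : K) = 0 ∧ y = 0) := fun h => hT.a₆_ne (by rw [← hy, h.2]; ring)
    refine ⟨.some 0 y (hns 0 y (by simp) hy1 (by rw [← hy]; ring) h00), by simp, hy1, hyv, ?_⟩
    rw [add_zero, hyv]

/-- The slope data for the difference of two labelled points. -/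
theorem sub_slope [DecidableEq K] (hT : TateForm A V) {γ : A.ValueGroup} {x₁ y₁ x₂ y₂ : K}
    {h₁ : V.toAffine.Nonsingular x₁ y₁} {h₂ : V.toAffine.Nonsingular x₂ y₂}
    (hP : HasLabel A γ (Affine.Point.some x₁ y₁ h₁))
    (hQ : HasLabel A γ (Affine.Point.some x₂ y₂ h₂))
    (hxy : ¬(x₂ = x₁ ∧ V.toAffine.negY x₂ y₂ = V.toAffine.negY x₁ y₁)) :
    ∃ ℓ : K, ℓ = V.toAffine.slope x₂ x₁ (V.toAffine.negY x₂ y₂) y₁ ∧
      A.valuation ℓ * A.valuation (y₁ - y₂) = γ ∧
      A.valuation (ℓ + 1) * A.valuation (y₁ - y₂) = γ := by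
  obtain ⟨hxs₁, hys₁, hy₁, hz₁⟩ := hP
  obtain ⟨hxs₂, hys₂, hy₂, hz₂⟩ := hQ
  obtain ⟨hx₁, hγ1, -, hγ0, -⟩ := hT.label_facts h₁.1 hys₁ hy₁ hz₁
  obtain ⟨hx₂, -, -, -, -⟩ := hT.label_facts h₂.1 hys₂ hy₂ hz₂
  have hmul := slope_mul_eq ((Affine.equation_neg x₂ y₂).2 h₂.1) h₁.1 hxy
  refine ⟨_, rfl, ?_⟩
  generalize V.toAffine.slope x₂ x₁ (V.toAffine.negY x₂ y₂) y₁ = ℓ at hmul ⊢
  rw [hT.negY_eq, hT.a₁_eq, hT.a₂_eq, hT.a₃_eq, hT.a₄_eq] at hmul
  have hs : A.valuation (x₂ ^ 2 + x₂ * x₁ + x₁ ^ 2) < γ := by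
    have hsq : ∀ {u w : K}, A.valuation u ≤ γ → A.valuation w ≤ γ →
        A.valuation (u * w) < γ := fun hu hw =>
      (v_mul_le hu hw).trans_lt (mul_lt_of_lt_one_right (zero_lt_iff.2 hγ0) hγ1)
    rw [sq, sq]
    exact A.valuation.map_add_lt (A.valuation.map_add_lt (hsq hx₂ hx₂) (hsq hx₂ hx₁))
      (hsq hx₁ hx₁)
  constructor
  · have : ℓ * (y₁ - y₂) = (x₂ ^ 2 + x₂ * x₁ + x₁ ^ 2) - y₁ := by linear_combination hmul
    rw [← map_mul, this, A.valuation.map_sub_eq_of_lt_right (hy₁.symm ▸ hs), hy₁]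
  · have : (ℓ + 1) * (y₁ - y₂) = (x₂ ^ 2 + x₂ * x₁ + x₁ ^ 2) - y₂ := by linear_combination hmul
    rw [← map_mul, this, A.valuation.map_sub_eq_of_lt_right (hy₂.symm ▸ hs), hy₂]

/-- Points with the same label differ by an element of `E₀`. -/
theorem nonsingRed_sub [DecidableEq K] (hT : TateForm A V) {γ : A.ValueGroup}
    {P Q : V.toAffine.Point} (hP : HasLabel A γ P) (hQ : HasLabel A γ Q) :
    NonsingRed A (P - Q) := by
  match P, Q, hP, hQ with
  | .some x₁ y₁ h₁, .some x₂ y₂ h₂, hP, hQ =>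
    rw [sub_eq_add_neg, add_comm, Affine.Point.neg_some]
    by_cases hxy : x₂ = x₁ ∧ V.toAffine.negY x₂ y₂ = V.toAffine.negY x₁ y₁
    · rw [Affine.Point.add_of_Y_eq hxy.1 hxy.2]; exact trivial
    obtain ⟨ℓ, hℓ, hl, hl1⟩ := hT.sub_slope hP hQ hxy
    obtain ⟨hxs₁, hys₁, hy₁, hz₁⟩ := hP
    obtain ⟨hxs₂, hys₂, hy₂, hz₂⟩ := hQ
    obtain ⟨-, hγ1, -, hγ0, -⟩ := hT.label_facts h₁.1 hys₁ hy₁ hz₁
    rcases lt_or_ge 1 (A.valuation ℓ) with hbig | hle
    · exact (inKernel_add_of_slope hT.integralAt hxy (mem_of_v_lt_one hxs₂) (mem_of_v_lt_one hxs₁)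
        (hℓ ▸ hbig)).nonsingRed
    · -- then `ℓ` and `ℓ + 1` are units
      have hd : A.valuation (y₁ - y₂) ≤ γ := A.valuation.map_sub_le hy₁.le hy₂.le
      have hd' : A.valuation (y₁ - y₂) = γ := by
        refine le_antisymm hd ?_
        conv_lhs => rw [← hl]
        exact (mul_le_mul' hle le_rfl).trans_eq (one_mul _)
      rw [hd', mul_left_eq_self₀, or_iff_left hγ0] at hl hl1
      rw [Affine.Point.add_some hxy, hT.nonsingRed_iff]
      refine fun h => h.1.ne ?_
      rw [← hℓ, Affine.addX, hT.a₁_eq, hT.a₂_eq,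
        show ℓ ^ 2 + 1 * ℓ - 0 - x₂ - x₁ = ℓ * (ℓ + 1) - (x₂ + x₁) by ring,
        A.valuation.map_sub_eq_of_lt_left, map_mul, hl, hl1, mul_one]
      rw [map_mul, hl, hl1, mul_one]
      exact A.valuation.map_add_lt hxs₂ hxs₁

/-- Points with the same label and close `y`-coordinates differ by an element of `E₁`. -/
theorem inKernel_sub [DecidableEq K] (hT : TateForm A V) {γ : A.ValueGroup} {x₁ y₁ x₂ y₂ : K}
    {h₁ : V.toAffine.Nonsingular x₁ y₁} {h₂ : V.toAffine.Nonsingular x₂ y₂}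
    (hP : HasLabel A γ (Affine.Point.some x₁ y₁ h₁))
    (hQ : HasLabel A γ (Affine.Point.some x₂ y₂ h₂)) (hd : A.valuation (y₁ - y₂) < γ) :
    InKernel A (Affine.Point.some x₁ y₁ h₁ - Affine.Point.some x₂ y₂ h₂) := by
  rw [sub_eq_add_neg, add_comm, Affine.Point.neg_some]
  by_cases hxy : x₂ = x₁ ∧ V.toAffine.negY x₂ y₂ = V.toAffine.negY x₁ y₁
  · rw [Affine.Point.add_of_Y_eq hxy.1 hxy.2]; exact trivial
  obtain ⟨ℓ, hℓ, hl, -⟩ := hT.sub_slope hP hQ hxy
  refine inKernel_add_of_slope hT.integralAt hxy (mem_of_v_lt_one hQ.1) (mem_of_v_lt_one hP.1)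
    (hℓ ▸ ?_)
  by_contra hle
  rw [not_lt] at hle
  refine hd.not_ge ?_
  conv_lhs => rw [← hl]
  exact (mul_le_mul' hle le_rfl).trans_eq (one_mul _)

/-- Labels multiply as long as the product stays in the range. -/
theorem hasLabel_add [DecidableEq K] (hT : TateForm A V) {γ₁ γ₂ : A.ValueGroup}
    {P Q : V.toAffine.Point} (hP : HasLabel A γ₁ P) (hQ : HasLabel A γ₂ Q)
    (hle : γ₁ ≤ γ₂) (hε : A.valuation V.a₆ ≤ (γ₁ * γ₂) ^ 2) :
    HasLabel A (γ₁ * γ₂) (P + Q) := by
  match P, Q, hP, hQ with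
  | .some x₁ y₁ h₁, .some x₂ y₂ h₂, hP, hQ =>
    obtain ⟨hxs₁, hys₁, hy₁, hz₁⟩ := hP
    obtain ⟨hxs₂, hys₂, hy₂, hz₂⟩ := hQ
    obtain ⟨-, hg1, -, hg0, hs₁⟩ := hT.label_facts h₁.1 hys₁ hy₁ hz₁
    obtain ⟨-, hk1, -, hk0, hs₂⟩ := hT.label_facts h₂.1 hys₂ hy₂ hz₂
    have hg := zero_lt_iff.2 hg0
    have hk := zero_lt_iff.2 hk0
    have hgk : γ₁ * γ₂ < γ₁ := mul_lt_of_lt_one_right hg hk1
    have hkg : γ₁ * γ₂ < γ₂ := mul_lt_of_lt_one_left hk hg1
    obtain ⟨hzlt₁, hxv₁⟩ := hs₁ (hε.trans_lt (pow_lt_pow_left₀ hgk zero_le two_ne_zero))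
    obtain ⟨hzlt₂, hxv₂⟩ := hs₂ (hε.trans_lt (pow_lt_pow_left₀ hkg zero_le two_ne_zero))
    have hgk0 : γ₁ * γ₂ ≠ 0 := mul_ne_zero hg0 hk0
    -- `|z₁| ≤ γ₁γ₂`
    have hzz : A.valuation (y₁ + x₁) ≤ γ₁ * γ₂ := by
      have he := congrArg A.valuation ((hT.equation_iff x₁ y₁).1 h₁.1)
      rw [map_mul, hy₁] at he
      refine le_of_mul_le_mul_left (he.trans_le ?_) hg
      refine A.valuation.map_add_le ?_ ?_
      · rw [map_pow, hxv₁, pow_succ, sq, mul_assoc]
        exact mul_le_mul' le_rfl (mul_le_mul' le_rfl hle)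
      · refine hε.trans ?_
        rw [sq]
        exact mul_le_mul' hgk.le le_rfl
    have hxy : ¬(x₁ = x₂ ∧ y₁ = V.toAffine.negY x₂ y₂) := by
      rintro ⟨hx, hy⟩
      rw [hy, hT.negY_eq, Valuation.map_neg] at hy₁
      rw [← hx, hxv₁] at hxv₂
      exact absurd hy₁ (hxv₂ ▸ hzlt₂.ne)
    have hmul := slope_mul_eq h₁.1 h₂.1 hxy
    obtain ⟨e1, e2, e3, hyl2, hyl3⟩ := chord_vieta h₁.1 h₂.1 hxy rfl rfl rfl
    rw [Affine.Point.add_some hxy]
    have hgoal : ∀ X Y' : K, A.valuation X ≤ γ₂ → A.valuation (Y' + X) = γ₁ * γ₂ →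
        A.valuation Y' ≤ γ₁ * γ₂ → ∀ h, HasLabel A (γ₁ * γ₂)
          (Affine.Point.some X (V.toAffine.negY X Y') h : V.toAffine.Point) := by
      intro X Y' hX hZ hY h
      refine ⟨hX.trans_lt hk1, ?_, ?_, ?_⟩
      · rw [hT.negY_eq, Valuation.map_neg, hZ]; exact hgk.trans hg1
      · rw [hT.negY_eq, Valuation.map_neg, hZ]
      · rw [hT.negY_eq, show -(Y' + X) + X = -Y' by ring, Valuation.map_neg]; exact hY
    refine hgoal _ _ ?_ ?_ ?_ _ <;>
    generalize V.toAffine.slope x₁ x₂ y₁ y₂ = ℓ at * <;>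
    generalize V.toAffine.addX x₁ x₂ ℓ = x₃ at * <;>
    generalize V.toAffine.negAddY x₁ x₂ y₁ ℓ = y₃ at * <;>
    rw [hT.a₁_eq, hT.a₂_eq, hT.a₃_eq, hT.a₄_eq] at hmul <;>
    rw [hT.a₁_eq, hT.a₂_eq] at e1 <;>
    rw [hT.a₁_eq, hT.a₃_eq, hT.a₄_eq] at e2 <;>
    rw [hT.a₃_eq] at e3
    all_goals
      have hsq : A.valuation (x₁ ^ 2 + x₁ * x₂ + x₂ ^ 2) ≤ γ₂ * γ₂ := by
        rw [sq, sq]
        exact A.valuation.map_add_le (A.valuation.map_add_le
          (v_mul_le (hxv₁.trans_le hle) (hxv₁.trans_le hle))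
          (v_mul_le (hxv₁.trans_le hle) hxv₂.le)) (v_mul_le hxv₂.le hxv₂.le)
      -- `ℓ ≡ -1`
      have hD : A.valuation ((y₁ + x₁) + y₂) = γ₂ := by
        rw [A.valuation.map_add_eq_of_lt_right, hy₂]
        rw [hy₂]; exact hzlt₁.trans_le hle
      have hl1 : A.valuation (ℓ + 1) ≤ γ₂ := by
        have : (ℓ + 1) * ((y₁ + x₁) + y₂)
            = (x₁ ^ 2 + x₁ * x₂ + x₂ ^ 2) + (y₁ + x₁) := by linear_combination hmul
        have hv := congrArg A.valuation this
        rw [map_mul, hD] at hv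
        refine le_of_mul_le_mul_right (hv.trans_le ?_) hk
        exact A.valuation.map_add_le hsq (hzz.trans (mul_le_mul' hle le_rfl))
      have hl1' : A.valuation (ℓ + 1) < 1 := hl1.trans_lt hk1
      have hlu : A.valuation ℓ = 1 := by
        rw [show ℓ = -1 + (ℓ + 1) by ring, A.valuation.map_add_eq_of_lt_left, Valuation.map_neg,
          map_one]
        rw [Valuation.map_neg, map_one]; exact hl1'
      have h2l : A.valuation (2 * ℓ + 1) = 1 := by
        rw [show 2 * ℓ + 1 = -1 + 2 * (ℓ + 1) by ring, A.valuation.map_add_eq_of_lt_left,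
          Valuation.map_neg, map_one]
        rw [Valuation.map_neg, map_one]
        exact v_mul_lt_one' (v_le_one (ofNat_mem A 2)) hl1'
      have hc : A.valuation (y₁ - ℓ * x₁) ≤ γ₁ * γ₂ := by
        rw [show y₁ - ℓ * x₁ = (y₁ + x₁) - (ℓ + 1) * x₁ by ring]
        exact A.valuation.map_sub_le hzz ((v_mul_le hl1 hxv₁.le).trans_eq (mul_comm _ _))
      have hx3 : A.valuation x₃ ≤ γ₂ := by
        rw [show x₃ = ℓ * (ℓ + 1) - (x₁ + x₂) by linear_combination e1]
        exact A.valuation.map_sub_le ((v_mul_le hlu.le hl1).trans_eq (one_mul _))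
          (A.valuation.map_add_le (hxv₁.trans_le hle) hxv₂.le)
      have hx3' : A.valuation x₃ ≤ γ₁ * γ₂ := by
        have hv := congrArg A.valuation e3
        rw [map_mul, map_mul, hxv₁, hxv₂] at hv
        refine le_of_mul_le_mul_left (hv.trans_le ?_) (zero_lt_iff.2 hgk0)
        refine A.valuation.map_sub_le (A.valuation.map_add_le ?_ (by simp)) (hε.trans_eq (sq _))
        rw [map_pow, sq]
        exact mul_le_mul' hc hc
      have hc' : A.valuation (y₁ - ℓ * x₁) = γ₁ * γ₂ := by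
        have : (2 * ℓ + 1) * (y₁ - ℓ * x₁) = -(x₁ * x₂ + x₃ * (x₁ + x₂)) := by
          linear_combination e2
        have hv := congrArg A.valuation this
        rw [map_mul, h2l, one_mul, Valuation.map_neg, A.valuation.map_add_eq_of_lt_left,
          map_mul, hxv₁, hxv₂] at hv
        · exact hv
        · rw [map_mul, map_mul, hxv₁, hxv₂]
          refine lt_of_le_of_lt (mul_le_mul' hx3'
            (A.valuation.map_add_le (hxv₁.trans_le hle) hxv₂.le)) ?_
          exact mul_lt_of_lt_one_right (zero_lt_iff.2 hgk0) hk1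
    · exact hx3
    · rw [show y₃ + x₃ = (y₁ - ℓ * x₁) + (ℓ + 1) * x₃ by rw [hyl3]; ring,
        A.valuation.map_add_eq_of_lt_left, hc']
      rw [hc', map_mul]
      exact (mul_le_mul' hl1 hx3').trans_lt (mul_lt_of_lt_one_left (zero_lt_iff.2 hgk0) hk1)
    · rw [hyl3]
      exact A.valuation.map_add_le ((v_mul_le hlu.le hx3').trans_eq (one_mul _)) hc

end TateForm

end Fermat.Agent.ECLocal
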