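import Fermat.Agent.ECLocal.Reduction
import Mathlib.AlgebraicGeometry.EllipticCurve.VariableChange

/-!
# Changes of variables on points
-/

set_option autoImplicit false

universe v

namespace Fermat.Agent.ECLocal

open WeierstrassCurve

variable {K : Type v} [Field K]

section Coordinates

variable (V : WeierstrassCurve K) (C : VariableChange K)

/-- The new `x`-coordinate. -/
def vcX (x : K) : K := (x - C.r) / (C.u : K) ^ 2

/-- The new `y`-coordinate. -/
def vcY (x y : K) : K := (y - C.s * (x - C.r) - C.t) / (C.u : K) ^ 3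

theorem vc_polyY (x y : K) :
    2 * vcY C x y + (C • V).a₁ * vcX C x + (C • V).a₃
      = (2 * y + V.a₁ * x + V.a₃) / (C.u : K) ^ 3 := by
  have hu := C.u.ne_zero
  simp only [vcX, vcY, variableChange_a₁, variableChange_a₃, Units.val_inv_eq_inv_val]
  field_simp
  ring

theorem vc_polyX (x y : K) :
    (C • V).a₁ * vcY C x y - (3 * vcX C x ^ 2 + 2 * (C • V).a₂ * vcX C x + (C • V).a₄)
      = (V.a₁ * y - (3 * x ^ 2 + 2 * V.a₂ * x + V.a₄) + C.s * (2 * y + V.a₁ * x + V.a₃))
          / (C.u : K) ^ 4 := by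
  have hu := C.u.ne_zero
  simp only [vcX, vcY, variableChange_a₁, variableChange_a₂, variableChange_a₄,
    Units.val_inv_eq_inv_val]
  field_simp
  ring

theorem vc_equation_iff (x y : K) :
    (C • V).toAffine.Equation (vcX C x) (vcY C x y) ↔ V.toAffine.Equation x y := by
  have hu := C.u.ne_zero
  rw [Affine.equation_iff', Affine.equation_iff']
  have : vcY C x y ^ 2 + (C • V).a₁ * vcX C x * vcY C x y + (C • V).a₃ * vcY C x y
      - (vcX C x ^ 3 + (C • V).a₂ * vcX C x ^ 2 + (C • V).a₄ * vcX C x + (C • V).a₆)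
      = (y ^ 2 + V.a₁ * x * y + V.a₃ * y - (x ^ 3 + V.a₂ * x ^ 2 + V.a₄ * x + V.a₆))
          / (C.u : K) ^ 6 := by
    simp only [vcX, vcY, variableChange_a₁, variableChange_a₂, variableChange_a₃,
      variableChange_a₄, variableChange_a₆, Units.val_inv_eq_inv_val]
    field_simp
    ring
  rw [this, div_eq_zero_iff, or_iff_left (pow_ne_zero 6 hu)]

theorem vc_nonsingular {x y : K} (h : V.toAffine.Nonsingular x y) :
    (C • V).toAffine.Nonsingular (vcX C x) (vcY C x y) := by
  have hu := C.u.ne_zero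
  rw [Affine.nonsingular_iff'] at h ⊢
  refine ⟨(vc_equation_iff V C x y).2 h.1, ?_⟩
  rw [vc_polyY, vc_polyX, div_ne_zero_iff, div_ne_zero_iff]
  rcases h.2 with h2 | h2
  · by_cases h3 : 2 * y + V.a₁ * x + V.a₃ = 0
    · exact Or.inl ⟨by rwa [h3, mul_zero, add_zero], pow_ne_zero 4 hu⟩
    · exact Or.inr ⟨h3, pow_ne_zero 3 hu⟩
  · exact Or.inr ⟨h2, pow_ne_zero 3 hu⟩

/-- A change of variables on points, as a function. -/
def vcFun : V.toAffine.Point → (C • V).toAffine.Point
  | .zero => .zero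
  | .some x y h => .some (vcX C x) (vcY C x y) (vc_nonsingular V C h)

theorem vc_negY (x y : K) :
    (C • V).toAffine.negY (vcX C x) (vcY C x y) = vcY C x (V.toAffine.negY x y) := by
  have hu := C.u.ne_zero
  simp only [vcX, vcY, Affine.negY, variableChange_a₁, variableChange_a₃,
    Units.val_inv_eq_inv_val]
  field_simp
  ring

theorem vcX_inj {x₁ x₂ : K} : vcX C x₁ = vcX C x₂ ↔ x₁ = x₂ := by
  rw [vcX, vcX, div_left_inj' (pow_ne_zero 2 C.u.ne_zero), sub_left_inj]

theorem vcY_inj {x y₁ y₂ : K} : vcY C x y₁ = vcY C x y₂ ↔ y₁ = y₂ := by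
  rw [vcY, vcY, div_left_inj' (pow_ne_zero 3 C.u.ne_zero), sub_left_inj, sub_left_inj]

theorem vc_slope [DecidableEq K] {x₁ x₂ y₁ y₂ : K}
    (hxy : ¬(x₁ = x₂ ∧ y₁ = V.toAffine.negY x₂ y₂)) (h₁ : V.toAffine.Equation x₁ y₁)
    (h₂ : V.toAffine.Equation x₂ y₂) :
    (C • V).toAffine.slope (vcX C x₁) (vcX C x₂) (vcY C x₁ y₁) (vcY C x₂ y₂)
      = (V.toAffine.slope x₁ x₂ y₁ y₂ - C.s) / (C.u : K) := by
  have hu := C.u.ne_zero
  by_cases hx : x₁ = x₂
  · have hy : y₁ ≠ V.toAffine.negY x₂ y₂ := fun h => hxy ⟨hx, h⟩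
    have hyy := Affine.Y_eq_of_Y_ne h₁ h₂ hx hy
    subst hx hyy
    rw [Affine.slope_of_Y_ne rfl hy, Affine.slope_of_Y_ne rfl
      (by rw [vc_negY, Ne, vcY_inj]; exact hy), vc_negY]
    have hψ : 2 * y₁ + V.a₁ * x₁ + V.a₃ ≠ 0 := by
      intro h
      apply hy
      rw [Affine.negY]
      linear_combination h
    rw [show vcY C x₁ y₁ - vcY C x₁ (V.toAffine.negY x₁ y₁)
      = (2 * y₁ + V.a₁ * x₁ + V.a₃) / (C.u : K) ^ 3 by
        simp only [vcY, Affine.negY]; field_simp; ring,
      show 3 * vcX C x₁ ^ 2 + 2 * (C • V).a₂ * vcX C x₁ + (C • V).a₄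
          - (C • V).a₁ * vcY C x₁ y₁
        = -((C • V).a₁ * vcY C x₁ y₁
          - (3 * vcX C x₁ ^ 2 + 2 * (C • V).a₂ * vcX C x₁ + (C • V).a₄)) by ring,
      vc_polyX, show y₁ - V.toAffine.negY x₁ y₁ = 2 * y₁ + V.a₁ * x₁ + V.a₃ by
        rw [Affine.negY]; ring]
    generalize hψd : 2 * y₁ + V.a₁ * x₁ + V.a₃ = ψ at hψ ⊢
    field_simp
    ring
  · rw [Affine.slope_of_X_ne hx, Affine.slope_of_X_ne ((vcX_inj C).not.2 hx)]
    have : x₁ - x₂ ≠ 0 := sub_ne_zero.2 hx
    simp only [vcX, vcY, ← sub_div, sub_sub_sub_cancel_right]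
    field_simp
    ring

theorem vc_addX (x₁ x₂ ℓ : K) :
    (C • V).toAffine.addX (vcX C x₁) (vcX C x₂) ((ℓ - C.s) / (C.u : K))
      = vcX C (V.toAffine.addX x₁ x₂ ℓ) := by
  have hu := C.u.ne_zero
  simp only [Affine.addX, vcX, variableChange_a₁, variableChange_a₂, Units.val_inv_eq_inv_val]
  field_simp
  ring

theorem vc_addY (x₁ x₂ y₁ ℓ : K) :
    (C • V).toAffine.addY (vcX C x₁) (vcX C x₂) (vcY C x₁ y₁) ((ℓ - C.s) / (C.u : K))
      = vcY C (V.toAffine.addX x₁ x₂ ℓ) (V.toAffine.addY x₁ x₂ y₁ ℓ) := by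
  have hu := C.u.ne_zero
  simp only [Affine.addY, Affine.negAddY, vc_addX]
  rw [← vc_negY]
  congr 1
  simp only [vcX, vcY]
  field_simp
  ring

variable [DecidableEq K]

/-- A change of variables as a homomorphism of point groups. -/
def vcMap : V.toAffine.Point →+ (C • V).toAffine.Point where
  toFun := vcFun V C
  map_zero' := rfl
  map_add' P Q := by
    match P, Q with
    | .zero, Q =>
      rw [← Affine.Point.zero_def, zero_add]
      exact (zero_add _).symm
    | .some x₁ y₁ h₁, .zero =>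
      rw [← Affine.Point.zero_def, add_zero]
      exact (add_zero _).symm
    | .some x₁ y₁ h₁, .some x₂ y₂ h₂ =>
      by_cases hxy : x₁ = x₂ ∧ y₁ = V.toAffine.negY x₂ y₂
      · obtain ⟨hx, hy⟩ := hxy
        rw [Affine.Point.add_of_Y_eq hx hy]
        exact (Affine.Point.add_of_Y_eq (by rw [hx])
          (by rw [vc_negY, hy, hx])).symm
      · have hxy' : ¬(vcX C x₁ = vcX C x₂ ∧
            vcY C x₁ y₁ = (C • V).toAffine.negY (vcX C x₂) (vcY C x₂ y₂)) := by
          rintro ⟨hX, hY⟩
          have hx := (vcX_inj C).1 hX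
          rw [vc_negY, hx, vcY_inj] at hY
          exact hxy ⟨hx, hY⟩
        rw [Affine.Point.add_some hxy]
        simp only [vcFun]
        rw [Affine.Point.add_some hxy', Affine.Point.some.injEq, vc_slope V C hxy h₁.1 h₂.1,
          vc_addX, vc_addY]
        exact ⟨rfl, rfl⟩

theorem vcMap_zero : vcMap V C .zero = .zero := rfl

theorem vcMap_some {x y : K} (h : V.toAffine.Nonsingular x y) :
    vcMap V C (.some x y h) = .some (vcX C x) (vcY C x y) (vc_nonsingular V C h) := rfl

theorem vcMap_injective : Function.Injective (vcMap V C) := by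
  refine (injective_iff_map_eq_zero _).2 fun P hP => ?_
  match P, hP with
  | .zero, _ => rfl
  | .some x y h, hP => exact absurd hP (Affine.Point.some_ne_zero _)

end Coordinates

/-- An integral change of variables with unit scale. -/
structure IntegralVC (A : ValuationSubring K) (C : VariableChange K) : Prop where
  valuation_u : A.valuation (C.u : K) = 1
  r_mem : C.r ∈ A
  s_mem : C.s ∈ A
  t_mem : C.t ∈ A

variable {A : ValuationSubring K} {V : WeierstrassCurve K} {C : VariableChange K}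

theorem IntegralVC.integralAt (hC : IntegralVC A C) (hV : IntegralAt A V) :
    IntegralAt A (C • V) := by
  have hu : ((C.u⁻¹ : Kˣ) : K) ∈ A := by
    rw [← A.valuation_le_one_iff, Units.val_inv_eq_inv_val, map_inv₀, hC.valuation_u, inv_one]
  obtain ⟨-, hr, hs, ht⟩ := hC
  obtain ⟨h1, h2, h3, h4, h6⟩ := hV
  have h2' := ofNat_mem A 2
  have h3' := ofNat_mem A 3
  refine ⟨?_, ?_, ?_, ?_, ?_⟩ <;>
    simp only [variableChange_a₁, variableChange_a₂, variableChange_a₃, variableChange_a₄,
      variableChange_a₆] <;>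
    repeat' first
      | assumption
      | exact h2'
      | exact h3'
      | apply A.mul_mem
      | apply A.add_mem
      | apply A.toSubring.sub_mem
      | apply A.toSubring.pow_mem

theorem IntegralVC.vcX_mem_iff (hC : IntegralVC A C) (x : K) : vcX C x ∈ A ↔ x ∈ A := by
  rw [← A.valuation_le_one_iff, vcX, map_div₀, map_pow, hC.valuation_u, one_pow, div_one,
    A.valuation_le_one_iff]
  exact ⟨fun h => by simpa using A.add_mem _ _ h hC.r_mem,
    fun h => A.toSubring.sub_mem h hC.r_mem⟩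

theorem IntegralVC.inKernel_iff [DecidableEq K] (hC : IntegralVC A C) (P : V.toAffine.Point) :
    InKernel A (vcMap V C P) ↔ InKernel A P := by
  match P with
  | .zero => exact Iff.rfl
  | .some x y h =>
    rw [vcMap_some, inKernel_some_iff, inKernel_some_iff, hC.vcX_mem_iff]

theorem IntegralVC.nonsingRed_iff [DecidableEq K] (hC : IntegralVC A C) (hV : IntegralAt A V)
    (P : V.toAffine.Point) : NonsingRed A (vcMap V C P) ↔ NonsingRed A P := by
  match P with
  | .zero => exact Iff.rfl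
  | .some x y h =>
    rw [vcMap_some]
    by_cases hx : x ∈ A
    · have hX := (hC.vcX_mem_iff x).2 hx
      have hy := y_mem_of_x_mem hV h.1 hx
      have hY := y_mem_of_x_mem (hC.integralAt hV) (vc_nonsingular V C h).1 hX
      rw [nonsingRed_some_iff hX hY, nonsingRed_some_iff hx hy, vc_polyX, vc_polyY,
        map_div₀, map_div₀, map_pow, map_pow, hC.valuation_u, one_pow, one_pow, div_one, div_one]
      by_cases hψ : A.valuation (2 * y + V.a₁ * x + V.a₃) = 1
      · simp [hψ]
      · have hlt := lt_of_le_of_ne (v_le_one (polyY_mem hV hx hy)) hψ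
        have hsψ := v_mul_lt_one' (v_le_one hC.s_mem) hlt
        simp only [hψ, or_false]
        constructor
        · intro h1
          have := A.valuation.map_sub_eq_of_lt_left (hsψ.trans_eq h1.symm)
          rw [add_sub_cancel_right] at this
          exact this.trans h1
        · intro h1
          rw [A.valuation.map_add_eq_of_lt_left (hsψ.trans_eq h1.symm), h1]
    · exact iff_of_true (Or.inl fun h => hx ((hC.vcX_mem_iff x).1 h)) (Or.inl hx)

end Fermat.Agent.ECLocal
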