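import Fermat.Agent.ECLocal.Inertia
import Fermat.Agent.ECLocal.Transport
import Fermat.Agent.ECLocal.Tate
import Mathlib.AlgebraicGeometry.EllipticCurve.IsomOfJ

/-!
# Reduction of a curve with multiplicative reduction to the form `y² + xy = x³ + a`
-/

set_option autoImplicit false

universe v

namespace Fermat.Agent.ECLocal

open WeierstrassCurve

variable {K : Type v} [Field K] {A : ValuationSubring K} {V : WeierstrassCurve K}

/-- The curve `y² + xy = x³ + a`. -/
def tateModel (a : K) : WeierstrassCurve K := ⟨1, 0, 0, 0, a⟩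

theorem tateModel_c₄ (a : K) : (tateModel a).c₄ = 1 := by
  simp [tateModel, WeierstrassCurve.c₄, WeierstrassCurve.b₂, WeierstrassCurve.b₄]

theorem tateModel_c₆ (a : K) : (tateModel a).c₆ = -1 - 864 * a := by
  simp only [tateModel, WeierstrassCurve.c₆, WeierstrassCurve.b₂, WeierstrassCurve.b₄,
    WeierstrassCurve.b₆]
  ring

theorem tateModel_Δ (a : K) : (tateModel a).Δ = -(a * (1 + 432 * a)) := by
  simp only [tateModel, WeierstrassCurve.Δ, WeierstrassCurve.b₂, WeierstrassCurve.b₄,
    WeierstrassCurve.b₆, WeierstrassCurve.b₈]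
  ring

/-- The parameter: the small root of `a (1 + 432 a) = -Δ/c₄³`. -/
theorem exists_tate_param [IsAlgClosed K] [CharZero K] (hV : MultAt A V) (hΔ : V.Δ ≠ 0) :
    ∃ a : K, a * (1 + 432 * a) = -(V.Δ / V.c₄ ^ 3) ∧ A.valuation a = A.valuation V.Δ ∧
      ∀ b : K, b * (1 + 432 * b) = -(V.Δ / V.c₄ ^ 3) → A.valuation b < 1 → b = a := by
  have hd : A.valuation (V.Δ / V.c₄ ^ 3) = A.valuation V.Δ := by
    rw [map_div₀, map_pow, hV.valuation_c₄, one_pow, div_one]
  obtain ⟨a₀, ha₀⟩ := IsAlgClosed.exists_root (k := K)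
    (Polynomial.C 432 * Polynomial.X ^ 2 + Polynomial.X + Polynomial.C (V.Δ / V.c₄ ^ 3))
    (by
      rw [show Polynomial.degree (Polynomial.C (432 : K) * Polynomial.X ^ 2 + Polynomial.X
        + Polynomial.C (V.Δ / V.c₄ ^ 3)) = 2 by compute_degree!; all_goals norm_num]
      norm_num)
  simp only [Polynomial.IsRoot.def, Polynomial.eval_add, Polynomial.eval_mul, Polynomial.eval_pow,
    Polynomial.eval_C, Polynomial.eval_X] at ha₀
  obtain ⟨a, ha, hsmall⟩ : ∃ a : K,
      a * (1 + 432 * a) = -(V.Δ / V.c₄ ^ 3) ∧ A.valuation a < 1 := by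
    by_cases h : A.valuation a₀ < 1
    · exact ⟨a₀, by linear_combination ha₀, h⟩
    · have ha₀0 : a₀ ≠ 0 := fun h0 => h (by rw [h0, map_zero]; exact zero_lt_one)
      refine ⟨(-1 - 432 * a₀) / 432, ?_, ?_⟩
      · field_simp at ha₀ ⊢
        linear_combination 432 * ha₀
      · have hu : A.valuation (1 + 432 * a₀) < 1 := by
          rw [show 1 + 432 * a₀ = -(V.Δ / V.c₄ ^ 3) / a₀ by
            rw [eq_div_iff ha₀0]; linear_combination ha₀, map_div₀, Valuation.map_neg, hd]
          refine lt_of_le_of_lt ?_ hV.valuation_Δ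
          exact (div_le_iff₀ (v_pos ha₀0)).2 (le_mul_of_one_le_right zero_le (not_lt.1 h))
        have h432 : A.valuation (432 * a₀) = 1 := by
          rw [show (432 : K) * a₀ = -1 + (1 + 432 * a₀) by ring,
            A.valuation.map_add_eq_of_lt_left, Valuation.map_neg, map_one]
          rw [Valuation.map_neg, map_one]; exact hu
        rw [show (-1 - 432 * a₀) / 432 = -(1 + 432 * a₀) / 432 by ring, map_div₀,
          Valuation.map_neg]
        rw [show 1 + 432 * a₀ = -(V.Δ / V.c₄ ^ 3) / a₀ by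
            rw [eq_div_iff ha₀0]; linear_combination ha₀, map_div₀, Valuation.map_neg, hd,
          div_div, mul_comm, ← map_mul, h432, div_one]
        exact hV.valuation_Δ
  refine ⟨a, ha, ?_, fun b hb hbs => ?_⟩
  · have h1 : A.valuation (1 + 432 * a) = 1 :=
      A.valuation.map_one_add_of_lt (v_mul_lt_one' (v_le_one (ofNat_mem A 432)) hsmall)
    have := congrArg A.valuation ha
    rwa [map_mul, h1, mul_one, Valuation.map_neg, hd] at this
  · by_contra hne
    have hsum : (432 : K) * (b + a) = -1 := by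
      have : (b - a) * (432 * (b + a) + 1) = 0 := by linear_combination hb - ha
      linear_combination (mul_eq_zero.1 this).resolve_left (sub_ne_zero.2 hne)
    have hlt : A.valuation ((432 : K) * (b + a)) < 1 :=
      v_mul_lt_one' (v_le_one (ofNat_mem A 432)) (A.valuation.map_add_lt hbs hsmall)
    rw [hsum, Valuation.map_neg, map_one] at hlt
    exact lt_irrefl _ hlt

/-- The scale, and integrality of a change of variables to the normal form. -/
theorem integralVC_of_eq (hV : MultAt A V) {a : K} (ha : A.valuation a < 1)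
    {C : VariableChange K} (hC : C • V = tateModel a) : IntegralVC A C := by
  have hu0 := C.u.ne_zero
  obtain ⟨ha1, ha2, ha3, ha4, ha6⟩ := hV.toIntegralAt
  have hu : A.valuation (C.u : K) = 1 := by
    have h := congrArg WeierstrassCurve.c₄ hC
    rw [variableChange_c₄, tateModel_c₄, Units.val_inv_eq_inv_val] at h
    have h' := congrArg A.valuation h
    rw [map_mul, map_pow, map_inv₀, hV.valuation_c₄, mul_one, map_one] at h'
    exact inv_eq_one.1 ((pow_left_inj₀ zero_le zero_le (by norm_num : 4 ≠ 0)).1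
      (h'.trans (one_pow 4).symm))
  have huA : (C.u : K) ∈ A := (A.valuation_le_one_iff _).1 hu.le
  have haA := mem_of_v_lt_one ha
  have hb2 : V.b₂ ∈ A :=
    A.add_mem _ _ (pow_mem ha1 2) (A.mul_mem _ _ (ofNat_mem A 4) ha2)
  have hb4 : V.b₄ ∈ A :=
    A.add_mem _ _ (two_mul_mem ha4) (A.mul_mem _ _ ha1 ha3)
  have hb6 : V.b₆ ∈ A :=
    A.add_mem _ _ (pow_mem ha3 2) (A.mul_mem _ _ (ofNat_mem A 4) ha6)
  have hb8 : V.b₈ ∈ A := by
    rw [WeierstrassCurve.b₈]
    repeat' first
      | assumption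
      | exact ofNat_mem A 4
      | apply A.mul_mem
      | apply A.toSubring.sub_mem
      | apply A.add_mem
      | apply A.toSubring.pow_mem
  have hr : C.r ∈ A := by
    by_contra hrA
    have hR := one_lt_v hrA
    have hR0 : 0 < A.valuation C.r := zero_lt_one.trans hR
    have hR01 : (1 : A.ValueGroup) < A.valuation (C.r ^ 3) := by
      rw [map_pow]; exact one_lt_pow₀ hR (by norm_num)
    have hlow : ∀ i : ℕ, i < 3 → A.valuation (C.r ^ i) < A.valuation (C.r ^ 3) := fun i hi => by
      rw [map_pow, map_pow]; exact pow_lt_pow_right₀ hR hi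
    by_cases h4 : A.valuation (4 : K) = 1
    · have h := congrArg WeierstrassCurve.b₆ hC
      rw [variableChange_b₆, Units.val_inv_eq_inv_val] at h
      simp only [tateModel, WeierstrassCurve.b₆] at h
      have e : 4 * C.r ^ 3
          = (C.u : K) ^ 6 * (4 * a) - V.b₆ - 2 * V.b₄ * C.r - V.b₂ * C.r ^ 2 := by
        field_simp at h
        simp only [WeierstrassCurve.b₆] at h ⊢
        linear_combination h
      refine (lt_of_eq_of_lt (congrArg A.valuation e) ?_ : A.valuation (4 * C.r ^ 3) <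
        A.valuation (C.r ^ 3)).ne (by rw [map_mul, h4, one_mul])
      refine A.valuation.map_sub_lt (A.valuation.map_sub_lt (A.valuation.map_sub_lt ?_ ?_) ?_) ?_
      · exact (v_le_one (A.mul_mem _ _ (pow_mem huA 6)
          (A.mul_mem _ _ (ofNat_mem A 4) haA))).trans_lt hR01
      · exact (v_le_one hb6).trans_lt hR01
      · exact (v_mul_le_of_mem (two_mul_mem hb4) le_rfl).trans_lt
          (by simpa using hlow 1 (by norm_num))
      · exact (v_mul_le_of_mem hb2 le_rfl).trans_lt (hlow 2 (by norm_num))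
    · have h4' := lt_of_le_of_ne (v_le_one (ofNat_mem A 4)) h4
      have h3 : A.valuation (3 : K) = 1 := by
        rw [show (3 : K) = -1 + 4 by norm_num, A.valuation.map_add_eq_of_lt_left,
          Valuation.map_neg, map_one]
        rw [Valuation.map_neg, map_one]; exact h4'
      have h := congrArg WeierstrassCurve.b₈ hC
      rw [variableChange_b₈, Units.val_inv_eq_inv_val] at h
      simp only [tateModel, WeierstrassCurve.b₈] at h
      have e : 3 * C.r ^ 4 = (C.u : K) ^ 8 * a - V.b₈ - 3 * V.b₆ * C.r - 3 * V.b₄ * C.r ^ 2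
          - V.b₂ * C.r ^ 3 := by
        field_simp at h
        simp only [WeierstrassCurve.b₈] at h ⊢
        linear_combination h
      have hR34 : A.valuation (C.r ^ 3) < A.valuation (C.r ^ 4) := by
        rw [map_pow, map_pow]; exact pow_lt_pow_right₀ hR (by norm_num)
      refine (lt_of_eq_of_lt (congrArg A.valuation e) ?_ : A.valuation (3 * C.r ^ 4) <
        A.valuation (C.r ^ 4)).ne (by rw [map_mul, h3, one_mul])
      refine A.valuation.map_sub_lt (A.valuation.map_sub_lt (A.valuation.map_sub_lt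
        (A.valuation.map_sub_lt ?_ ?_) ?_) ?_) ?_
      · exact (v_le_one (A.mul_mem _ _ (pow_mem huA 8) haA)).trans_lt (hR01.trans hR34)
      · exact (v_le_one hb8).trans_lt (hR01.trans hR34)
      · exact (v_mul_le_of_mem (A.mul_mem _ _ (ofNat_mem A 3) hb6) le_rfl).trans_lt
          ((by simpa using hlow 1 (by norm_num) : A.valuation C.r < _).trans hR34)
      · exact (v_mul_le_of_mem (A.mul_mem _ _ (ofNat_mem A 3) hb4) le_rfl).trans_lt
          ((hlow 2 (by norm_num)).trans hR34)
      · exact (v_mul_le_of_mem hb2 le_rfl).trans_lt hR34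
  have h2 := congrArg WeierstrassCurve.a₂ hC
  have h6 := congrArg WeierstrassCurve.a₆ hC
  rw [variableChange_a₂, Units.val_inv_eq_inv_val] at h2
  rw [variableChange_a₆, Units.val_inv_eq_inv_val] at h6
  simp only [tateModel] at h2 h6
  have hs : C.s ∈ A := by
    refine mem_of_monic_quadratic (b := V.a₁) (c := -(V.a₂ + 3 * C.r)) ha1
      (A.neg_mem _ (A.add_mem _ _ ha2 (A.mul_mem _ _ (ofNat_mem A 3) hr))) ?_
    have := (mul_eq_zero.1 h2).resolve_left (pow_ne_zero 2 (inv_ne_zero hu0))
    linear_combination -this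
  have ht : C.t ∈ A := by
    refine mem_of_monic_quadratic (b := V.a₃ + C.r * V.a₁)
      (c := (C.u : K) ^ 6 * a - (V.a₆ + C.r * V.a₄ + C.r ^ 2 * V.a₂ + C.r ^ 3))
      (A.add_mem _ _ ha3 (A.mul_mem _ _ hr ha1))
      (A.toSubring.sub_mem (A.mul_mem _ _ (pow_mem huA 6) haA) ?_) ?_
    · exact A.add_mem _ _ (A.add_mem _ _ (A.add_mem _ _ ha6 (A.mul_mem _ _ hr ha4))
        (A.mul_mem _ _ (pow_mem hr 2) ha2)) (pow_mem hr 3)
    · field_simp at h6
      linear_combination -h6
  exact ⟨hu, hr, hs, ht⟩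

theorem exists_normalForm [IsAlgClosed K] [CharZero K] (hV : MultAt A V) (hΔ : V.Δ ≠ 0) :
    ∃ (a : K) (C : VariableChange K), IntegralVC A C ∧ C • V = tateModel a ∧
      TateForm A (tateModel a) ∧ A.valuation a = A.valuation V.Δ ∧
      ∀ b : K, b * (1 + 432 * b) = -(V.Δ / V.c₄ ^ 3) → A.valuation b < 1 → b = a := by
  obtain ⟨a, ha, hva, huniq⟩ := exists_tate_param hV hΔ
  have hc4 := ne_zero_of_v_eq_one hV.valuation_c₄
  have hΔ' : (tateModel a).Δ ≠ 0 := by
    rw [tateModel_Δ, ha, neg_neg]; exact div_ne_zero hΔ (pow_ne_zero 3 hc4)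
  haveI : V.IsElliptic := ⟨isUnit_iff_ne_zero.2 hΔ⟩
  haveI : (tateModel a).IsElliptic := ⟨isUnit_iff_ne_zero.2 hΔ'⟩
  obtain ⟨C, hC⟩ := exists_variableChange_of_j_eq V (tateModel a) (by
    rw [WeierstrassCurve.j, WeierstrassCurve.j, Units.val_inv_eq_inv_val,
      Units.val_inv_eq_inv_val, coe_Δ', coe_Δ', tateModel_c₄, tateModel_Δ, ha, neg_neg]
    field_simp)
  have hlt : A.valuation a < 1 := hva.trans_lt hV.valuation_Δ
  refine ⟨a, C, integralVC_of_eq hV hlt hC, hC, ⟨rfl, rfl, rfl, rfl, ?_, hlt⟩, hva, huniq⟩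
  intro h0
  change a = 0 at h0
  exact (v_ne_zero (A := A) hΔ) (by rw [← hva, h0, map_zero])

/-- An automorphism of inertia type fixing the coefficients of `V` fixes the normal form data. -/
theorem normalForm_fixed [CharZero K] (hV : MultAt A V) {a : K} {C : VariableChange K}
    (hI : IntegralVC A C) (hC : C • V = tateModel a) (hlt : A.valuation a < 1)
    (huniq : ∀ b : K, b * (1 + 432 * b) = -(V.Δ / V.c₄ ^ 3) → A.valuation b < 1 → b = a)
    (τ : K →+* K) (hτV : V.map τ = V) (hτA : ∀ x ∈ A, A.valuation (τ x - x) < 1) :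
    τ a = a ∧ τ (C.u : K) = C.u ∧ τ C.r = C.r ∧ τ C.s = C.s ∧ τ C.t = C.t := by
  have hu0 := C.u.ne_zero
  have hτc4 : τ V.c₄ = V.c₄ := by rw [← WeierstrassCurve.map_c₄, hτV]
  have hτc6 : τ V.c₆ = V.c₆ := by rw [← WeierstrassCurve.map_c₆, hτV]
  have hτΔ : τ V.Δ = V.Δ := by rw [← WeierstrassCurve.map_Δ, hτV]
  have hc4 := congrArg WeierstrassCurve.c₄ hC
  have hc6 := congrArg WeierstrassCurve.c₆ hC
  have hD := congrArg WeierstrassCurve.Δ hC
  rw [variableChange_c₄, tateModel_c₄, Units.val_inv_eq_inv_val] at hc4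
  rw [variableChange_c₆, tateModel_c₆, Units.val_inv_eq_inv_val] at hc6
  rw [variableChange_Δ, tateModel_Δ, Units.val_inv_eq_inv_val] at hD
  have hu4 : (C.u : K) ^ 4 = V.c₄ := by field_simp at hc4; linear_combination -hc4
  have hu6 : (C.u : K) ^ 6 * (-1 - 864 * a) = V.c₆ := by
    field_simp at hc6; linear_combination -hc6
  have hrel : a * (1 + 432 * a) = -(V.Δ / V.c₄ ^ 3) := by
    rw [← hu4]; field_simp at hD ⊢; linear_combination hD
  have hτa : τ a = a := by
    refine huniq _ ?_ ?_
    · have := congrArg τ hrel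
      simpa only [map_mul, map_add, map_one, map_ofNat, map_neg, map_div₀, map_pow, hτc4, hτΔ]
        using this
    · rw [show τ a = a + (τ a - a) by ring]
      exact A.valuation.map_add_lt hlt (hτA a (mem_of_v_lt_one hlt))
  have h86 : (-1 - 864 * a : K) ≠ 0 := by
    refine ne_zero_of_v_eq_one (A := A) ?_
    rw [show (-1 - 864 * a : K) = -(1 + 864 * a) by ring, Valuation.map_neg,
      A.valuation.map_one_add_of_lt (v_mul_lt_one' (v_le_one (ofNat_mem A 864)) hlt)]
  have h4 : τ (C.u : K) ^ 4 = (C.u : K) ^ 4 := by rw [← map_pow, hu4, hτc4]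
  have h6 : τ (C.u : K) ^ 6 = (C.u : K) ^ 6 := by
    have := congrArg τ hu6
    rw [map_mul, map_pow, map_sub, map_neg, map_one, map_mul, map_ofNat, hτa, hτc6, ← hu6] at this
    exact mul_right_cancel₀ h86 this
  have h2 : τ (C.u : K) ^ 2 = (C.u : K) ^ 2 := by
    refine mul_left_cancel₀ (pow_ne_zero 4 hu0) ?_
    calc (C.u : K) ^ 4 * τ (C.u : K) ^ 2 = τ (C.u : K) ^ 6 := by rw [← h4]; ring
      _ = (C.u : K) ^ 4 * (C.u : K) ^ 2 := by rw [h6]; ring
  have ha1' : τ V.a₁ = V.a₁ := by rw [← WeierstrassCurve.map_a₁, hτV]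
  have ha3' : τ V.a₃ = V.a₃ := by rw [← WeierstrassCurve.map_a₃, hτV]
  have hb2' : τ V.b₂ = V.b₂ := by rw [← WeierstrassCurve.map_b₂, hτV]
  have h1 := congrArg WeierstrassCurve.a₁ hC
  have h3 := congrArg WeierstrassCurve.a₃ hC
  have hb := congrArg WeierstrassCurve.b₂ hC
  rw [variableChange_a₁, Units.val_inv_eq_inv_val] at h1
  rw [variableChange_a₃, Units.val_inv_eq_inv_val] at h3
  rw [variableChange_b₂, Units.val_inv_eq_inv_val] at hb
  simp only [tateModel, WeierstrassCurve.b₂] at h1 h3 hb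
  have e1 : 2 * C.s = (C.u : K) - V.a₁ := by field_simp at h1; linear_combination h1
  have e3 : 2 * C.t = -(V.a₃ + C.r * V.a₁) := by
    linear_combination (mul_eq_zero.1 h3).resolve_left (pow_ne_zero 3 (inv_ne_zero hu0))
  have eb : 12 * C.r = (C.u : K) ^ 2 - V.b₂ := by
    field_simp at hb
    simp only [WeierstrassCurve.b₂] at hb ⊢
    linear_combination hb
  have hτu : τ (C.u : K) = C.u := by
    rcases mul_self_eq_mul_self_iff.1 ((sq _).symm.trans (h2.trans (sq _))) with h | h
    · exact h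
    · exfalso
      have hd : 2 * (τ C.s - C.s) = -(2 * (C.u : K)) := by
        have := congrArg τ e1
        rw [map_mul, map_ofNat, map_sub, h, ha1'] at this
        linear_combination this - e1
      have hds : τ C.s - C.s = -(C.u : K) := mul_left_cancel₀ two_ne_zero
        (hd.trans (mul_neg _ _).symm)
      have := hτA C.s hI.s_mem
      rw [hds, Valuation.map_neg, hI.valuation_u] at this
      exact lt_irrefl _ this
  have hτr : τ C.r = C.r := by
    refine mul_left_cancel₀ (by norm_num : (12 : K) ≠ 0) ?_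
    have := congrArg τ eb
    rw [map_mul, map_ofNat, map_sub, map_pow, hτu, hb2', ← eb] at this
    exact this
  refine ⟨hτa, hτu, hτr, ?_, ?_⟩
  · refine mul_left_cancel₀ (two_ne_zero (α := K)) ?_
    have := congrArg τ e1
    rw [map_mul, map_ofNat, map_sub, hτu, ha1', ← e1] at this
    exact this
  · refine mul_left_cancel₀ (two_ne_zero (α := K)) ?_
    have := congrArg τ e3
    rw [map_mul, map_ofNat, map_neg, map_add, map_mul, hτr, ha1', ha3', ← e3] at this
    exact this

end Fermat.Agent.ECLocal
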