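import Fermat.Agent.ECLocal.Multiplicative
import Fermat.Prelude.Def_EllipticCurve_ZeroComponentAt
import Fermat.Prelude.Def_FLTPrelim_Modularity
import Mathlib

/-!
# The local theory at a place of `ℚ̄` for integral models over `ℤ`
-/

set_option autoImplicit false

namespace Fermat.Agent.ECLocal

open WeierstrassCurve WeierstrassCurve.Affine.Point
open scoped WeierstrassCurve.Affine

local notation "Qb" => AlgebraicClosure ℚ

local instance isAlgebraicQbar_ecLocal : Algebra.IsAlgebraic ℚ Qb :=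
  AlgebraicClosure.isAlgebraic ℚ

theorem intModel_eq (W : WeierstrassCurve ℤ) :
    ((W.map (Int.castRingHom ℚ))⁄Qb) = W.map (Int.castRingHom Qb) := by
  change (W.map (Int.castRingHom ℚ)).map (algebraMap ℚ Qb) = _
  rw [WeierstrassCurve.map_map]
  congr 1

theorem intCast_mem_val (A : ValuationSubring Qb) (n : ℤ) : (n : Qb) ∈ A :=
  intCast_mem A.toSubring n

theorem integralAt_intModel (W : WeierstrassCurve ℤ) (A : ValuationSubring Qb) :
    IntegralAt A ((W.map (Int.castRingHom ℚ))⁄Qb) := by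
  rw [intModel_eq]
  exact ⟨intCast_mem_val A _, intCast_mem_val A _, intCast_mem_val A _, intCast_mem_val A _,
    intCast_mem_val A _⟩

theorem valuation_q_lt_one {q : ℕ} (A : ValuationSubring Qb) (hA : A.LiesOverPrime q) :
    A.valuation (q : Qb) < 1 := hA

theorem valuation_intCast_eq_one {q : ℕ} (hq : q.Prime) {m : ℤ} (hm : ¬ (q : ℤ) ∣ m)
    (A : ValuationSubring Qb) (hA : A.LiesOverPrime q) : A.valuation (m : Qb) = 1 := by
  obtain ⟨u, w, huw⟩ :=
    (Int.isCoprime_iff_gcd_eq_one.2 (by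
      rw [Int.gcd_eq_natAbs, Int.natAbs_natCast]
      exact (Nat.Prime.coprime_iff_not_dvd hq).2 fun h => hm (Int.natCast_dvd.2 h)) :
      IsCoprime (q : ℤ) m)
  refine le_antisymm (v_le_one (intCast_mem_val A m)) ?_
  by_contra hlt
  rw [not_le] at hlt
  have h := congrArg (fun z : ℤ => A.valuation (z : Qb)) huw
  simp only [Int.cast_add, Int.cast_mul, Int.cast_natCast, Int.cast_one, map_one] at h
  exact (A.valuation.map_add_lt (v_mul_lt_one' (v_le_one (intCast_mem_val A u))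
    (valuation_q_lt_one A hA)) (v_mul_lt_one' (v_le_one (intCast_mem_val A w)) hlt)).ne h

theorem valuation_natCast_eq_one {q : ℕ} (hq : q.Prime) {m : ℕ} (hm : ¬ q ∣ m)
    (A : ValuationSubring Qb) (hA : A.LiesOverPrime q) : A.valuation (m : Qb) = 1 := by
  have := valuation_intCast_eq_one (m := (m : ℤ)) hq (by exact_mod_cast hm) A hA
  simpa using this

theorem valuation_intCast_lt_one {q : ℕ} {m : ℤ} (hm : (q : ℤ) ∣ m)
    (A : ValuationSubring Qb) (hA : A.LiesOverPrime q) : A.valuation (m : Qb) < 1 := by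
  obtain ⟨k, rfl⟩ := hm
  rw [Int.cast_mul, Int.cast_natCast]
  exact v_mul_lt_one (valuation_q_lt_one A hA) (v_le_one (intCast_mem_val A k))

/-- The valuation of an integer is `v(q)` to the power of its `q`-adic valuation. -/
theorem valuation_intCast_eq_pow {q : ℕ} (hq : q.Prime) {m : ℤ} (hm : m ≠ 0)
    (A : ValuationSubring Qb) (hA : A.LiesOverPrime q) :
    A.valuation (m : Qb) = A.valuation (q : Qb) ^ padicValInt q m := by
  haveI := Fact.mk hq
  obtain ⟨k, hk⟩ : (q : ℤ) ^ padicValInt q m ∣ m := padicValInt_dvd m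
  have hk' : ¬ (q : ℤ) ∣ k := by
    rintro ⟨j, rfl⟩
    have : (q : ℤ) ^ (padicValInt q m + 1) ∣ m := ⟨j, by rw [pow_succ, mul_assoc]; exact hk⟩
    rcases (padicValInt_dvd_iff (padicValInt q m + 1) m).1 this with h | h
    · exact hm h
    · omega
  conv_lhs => rw [hk]
  rw [Int.cast_mul, Int.cast_pow, Int.cast_natCast, map_mul, map_pow,
    valuation_intCast_eq_one hq hk' A hA, mul_one]

theorem intModel_Δ (W : WeierstrassCurve ℤ) :
    ((W.map (Int.castRingHom ℚ))⁄Qb).Δ = (W.Δ : Qb) := by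
  rw [intModel_eq, WeierstrassCurve.map_Δ]; rfl

theorem intModel_c₄ (W : WeierstrassCurve ℤ) :
    ((W.map (Int.castRingHom ℚ))⁄Qb).c₄ = (W.c₄ : Qb) := by
  rw [intModel_eq, WeierstrassCurve.map_c₄]; rfl

theorem goodAt_intModel (W : WeierstrassCurve ℤ) {q : ℕ} (hq : q.Prime)
    (hgood : ¬ (q : ℤ) ∣ W.Δ) (A : ValuationSubring Qb) (hA : A.LiesOverPrime q) :
    GoodAt A ((W.map (Int.castRingHom ℚ))⁄Qb) :=
  ⟨integralAt_intModel W A, by rw [intModel_Δ]; exact valuation_intCast_eq_one hq hgood A hA⟩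

theorem multAt_intModel (W : WeierstrassCurve ℤ) (hΔ0 : W.Δ ≠ 0) {q : ℕ} (hq : q.Prime)
    (hΔ : (q : ℤ) ∣ W.Δ) (hc₄ : ¬ (q : ℤ) ∣ W.c₄) (A : ValuationSubring Qb)
    (hA : A.LiesOverPrime q) : MultAt A ((W.map (Int.castRingHom ℚ))⁄Qb) :=
  ⟨integralAt_intModel W A, by rw [intModel_Δ]; exact_mod_cast hΔ0,
    by rw [intModel_Δ]; exact valuation_intCast_lt_one hΔ A hA,
    by rw [intModel_c₄]; exact valuation_intCast_eq_one hq hc₄ A hA⟩

theorem nsmul_coe_torsionBy {n : ℕ} {M : Type*} [AddCommGroup M]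
    (x : Submodule.torsionBy ℤ M n) : n • (x : M) = 0 := by
  have := x.2
  rwa [Submodule.mem_torsionBy_iff, natCast_zsmul] at this

/-- Good reduction: the mod-`n` representation is unramified. -/
theorem galoisRepUnramifiedAt_of_good (W : WeierstrassCurve ℤ) {q n : ℕ} (hq : q.Prime)
    (hgood : ¬ (q : ℤ) ∣ W.Δ) (hqn : ¬ q ∣ n) :
    GaloisRepUnramifiedAt (K := Qb) ℚ (W.map (Int.castRingHom ℚ)) n q := fun A hA σ hσ x =>
  Subtype.ext (smul_eq_self_of_good (goodAt_intModel W hq hgood A hA) hσ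
    (valuation_natCast_eq_one hq hqn A hA) (nsmul_coe_torsionBy x))

/-- Multiplicative reduction with `p ∣ v_q(Δ)`: the mod-`p` representation is unramified. -/
theorem galoisRepUnramifiedAt_of_mult (W : WeierstrassCurve ℤ) (hΔ0 : W.Δ ≠ 0) {q p : ℕ}
    (hq : q.Prime) (hp : p.Prime) (hqp : q ≠ p) (hΔ : (q : ℤ) ∣ W.Δ) (hc₄ : ¬ (q : ℤ) ∣ W.c₄)
    (hpv : p ∣ padicValInt q W.Δ) :
    GaloisRepUnramifiedAt (K := Qb) ℚ (W.map (Int.castRingHom ℚ)) p q := fun A hA σ hσ x => by
  obtain ⟨k, hk⟩ := hpv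
  refine Subtype.ext (smul_eq_self_of_mult (multAt_intModel W hΔ0 hq hΔ hc₄ A hA) hσ hp
    (valuation_natCast_eq_one hq (fun h => hqp ((Nat.prime_dvd_prime_iff_eq hq hp).1 h)) A hA)
    (c := (q : ℚ) ^ k) ?_ (nsmul_coe_torsionBy x))
  rw [map_pow, map_natCast, map_pow, ← pow_mul, intModel_Δ,
    valuation_intCast_eq_pow hq hΔ0 A hA, hk, mul_comm]

/-- Semistable: inertia at `q ∤ n` is unipotent, `(σ - 1)(τ - 1) = 0`. -/
theorem smul_smul_sub_eq_of_semistable (W : WeierstrassCurve ℤ) (hΔ0 : W.Δ ≠ 0) {q n : ℕ}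
    (hq : q.Prime) (hss : (q : ℤ) ∣ W.Δ → ¬ (q : ℤ) ∣ W.c₄) (hqn : ¬ q ∣ n)
    {A : ValuationSubring Qb} (hA : A.LiesOverPrime q) {σ τ : Qb ≃ₐ[ℚ] Qb}
    (hσ : σ ∈ A.inertiaSubgroupIn ℚ) (hτ : τ ∈ A.inertiaSubgroupIn ℚ)
    (x : Submodule.torsionBy ℤ ((W.map (Int.castRingHom ℚ))⁄Qb).Point n) :
    σ • (τ • x - x) = τ • x - x := by
  have hn := valuation_natCast_eq_one hq hqn A hA
  apply Subtype.ext
  by_cases hΔ : (q : ℤ) ∣ W.Δ
  · exact smul_smul_sub_eq_of_mult (multAt_intModel W hΔ0 hq hΔ (hss hΔ) A hA) hσ hτ hn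
      (nsmul_coe_torsionBy x)
  · exact smul_eq_self_of_good (goodAt_intModel W hq hΔ A hA) hσ hn
      (nsmul_coe_torsionBy (τ • x - x))

/-- `NonsingRed` agrees with the Prelude's `InZeroComponentAt`. -/
theorem nonsingRed_iff_inZeroComponentAt (W : WeierstrassCurve ℤ) (A : ValuationSubring Qb)
    (P : ((W.map (Int.castRingHom ℚ))⁄Qb).Point) :
    NonsingRed A P ↔ W.InZeroComponentAt A P := by
  have hV := integralAt_intModel W A
  have hred : redCurve hV = W.map (Int.castRingHom (IsLocalRing.ResidueField A)) := by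
    ext
    all_goals
      simp only [redCurve, WeierstrassCurve.map_a₁, WeierstrassCurve.map_a₂,
        WeierstrassCurve.map_a₃, WeierstrassCurve.map_a₄, WeierstrassCurve.map_a₆,
        eq_intCast, intModel_eq]
      rw [← map_intCast (IsLocalRing.residue A)]
      congr 1
  match P with
  | .zero => exact iff_of_true trivial (Or.inl rfl)
  | .some x y h =>
    constructor
    · intro hP
      refine Or.inr ⟨x, y, h, rfl, ?_⟩
      by_cases hx : x ∈ A
      · have hy := y_mem_of_x_mem hV h.1 hx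
        refine Or.inr ⟨hx, hy, ?_⟩
        rw [← hred, ← residueOf_mem hx, ← residueOf_mem hy]
        exact (redCurve_nonsingular_iff hV hx hy).2 hP
      · exact Or.inl hx
    · rintro (h0 | ⟨x', y', h', heq, hor⟩)
      · exact absurd h0 (WeierstrassCurve.Affine.Point.some_ne_zero _)
      · injection heq with e1 e2
        subst e1 e2
        rcases hor with hx | ⟨hx, hy, hns⟩
        · exact Or.inl hx
        · rw [← hred, ← residueOf_mem hx, ← residueOf_mem hy] at hns
          exact (redCurve_nonsingular_iff hV hx hy).1 hns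

/-- Inertia fixes the prime-to-`q` torsion reducing to nonsingular points. -/
theorem smul_eq_self_of_inZeroComponentAt (W : WeierstrassCurve ℤ) {q n : ℕ} (hq : q.Prime)
    (hqn : ¬ q ∣ n) {A : ValuationSubring Qb} (hA : A.LiesOverPrime q) {σ : Qb ≃ₐ[ℚ] Qb}
    (hσ : σ ∈ A.inertiaSubgroupIn ℚ)
    (x : Submodule.torsionBy ℤ ((W.map (Int.castRingHom ℚ))⁄Qb).Point n)
    (hx : W.InZeroComponentAt A x.1) : σ • x = x :=
  Subtype.ext (smul_eq_self_of_nonsingRed (integralAt_intModel W A) hσ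
    ((nonsingRed_iff_inZeroComponentAt W A x.1).2 hx)
    (valuation_natCast_eq_one hq hqn A hA) (nsmul_coe_torsionBy x))

end Fermat.Agent.ECLocal
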