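import Fermat.Agent.ECLocal.Kernel

/-!
# The reduction map on points reducing to nonsingular points
-/

set_option autoImplicit false

universe v

namespace Fermat.Agent.ECLocal

open WeierstrassCurve

variable {K : Type v} [Field K] {A : ValuationSubring K} {V : WeierstrassCurve K}

/-- The slope times `y₁ + y₂ + a₁x₁ + a₃`, secant or tangent. -/
theorem slope_mul_eq [DecidableEq K] {x₁ x₂ y₁ y₂ : K}
    (h₁ : V.toAffine.Equation x₁ y₁) (h₂ : V.toAffine.Equation x₂ y₂)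
    (hxy : ¬(x₁ = x₂ ∧ y₁ = V.toAffine.negY x₂ y₂)) :
    V.toAffine.slope x₁ x₂ y₁ y₂ * (y₁ + y₂ + V.a₁ * x₁ + V.a₃)
      = x₁ ^ 2 + x₁ * x₂ + x₂ ^ 2 + V.a₂ * (x₁ + x₂) + V.a₄ - V.a₁ * y₂ := by
  by_cases hx : x₁ = x₂
  · have hy : y₁ ≠ V.toAffine.negY x₂ y₂ := fun h => hxy ⟨hx, h⟩
    have hyy := Affine.Y_eq_of_Y_ne h₁ h₂ hx hy
    subst hx hyy
    rw [Affine.slope_of_Y_ne rfl hy]
    have : y₁ - V.toAffine.negY x₁ y₁ ≠ 0 := sub_ne_zero.2 hy
    rw [show y₁ + y₁ + V.a₁ * x₁ + V.a₃ = y₁ - V.toAffine.negY x₁ y₁ by rw [Affine.negY]; ring]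
    field_simp
    ring
  · rw [Affine.equation_iff] at h₁ h₂
    rw [Affine.slope_of_X_ne hx]
    field_simp [sub_ne_zero.2 hx]
    linear_combination h₁ - h₂

/-- If the slope has a pole then the sum lies in `E₁`. -/
theorem inKernel_add_of_slope [DecidableEq K] (hV : IntegralAt A V) {x₁ x₂ y₁ y₂ : K}
    {h₁ : V.toAffine.Nonsingular x₁ y₁} {h₂ : V.toAffine.Nonsingular x₂ y₂}
    (hxy : ¬(x₁ = x₂ ∧ y₁ = V.toAffine.negY x₂ y₂)) (hx₁ : x₁ ∈ A) (hx₂ : x₂ ∈ A)
    (hl : 1 < A.valuation (V.toAffine.slope x₁ x₂ y₁ y₂)) :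
    InKernel A (Affine.Point.some x₁ y₁ h₁ + Affine.Point.some x₂ y₂ h₂) := by
  rw [Affine.Point.add_some hxy, inKernel_some_iff]
  generalize V.toAffine.slope x₁ x₂ y₁ y₂ = ℓ at hl ⊢
  refine not_mem_of_one_lt ?_
  have hl2 : A.valuation ℓ < A.valuation (ℓ ^ 2) := by
    rw [map_pow, sq]; exact lt_mul_of_one_lt_left (zero_lt_one.trans hl) hl
  have hrest : A.valuation (V.a₁ * ℓ - V.a₂ - x₁ - x₂) < A.valuation (ℓ ^ 2) := by
    refine A.valuation.map_sub_lt (A.valuation.map_sub_lt (A.valuation.map_sub_lt ?_ ?_) ?_) ?_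
    · exact (v_mul_le_of_mem hV.a₁_mem le_rfl).trans_lt hl2
    · exact (v_le_one hV.a₂_mem).trans_lt (hl.trans hl2)
    · exact (v_le_one hx₁).trans_lt (hl.trans hl2)
    · exact (v_le_one hx₂).trans_lt (hl.trans hl2)
  rw [Affine.addX, show ℓ ^ 2 + V.a₁ * ℓ - V.a₂ - x₁ - x₂
    = ℓ ^ 2 + (V.a₁ * ℓ - V.a₂ - x₁ - x₂) by ring, A.valuation.map_add_eq_of_lt_left hrest]
  exact hl.trans hl2

/-- The singularity criterion in terms of valuations. -/
theorem nonsingRed_some_iff {x y : K} (hx : x ∈ A) (hy : y ∈ A)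
    {h : V.toAffine.Nonsingular x y} :
    NonsingRed A (Affine.Point.some x y h) ↔
      (A.valuation (V.a₁ * y - (3 * x ^ 2 + 2 * V.a₂ * x + V.a₄)) = 1 ∨
        A.valuation (2 * y + V.a₁ * x + V.a₃) = 1) := by
  rw [← Affine.evalEval_polynomialX, ← Affine.evalEval_polynomialY]
  constructor
  · rintro (h1 | ⟨_, _, h2⟩)
    · exact absurd hx h1
    · exact h2
  · intro h2; exact Or.inr ⟨hx, hy, h2⟩

theorem negY_mem (hV : IntegralAt A V) {x y : K} (hx : x ∈ A) (hy : y ∈ A) :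
    V.toAffine.negY x y ∈ A :=
  A.toSubring.sub_mem (A.toSubring.sub_mem (A.neg_mem _ hy) (A.mul_mem _ _ hV.a₁_mem hx))
    hV.a₃_mem

theorem polyY_mem (hV : IntegralAt A V) {x y : K} (hx : x ∈ A) (hy : y ∈ A) :
    2 * y + V.a₁ * x + V.a₃ ∈ A :=
  A.add_mem _ _ (A.add_mem _ _ (two_mul_mem hy) (A.mul_mem _ _ hV.a₁_mem hx)) hV.a₃_mem

theorem polyX_mem (hV : IntegralAt A V) {x y : K} (hx : x ∈ A) (hy : y ∈ A) :
    V.a₁ * y - (3 * x ^ 2 + 2 * V.a₂ * x + V.a₄) ∈ A :=
  A.toSubring.sub_mem (A.mul_mem _ _ hV.a₁_mem hy) (A.add_mem _ _ (A.add_mem _ _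
    (A.mul_mem _ _ (ofNat_mem A 3) (pow_mem hx 2))
    (A.mul_mem _ _ (two_mul_mem hV.a₂_mem) hx)) hV.a₄_mem)

theorem eq_one_of_not_lt {z : K} (hz : z ∈ A) (h : ¬ A.valuation z < 1) : A.valuation z = 1 :=
  le_antisymm (v_le_one hz) (le_of_not_gt h)

theorem NonsingRed.neg (hV : IntegralAt A V) {P : V.toAffine.Point} (hP : NonsingRed A P) :
    NonsingRed A (-P) := by
  match P, hP with
  | .zero, _ => exact trivial
  | .some x y h, hP =>
    rw [Affine.Point.neg_some]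
    by_cases hx : x ∈ A
    · have hy := y_mem_of_x_mem hV h.1 hx
      rw [nonsingRed_some_iff hx hy] at hP
      rw [nonsingRed_some_iff hx (negY_mem hV hx hy)]
      have hψ : A.valuation (2 * V.toAffine.negY x y + V.a₁ * x + V.a₃)
          = A.valuation (2 * y + V.a₁ * x + V.a₃) := by
        rw [← Valuation.map_neg, Affine.negY]; congr 1; ring
      rw [hψ]
      by_cases h2 : A.valuation (2 * y + V.a₁ * x + V.a₃) = 1
      · exact Or.inr h2
      refine Or.inl ?_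
      have hlt := lt_of_le_of_ne (v_le_one (polyY_mem hV hx hy)) h2
      have h1 := hP.resolve_right h2
      rw [show V.a₁ * V.toAffine.negY x y - (3 * x ^ 2 + 2 * V.a₂ * x + V.a₄)
        = (V.a₁ * y - (3 * x ^ 2 + 2 * V.a₂ * x + V.a₄)) + (-V.a₁) * (2 * y + V.a₁ * x + V.a₃) by
          rw [Affine.negY]; ring]
      rw [A.valuation.map_add_eq_of_lt_left, h1]
      rw [h1]
      exact v_mul_lt_one' (by rw [Valuation.map_neg]; exact v_le_one hV.a₁_mem) hlt
    · exact Or.inl hx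

/-- `E₀` is closed under addition. -/
theorem NonsingRed.add [DecidableEq K] (hV : IntegralAt A V) {P Q : V.toAffine.Point}
    (hP : NonsingRed A P) (hQ : NonsingRed A Q) : NonsingRed A (P + Q) := by
  match P, Q with
  | .zero, Q => rw [← Affine.Point.zero_def, zero_add]; exact hQ
  | .some x₁ y₁ h₁, .zero => rw [← Affine.Point.zero_def, add_zero]; exact hP
  | .some x₁ y₁ h₁, .some x₂ y₂ h₂ =>
    by_cases hxy : x₁ = x₂ ∧ y₁ = V.toAffine.negY x₂ y₂
    · rw [Affine.Point.add_of_Y_eq hxy.1 hxy.2]; exact trivial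
    by_contra hcon
    have hS := fun hS => hcon (by
      rw [← neg_neg (Affine.Point.some x₁ y₁ h₁ + Affine.Point.some x₂ y₂ h₂)]
      exact NonsingRed.neg hV hS)
    obtain ⟨e1, e2, -, hy2, hy3⟩ := chord_vieta h₁.1 h₂.1 hxy rfl rfl rfl
    have hneg : -(Affine.Point.some x₁ y₁ h₁ + Affine.Point.some x₂ y₂ h₂)
        = Affine.Point.some _ _ (Affine.nonsingular_negAdd h₁ h₂ hxy) := by
      rw [Affine.Point.add_some hxy, Affine.Point.neg_some]
      congr 1
      rw [Affine.addY, Affine.negY_negY]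
    rw [hneg] at hS
    clear hneg
    generalize Affine.nonsingular_negAdd h₁ h₂ hxy = hns₃ at hS
    have heq₃ := Affine.equation_negAdd h₁.1 h₂.1 hxy
    generalize V.toAffine.slope x₁ x₂ y₁ y₂ = ℓ at e1 e2 hy2 hy3 hns₃ hS heq₃
    generalize V.toAffine.addX x₁ x₂ ℓ = x₃ at e1 e2 hy3 hns₃ hS heq₃
    generalize V.toAffine.negAddY x₁ x₂ y₁ ℓ = y₃ at hy3 hns₃ hS heq₃
    have hx₃ : x₃ ∈ A := by
      by_contra h; exact hS (Or.inl h)
    have hy₃ := y_mem_of_x_mem hV heq₃ hx₃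
    rw [nonsingRed_some_iff hx₃ hy₃] at hS
    replace hS := not_or.1 hS
    have hφ := lt_of_le_of_ne (v_le_one (polyX_mem hV hx₃ hy₃)) hS.1
    have hψ := lt_of_le_of_ne (v_le_one (polyY_mem hV hx₃ hy₃)) hS.2
    have hsum : (x₁ - x₃) + (x₂ - x₃) = ℓ ^ 2 + V.a₁ * ℓ - V.a₂ - 3 * x₃ := by
      linear_combination e1
    have hprod : (x₁ - x₃) * (x₂ - x₃) = -(ℓ * (2 * y₃ + V.a₁ * x₃ + V.a₃)
        + (V.a₁ * y₃ - (3 * x₃ ^ 2 + 2 * V.a₂ * x₃ + V.a₄))) := by
      rw [hy3]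
      linear_combination e2 - 2 * x₃ * e1
    -- a point of the triple reducing to the singular point `(x₃, y₃)` is singularly reduced
    have hbad : ∀ x y : K, ∀ h : V.toAffine.Nonsingular x y,
        NonsingRed A (Affine.Point.some x y h) → y = y₁ - ℓ * x₁ + ℓ * x →
        A.valuation (x - x₃) < 1 → A.valuation (ℓ * (x - x₃)) < 1 → False := by
      intro x y h hn hy hx1 hlx
      have hyd : A.valuation (y - y₃) < 1 := by
        rw [show y - y₃ = ℓ * (x - x₃) by rw [hy, hy3]; ring]; exact hlx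
      have hx : x ∈ A := by
        rw [show x = (x - x₃) + x₃ by ring]
        exact A.add_mem _ _ (mem_of_v_lt_one hx1) hx₃
      have hy' : y ∈ A := by
        rw [show y = (y - y₃) + y₃ by ring]
        exact A.add_mem _ _ (mem_of_v_lt_one hyd) hy₃
      rw [nonsingRed_some_iff hx hy'] at hn
      rcases hn with hn | hn <;> refine ne_of_lt ?_ hn
      · rw [show V.a₁ * y - (3 * x ^ 2 + 2 * V.a₂ * x + V.a₄)
          = (V.a₁ * y₃ - (3 * x₃ ^ 2 + 2 * V.a₂ * x₃ + V.a₄))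
            + (V.a₁ * (y - y₃) - (3 * (x + x₃) + 2 * V.a₂) * (x - x₃)) by ring]
        exact A.valuation.map_add_lt hφ (A.valuation.map_sub_lt
          (v_mul_lt_one' (v_le_one hV.a₁_mem) hyd)
          (v_mul_lt_one' (v_le_one (A.add_mem _ _
            (A.mul_mem _ _ (ofNat_mem A 3) (A.add_mem _ _ hx hx₃))
            (two_mul_mem hV.a₂_mem))) hx1))
      · rw [show 2 * y + V.a₁ * x + V.a₃
          = (2 * y₃ + V.a₁ * x₃ + V.a₃) + (2 * (y - y₃) + V.a₁ * (x - x₃)) by ring]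
        exact A.valuation.map_add_lt hψ (A.valuation.map_add_lt
          (v_mul_lt_one' (v_le_one (ofNat_mem A 2)) hyd)
          (v_mul_lt_one' (v_le_one hV.a₁_mem) hx1))
    have hb1 := hbad x₁ y₁ h₁ hP (by ring)
    have hb2 := hbad x₂ y₂ h₂ hQ (by rw [hy2]; ring)
    by_cases hl : ℓ ∈ A
    · -- both differences are integral with product in the maximal ideal
      have hl1 := v_le_one hl
      have hp : A.valuation ((x₁ - x₃) * (x₂ - x₃)) < 1 := by
        rw [hprod, Valuation.map_neg]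
        exact A.valuation.map_add_lt (v_mul_lt_one' hl1 hψ) hφ
      rcases lt_or_ge (A.valuation (x₁ - x₃)) 1 with h | h
      · exact hb1 h (v_mul_lt_one' hl1 h)
      rcases lt_or_ge (A.valuation (x₂ - x₃)) 1 with h' | h'
      · exact hb2 h' (v_mul_lt_one' hl1 h')
      rw [map_mul] at hp
      exact absurd hp (not_lt.2 (one_le_mul h h'))
    · have hl1 := one_lt_v hl
      have hl0 : 0 < A.valuation ℓ := zero_lt_one.trans hl1
      have hl2 : A.valuation ℓ < A.valuation (ℓ ^ 2) := by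
        rw [map_pow, sq]; exact lt_mul_of_one_lt_left hl0 hl1
      have hs : A.valuation ((x₁ - x₃) + (x₂ - x₃)) = A.valuation (ℓ ^ 2) := by
        rw [hsum, show ℓ ^ 2 + V.a₁ * ℓ - V.a₂ - 3 * x₃ = ℓ ^ 2 + (V.a₁ * ℓ - V.a₂ - 3 * x₃) by
          ring]
        refine A.valuation.map_add_eq_of_lt_left (A.valuation.map_sub_lt (A.valuation.map_sub_lt
          ((v_mul_le_of_mem hV.a₁_mem le_rfl).trans_lt hl2)
          ((v_le_one hV.a₂_mem).trans_lt (hl1.trans hl2))) ?_)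
        exact (v_mul_le_of_mem (ofNat_mem A 3) (v_le_one hx₃)).trans_lt (hl1.trans hl2)
      have hp : A.valuation ((x₁ - x₃) * (x₂ - x₃)) < A.valuation ℓ := by
        rw [hprod, Valuation.map_neg]
        refine A.valuation.map_add_lt ?_ (hφ.trans hl1)
        rw [map_mul]
        exact mul_lt_of_lt_one_right hl0 hψ
      rw [map_mul] at hp
      -- one difference has valuation `≥ |ℓ|²`, the other is then tiny
      have key : ∀ a b : K, A.valuation (ℓ ^ 2) ≤ A.valuation a →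
          A.valuation a * A.valuation b < A.valuation ℓ →
          A.valuation b < 1 ∧ A.valuation (ℓ * b) < 1 := by
        intro a b ha hab
        have hlb : A.valuation (ℓ * b) < 1 := by
          rw [map_mul]
          refine lt_of_mul_lt_mul_left (a := A.valuation ℓ) ?_ zero_le
          rw [mul_one, ← mul_assoc]
          refine lt_of_le_of_lt ?_ hab
          exact mul_le_mul' (by rw [← sq, ← map_pow]; exact ha) le_rfl
        refine ⟨lt_of_le_of_lt ?_ hlb, hlb⟩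
        rw [map_mul]
        exact le_mul_of_one_le_left zero_le hl1.le
      rcases le_max_iff.1 (hs ▸ A.valuation.map_add (x₁ - x₃) (x₂ - x₃)) with h | h
      · obtain ⟨h', h''⟩ := key _ _ h hp
        exact hb2 h' h''
      · obtain ⟨h', h''⟩ := key _ _ h (by rwa [mul_comm] at hp)
        exact hb1 h' h''

/-- Two points of `E₀` with opposite reductions add up to an element of `E₁`. -/
theorem inKernel_add_of_opposite [DecidableEq K] (hV : IntegralAt A V) {x₁ x₂ y₁ y₂ : K}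
    {h₁ : V.toAffine.Nonsingular x₁ y₁} {h₂ : V.toAffine.Nonsingular x₂ y₂}
    (hx₁ : x₁ ∈ A) (hx₂ : x₂ ∈ A) (hns : NonsingRed A (Affine.Point.some x₁ y₁ h₁))
    (hdx : A.valuation (x₁ - x₂) < 1) (hdy : A.valuation (y₁ - V.toAffine.negY x₂ y₂) < 1) :
    InKernel A (Affine.Point.some x₁ y₁ h₁ + Affine.Point.some x₂ y₂ h₂) := by
  by_cases hxy : x₁ = x₂ ∧ y₁ = V.toAffine.negY x₂ y₂
  · rw [Affine.Point.add_of_Y_eq hxy.1 hxy.2]; exact trivial
  have hy₁ := y_mem_of_x_mem hV h₁.1 hx₁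
  have hy₂ := y_mem_of_x_mem hV h₂.1 hx₂
  refine inKernel_add_of_slope hV hxy hx₁ hx₂ ?_
  rw [nonsingRed_some_iff hx₁ hy₁] at hns
  have hD : A.valuation (y₁ + y₂ + V.a₁ * x₁ + V.a₃) < 1 := by
    rw [show y₁ + y₂ + V.a₁ * x₁ + V.a₃
      = (y₁ - V.toAffine.negY x₂ y₂) + V.a₁ * (x₁ - x₂) by rw [Affine.negY]; ring]
    exact A.valuation.map_add_lt hdy (v_mul_lt_one' (v_le_one hV.a₁_mem) hdx)
  have hmul := slope_mul_eq h₁.1 h₂.1 hxy
  by_cases hψ : A.valuation (2 * y₁ + V.a₁ * x₁ + V.a₃) = 1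
  · by_cases hx : x₁ = x₂
    · have hyy := Affine.Y_eq_of_Y_ne h₁.1 h₂.1 hx fun h => hxy ⟨hx, h⟩
      rw [show y₁ + y₂ + V.a₁ * x₁ + V.a₃ = 2 * y₁ + V.a₁ * x₁ + V.a₃ by rw [← hyy]; ring] at hD
      exact absurd hψ hD.ne
    · rw [Affine.slope_of_X_ne hx, map_div₀]
      have hne := v_pos (A := A) (sub_ne_zero.2 hx)
      rw [one_lt_div₀ hne]
      refine lt_of_lt_of_eq hdx ?_
      rw [show y₁ - y₂ = (2 * y₁ + V.a₁ * x₁ + V.a₃) + -(y₁ + y₂ + V.a₁ * x₁ + V.a₃) by ring,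
        A.valuation.map_add_eq_of_lt_left, hψ]
      rw [Valuation.map_neg, hψ]; exact hD
  · have hψlt := lt_of_le_of_ne (v_le_one (polyY_mem hV hx₁ hy₁)) hψ
    have hφ := hns.resolve_right hψ
    have hy12 : A.valuation (y₁ - y₂) < 1 := by
      rw [show y₁ - y₂ = (2 * y₁ + V.a₁ * x₁ + V.a₃) - (y₁ + y₂ + V.a₁ * x₁ + V.a₃) by ring]
      exact A.valuation.map_sub_lt hψlt hD
    have hN : A.valuation (x₁ ^ 2 + x₁ * x₂ + x₂ ^ 2 + V.a₂ * (x₁ + x₂) + V.a₄ - V.a₁ * y₂)
        = 1 := by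
      rw [show x₁ ^ 2 + x₁ * x₂ + x₂ ^ 2 + V.a₂ * (x₁ + x₂) + V.a₄ - V.a₁ * y₂
        = -(V.a₁ * y₁ - (3 * x₁ ^ 2 + 2 * V.a₂ * x₁ + V.a₄))
          + (V.a₁ * (y₁ - y₂) - (x₂ + 2 * x₁ + V.a₂) * (x₁ - x₂)) by ring,
        A.valuation.map_add_eq_of_lt_left, Valuation.map_neg, hφ]
      rw [Valuation.map_neg, hφ]
      exact A.valuation.map_sub_lt (v_mul_lt_one' (v_le_one hV.a₁_mem) hy12)
        (v_mul_lt_one' (v_le_one (A.add_mem _ _ (A.add_mem _ _ hx₂ (two_mul_mem hx₁))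
          hV.a₂_mem)) hdx)
    rw [← hmul, map_mul] at hN
    by_contra hle
    rw [not_lt] at hle
    exact absurd hN (ne_of_lt ((mul_le_mul' hle le_rfl).trans_lt (by rw [one_mul]; exact hD)))

/-- The residue class of an element of `A`, `0` outside of `A`. -/
noncomputable def residueOf (A : ValuationSubring K) (x : K) : IsLocalRing.ResidueField A :=
  open scoped Classical in
  if hx : x ∈ A then IsLocalRing.residue A ⟨x, hx⟩ else 0

theorem residueOf_mem {x : K} (hx : x ∈ A) :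
    residueOf A x = IsLocalRing.residue A ⟨x, hx⟩ := by
  rw [residueOf, dif_pos hx]

theorem residueOf_add {x y : K} (hx : x ∈ A) (hy : y ∈ A) :
    residueOf A (x + y) = residueOf A x + residueOf A y := by
  rw [residueOf_mem hx, residueOf_mem hy, residueOf_mem (A.add_mem _ _ hx hy), ← map_add]
  rfl

theorem residueOf_mul {x y : K} (hx : x ∈ A) (hy : y ∈ A) :
    residueOf A (x * y) = residueOf A x * residueOf A y := by
  rw [residueOf_mem hx, residueOf_mem hy, residueOf_mem (A.mul_mem _ _ hx hy), ← map_mul]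
  rfl

theorem residueOf_neg {x : K} (hx : x ∈ A) : residueOf A (-x) = -residueOf A x := by
  rw [residueOf_mem hx, residueOf_mem (A.neg_mem _ hx), ← map_neg]
  rfl

theorem residueOf_sub {x y : K} (hx : x ∈ A) (hy : y ∈ A) :
    residueOf A (x - y) = residueOf A x - residueOf A y := by
  rw [sub_eq_add_neg, residueOf_add hx (A.neg_mem _ hy), residueOf_neg hy, sub_eq_add_neg]

theorem residueOf_pow {x : K} (hx : x ∈ A) (n : ℕ) :
    residueOf A (x ^ n) = residueOf A x ^ n := by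
  rw [residueOf_mem hx, residueOf_mem (pow_mem hx n), ← map_pow]
  rfl

theorem residueOf_natCast (n : ℕ) : residueOf A (n : K) = n := by
  rw [residueOf_mem (natCast_mem_val A n), ← map_natCast (IsLocalRing.residue A) n]
  congr 1

theorem residueOf_ofNat (n : ℕ) [n.AtLeastTwo] :
    residueOf A (OfNat.ofNat n : K) = OfNat.ofNat n := by
  rw [← Nat.cast_ofNat, residueOf_natCast, Nat.cast_ofNat]

theorem residueOf_eq_zero {x : K} (hx : x ∈ A) : residueOf A x = 0 ↔ A.valuation x < 1 := by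
  rw [residueOf_mem hx, IsLocalRing.residue_eq_zero_iff, A.valuation_lt_one_iff]

theorem residueOf_ne_zero {x : K} (hx : x ∈ A) : residueOf A x ≠ 0 ↔ A.valuation x = 1 := by
  rw [Ne, residueOf_eq_zero hx]
  exact ⟨eq_one_of_not_lt hx, fun h => h ▸ lt_irrefl _⟩

theorem redCurve_a₁ (hV : IntegralAt A V) : (redCurve hV).a₁ = residueOf A V.a₁ :=
  (residueOf_mem hV.a₁_mem).symm
theorem redCurve_a₂ (hV : IntegralAt A V) : (redCurve hV).a₂ = residueOf A V.a₂ :=
  (residueOf_mem hV.a₂_mem).symm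
theorem redCurve_a₃ (hV : IntegralAt A V) : (redCurve hV).a₃ = residueOf A V.a₃ :=
  (residueOf_mem hV.a₃_mem).symm
theorem redCurve_a₄ (hV : IntegralAt A V) : (redCurve hV).a₄ = residueOf A V.a₄ :=
  (residueOf_mem hV.a₄_mem).symm
theorem redCurve_a₆ (hV : IntegralAt A V) : (redCurve hV).a₆ = residueOf A V.a₆ :=
  (residueOf_mem hV.a₆_mem).symm

/-- The integral model over `A`. -/
def modelOver (hV : IntegralAt A V) : WeierstrassCurve A where
  a₁ := ⟨V.a₁, hV.a₁_mem⟩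
  a₂ := ⟨V.a₂, hV.a₂_mem⟩
  a₃ := ⟨V.a₃, hV.a₃_mem⟩
  a₄ := ⟨V.a₄, hV.a₄_mem⟩
  a₆ := ⟨V.a₆, hV.a₆_mem⟩

theorem modelOver_map_subtype (hV : IntegralAt A V) : (modelOver hV).map A.subtype = V := rfl

theorem modelOver_map_residue (hV : IntegralAt A V) :
    (modelOver hV).map (IsLocalRing.residue A) = redCurve hV := rfl

theorem redCurve_equation (hV : IntegralAt A V) {x y : K} (h : V.toAffine.Equation x y)
    (hx : x ∈ A) (hy : y ∈ A) :
    (redCurve hV).toAffine.Equation (residueOf A x) (residueOf A y) := by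
  rw [residueOf_mem hx, residueOf_mem hy, ← modelOver_map_residue hV]
  refine Affine.Equation.map _ ?_
  rw [← modelOver_map_subtype hV] at h
  exact ((modelOver hV).toAffine.map_equation (f := A.subtype) A.subtype_injective
    (⟨x, hx⟩ : A) (⟨y, hy⟩ : A)).1 h

theorem redCurve_nonsingular_iff (hV : IntegralAt A V) {x y : K}
    {h : V.toAffine.Nonsingular x y} (hx : x ∈ A) (hy : y ∈ A) :
    (redCurve hV).toAffine.Nonsingular (residueOf A x) (residueOf A y)
      ↔ NonsingRed A (Affine.Point.some x y h) := by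
  rw [Affine.nonsingular_iff', nonsingRed_some_iff hx hy, redCurve_a₁, redCurve_a₂, redCurve_a₃,
    redCurve_a₄, and_iff_right (redCurve_equation hV h.1 hx hy)]
  have e1 : residueOf A (V.a₁ * y - (3 * x ^ 2 + 2 * V.a₂ * x + V.a₄))
      = residueOf A V.a₁ * residueOf A y - (3 * residueOf A x ^ 2
        + 2 * residueOf A V.a₂ * residueOf A x + residueOf A V.a₄) := by
    have m2 := two_mul_mem hV.a₂_mem
    have m3 := A.mul_mem _ _ (ofNat_mem A 3) (pow_mem hx 2)
    have m4 := A.mul_mem _ _ m2 hx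
    rw [residueOf_sub (A.mul_mem _ _ hV.a₁_mem hy)
        (A.add_mem _ _ (A.add_mem _ _ m3 m4) hV.a₄_mem),
      residueOf_mul hV.a₁_mem hy, residueOf_add (A.add_mem _ _ m3 m4) hV.a₄_mem,
      residueOf_add m3 m4, residueOf_mul (ofNat_mem A 3) (pow_mem hx 2), residueOf_pow hx,
      residueOf_mul m2 hx, residueOf_mul (ofNat_mem A 2) hV.a₂_mem, residueOf_ofNat,
      residueOf_ofNat]
  have e2 : residueOf A (2 * y + V.a₁ * x + V.a₃)
      = 2 * residueOf A y + residueOf A V.a₁ * residueOf A x + residueOf A V.a₃ := by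
    have m2 := two_mul_mem hy
    have m3 := A.mul_mem _ _ hV.a₁_mem hx
    rw [residueOf_add (A.add_mem _ _ m2 m3) hV.a₃_mem, residueOf_add m2 m3,
      residueOf_mul (ofNat_mem A 2) hy, residueOf_mul hV.a₁_mem hx, residueOf_ofNat]
  rw [← e1, ← e2, residueOf_ne_zero (polyX_mem hV hx hy), residueOf_ne_zero (polyY_mem hV hx hy)]

theorem redPoint_zero (hV : IntegralAt A V) : redPoint hV (0 : V.toAffine.Point) = 0 := rfl

theorem redPoint_of_inKernel (hV : IntegralAt A V) {P : V.toAffine.Point} (h : InKernel A P) :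
    redPoint hV P = 0 := by
  match P, h with
  | .zero, _ => rfl
  | .some x y hn, h =>
    rw [redPoint, dif_neg]
    · rfl
    · rintro ⟨hx, -⟩; exact h hx

theorem redPoint_some (hV : IntegralAt A V) {x y : K} {h : V.toAffine.Nonsingular x y}
    (hx : x ∈ A) (hy : y ∈ A) (hP : NonsingRed A (Affine.Point.some x y h)) :
    redPoint hV (Affine.Point.some x y h) = Affine.Point.some (residueOf A x) (residueOf A y)
      ((redCurve_nonsingular_iff hV hx hy).2 hP) := by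
  have hex : ∃ (hx : x ∈ A) (hy : y ∈ A), (redCurve hV).toAffine.Nonsingular
      (IsLocalRing.residue A ⟨x, hx⟩) (IsLocalRing.residue A ⟨y, hy⟩) := by
    refine ⟨hx, hy, ?_⟩
    rw [← residueOf_mem hx, ← residueOf_mem hy]
    exact (redCurve_nonsingular_iff hV hx hy).2 hP
  rw [redPoint, dif_pos hex, Affine.Point.some.injEq]
  exact ⟨(residueOf_mem hx).symm, (residueOf_mem hy).symm⟩

theorem redPoint_eq_zero_iff (hV : IntegralAt A V) {P : V.toAffine.Point}
    (hP : NonsingRed A P) : redPoint hV P = 0 ↔ InKernel A P := by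
  refine ⟨fun h => ?_, redPoint_of_inKernel hV⟩
  match P, hP, h with
  | .zero, _, _ => exact trivial
  | .some x y hn, hP, h =>
    intro hx
    rw [redPoint_some hV hx (y_mem_of_x_mem hV hn.1 hx) hP] at h
    exact Affine.Point.some_ne_zero _ h

theorem redCurve_negY (hV : IntegralAt A V) {x y : K} (hx : x ∈ A) (hy : y ∈ A) :
    residueOf A (V.toAffine.negY x y)
      = (redCurve hV).toAffine.negY (residueOf A x) (residueOf A y) := by
  rw [Affine.negY, Affine.negY, residueOf_sub (A.toSubring.sub_mem (A.neg_mem _ hy)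
      (A.mul_mem _ _ hV.a₁_mem hx)) hV.a₃_mem,
    residueOf_sub (A.neg_mem _ hy) (A.mul_mem _ _ hV.a₁_mem hx), residueOf_neg hy,
    residueOf_mul hV.a₁_mem hx, redCurve_a₁, redCurve_a₃]

theorem redPoint_neg (hV : IntegralAt A V) {P : V.toAffine.Point} (hP : NonsingRed A P) :
    redPoint hV (-P) = -redPoint hV P := by
  match P, hP with
  | .zero, _ => rfl
  | .some x y h, hP =>
    by_cases hx : x ∈ A
    · have hy := y_mem_of_x_mem hV h.1 hx
      have hn := NonsingRed.neg hV hP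
      simp only [Affine.Point.neg_some] at hn ⊢
      rw [redPoint_some hV hx (negY_mem hV hx hy) hn, redPoint_some hV hx hy hP,
        Affine.Point.neg_some, Affine.Point.some.injEq]
      exact ⟨rfl, redCurve_negY hV hx hy⟩
    · rw [redPoint_of_inKernel hV (P := Affine.Point.some x y h) hx, Affine.Point.neg_some,
        redPoint_of_inKernel hV (by exact hx)]
      rfl

section Add

variable [DecidableEq K]

/-- Non-opposite reductions: the sum is integral and reduces to the sum. -/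
theorem redPoint_add_of_not_opposite [DecidableEq (IsLocalRing.ResidueField A)]
    (hV : IntegralAt A V) {x₁ x₂ y₁ y₂ : K}
    {h₁ : V.toAffine.Nonsingular x₁ y₁} {h₂ : V.toAffine.Nonsingular x₂ y₂}
    (hx₁ : x₁ ∈ A) (hx₂ : x₂ ∈ A) (hn₁ : NonsingRed A (Affine.Point.some x₁ y₁ h₁))
    (hn₂ : NonsingRed A (Affine.Point.some x₂ y₂ h₂))
    (hopp : ¬(A.valuation (x₁ - x₂) < 1 ∧ A.valuation (y₁ - V.toAffine.negY x₂ y₂) < 1)) :
    ¬ InKernel A (Affine.Point.some x₁ y₁ h₁ + Affine.Point.some x₂ y₂ h₂) ∧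
    redPoint hV (Affine.Point.some x₁ y₁ h₁ + Affine.Point.some x₂ y₂ h₂)
      = redPoint hV (Affine.Point.some x₁ y₁ h₁) + redPoint hV (Affine.Point.some x₂ y₂ h₂) := by
  have hy₁ := y_mem_of_x_mem hV h₁.1 hx₁
  have hy₂ := y_mem_of_x_mem hV h₂.1 hx₂
  have hd : x₁ - x₂ ∈ A := A.toSubring.sub_mem hx₁ hx₂
  have he : y₁ - V.toAffine.negY x₂ y₂ ∈ A :=
    A.toSubring.sub_mem hy₁ (negY_mem hV hx₂ hy₂)
  have hxy : ¬(x₁ = x₂ ∧ y₁ = V.toAffine.negY x₂ y₂) := fun h =>
    hopp ⟨by rw [h.1, sub_self, map_zero]; exact zero_lt_one,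
      by rw [h.2, sub_self, map_zero]; exact zero_lt_one⟩
  have hr : ¬(residueOf A x₁ = residueOf A x₂ ∧
      residueOf A y₁ = (redCurve hV).toAffine.negY (residueOf A x₂) (residueOf A y₂)) := by
    rintro ⟨e1, e2⟩
    refine hopp ⟨(residueOf_eq_zero hd).1 ?_, (residueOf_eq_zero he).1 ?_⟩
    · rw [residueOf_sub hx₁ hx₂, e1, sub_self]
    · rw [residueOf_sub hy₁ (negY_mem hV hx₂ hy₂), e2, redCurve_negY hV hx₂ hy₂, sub_self]
  -- the slope is integral and reduces to the slope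
  have hslope : V.toAffine.slope x₁ x₂ y₁ y₂ ∈ A ∧
      residueOf A (V.toAffine.slope x₁ x₂ y₁ y₂) = (redCurve hV).toAffine.slope
        (residueOf A x₁) (residueOf A x₂) (residueOf A y₁) (residueOf A y₂) := by
    by_cases hx : residueOf A x₁ = residueOf A x₂
    · have hyne := fun h => hr ⟨hx, h⟩
      have hyy := Affine.Y_eq_of_Y_ne (redCurve_equation hV h₁.1 hx₁ hy₁)
        (redCurve_equation hV h₂.1 hx₂ hy₂) hx hyne
      have hmul := slope_mul_eq h₁.1 h₂.1 hxy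
      have m1 := A.mul_mem _ _ hV.a₁_mem hx₁
      have hDm : y₁ + y₂ + V.a₁ * x₁ + V.a₃ ∈ A :=
        A.add_mem _ _ (A.add_mem _ _ (A.add_mem _ _ hy₁ hy₂) m1) hV.a₃_mem
      have hDr : residueOf A (y₁ + y₂ + V.a₁ * x₁ + V.a₃)
          = residueOf A y₁ - (redCurve hV).toAffine.negY (residueOf A x₁) (residueOf A y₁) := by
        rw [residueOf_add (A.add_mem _ _ (A.add_mem _ _ hy₁ hy₂) m1) hV.a₃_mem,
          residueOf_add (A.add_mem _ _ hy₁ hy₂) m1, residueOf_add hy₁ hy₂,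
          residueOf_mul hV.a₁_mem hx₁, Affine.negY, redCurve_a₁, redCurve_a₃, ← hyy]
        ring
      have hD0 : residueOf A (y₁ + y₂ + V.a₁ * x₁ + V.a₃) ≠ 0 := by
        rw [hDr, sub_ne_zero]
        intro h
        exact hyne (by rwa [← hx, ← hyy])
      have hDu := (residueOf_ne_zero hDm).1 hD0
      have hNm : x₁ ^ 2 + x₁ * x₂ + x₂ ^ 2 + V.a₂ * (x₁ + x₂) + V.a₄ - V.a₁ * y₂ ∈ A :=
        A.toSubring.sub_mem (A.add_mem _ _ (A.add_mem _ _ (A.add_mem _ _ (A.add_mem _ _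
          (pow_mem hx₁ 2) (A.mul_mem _ _ hx₁ hx₂)) (pow_mem hx₂ 2))
          (A.mul_mem _ _ hV.a₂_mem (A.add_mem _ _ hx₁ hx₂))) hV.a₄_mem)
          (A.mul_mem _ _ hV.a₁_mem hy₂)
      have hlA : V.toAffine.slope x₁ x₂ y₁ y₂ ∈ A := by
        rw [← A.valuation_le_one_iff]
        have := congrArg A.valuation hmul
        rw [map_mul, hDu, mul_one] at this
        rw [this]; exact v_le_one hNm
      refine ⟨hlA, ?_⟩
      rw [Affine.slope_of_Y_ne hx hyne, eq_div_iff (hDr ▸ hD0), ← hDr,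
        ← residueOf_mul hlA hDm, hmul]
      rw [residueOf_sub (A.add_mem _ _ (A.add_mem _ _ (A.add_mem _ _ (A.add_mem _ _
          (pow_mem hx₁ 2) (A.mul_mem _ _ hx₁ hx₂)) (pow_mem hx₂ 2))
          (A.mul_mem _ _ hV.a₂_mem (A.add_mem _ _ hx₁ hx₂))) hV.a₄_mem)
          (A.mul_mem _ _ hV.a₁_mem hy₂),
        residueOf_add (A.add_mem _ _ (A.add_mem _ _ (A.add_mem _ _
          (pow_mem hx₁ 2) (A.mul_mem _ _ hx₁ hx₂)) (pow_mem hx₂ 2))
          (A.mul_mem _ _ hV.a₂_mem (A.add_mem _ _ hx₁ hx₂))) hV.a₄_mem,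
        residueOf_add (A.add_mem _ _ (A.add_mem _ _ (pow_mem hx₁ 2) (A.mul_mem _ _ hx₁ hx₂))
          (pow_mem hx₂ 2)) (A.mul_mem _ _ hV.a₂_mem (A.add_mem _ _ hx₁ hx₂)),
        residueOf_add (A.add_mem _ _ (pow_mem hx₁ 2) (A.mul_mem _ _ hx₁ hx₂)) (pow_mem hx₂ 2),
        residueOf_add (pow_mem hx₁ 2) (A.mul_mem _ _ hx₁ hx₂), residueOf_pow hx₁,
        residueOf_pow hx₂, residueOf_mul hx₁ hx₂,
        residueOf_mul hV.a₂_mem (A.add_mem _ _ hx₁ hx₂), residueOf_add hx₁ hx₂,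
        residueOf_mul hV.a₁_mem hy₂, redCurve_a₁, redCurve_a₂, redCurve_a₄, ← hx, ← hyy]
      ring
    · have hdu : A.valuation (x₁ - x₂) = 1 := by
        rw [← residueOf_ne_zero hd, residueOf_sub hx₁ hx₂, sub_ne_zero]; exact hx
      have hxne : x₁ ≠ x₂ := fun h => hx (by rw [h])
      have hlA : V.toAffine.slope x₁ x₂ y₁ y₂ ∈ A := by
        rw [← A.valuation_le_one_iff, Affine.slope_of_X_ne hxne, map_div₀, hdu, div_one]
        exact v_le_one (A.toSubring.sub_mem hy₁ hy₂)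
      refine ⟨hlA, ?_⟩
      rw [Affine.slope_of_X_ne hx, eq_div_iff (sub_ne_zero.2 hx), ← residueOf_sub hx₁ hx₂,
        ← residueOf_mul hlA hd, Affine.slope_of_X_ne hxne,
        div_mul_cancel₀ _ (sub_ne_zero.2 hxne), residueOf_sub hy₁ hy₂]
  obtain ⟨hlA, hlr⟩ := hslope
  have m1 := pow_mem hlA 2
  have m2 := A.mul_mem _ _ hV.a₁_mem hlA
  have m12 := A.toSubring.sub_mem (A.add_mem _ _ m1 m2) hV.a₂_mem
  have hXA : V.toAffine.addX x₁ x₂ (V.toAffine.slope x₁ x₂ y₁ y₂) ∈ A :=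
    A.toSubring.sub_mem (A.toSubring.sub_mem m12 hx₁) hx₂
  have hXr : residueOf A (V.toAffine.addX x₁ x₂ (V.toAffine.slope x₁ x₂ y₁ y₂))
      = (redCurve hV).toAffine.addX (residueOf A x₁) (residueOf A x₂)
          ((redCurve hV).toAffine.slope
            (residueOf A x₁) (residueOf A x₂) (residueOf A y₁) (residueOf A y₂)) := by
    rw [Affine.addX, Affine.addX, residueOf_sub (A.toSubring.sub_mem m12 hx₁) hx₂,
      residueOf_sub m12 hx₁, residueOf_sub (A.add_mem _ _ m1 m2) hV.a₂_mem, residueOf_add m1 m2,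
      residueOf_pow hlA, residueOf_mul hV.a₁_mem hlA, hlr, redCurve_a₁, redCurve_a₂]
  have md := A.toSubring.sub_mem hXA hx₁
  have hN : V.toAffine.negAddY x₁ x₂ y₁ (V.toAffine.slope x₁ x₂ y₁ y₂) ∈ A :=
    A.add_mem _ _ (A.mul_mem _ _ hlA md) hy₁
  have hYA : V.toAffine.addY x₁ x₂ y₁ (V.toAffine.slope x₁ x₂ y₁ y₂) ∈ A :=
    negY_mem hV hXA hN
  have hYr : residueOf A (V.toAffine.addY x₁ x₂ y₁ (V.toAffine.slope x₁ x₂ y₁ y₂))
      = (redCurve hV).toAffine.addY (residueOf A x₁) (residueOf A x₂) (residueOf A y₁)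
          ((redCurve hV).toAffine.slope
            (residueOf A x₁) (residueOf A x₂) (residueOf A y₁) (residueOf A y₂)) := by
    rw [Affine.addY, Affine.addY, redCurve_negY hV hXA hN, hXr, Affine.negAddY, Affine.negAddY,
      residueOf_add (A.mul_mem _ _ hlA md) hy₁, residueOf_mul hlA md, residueOf_sub hXA hx₁,
      hXr, hlr]
  rw [Affine.Point.add_some hxy]
  refine ⟨fun h => h hXA, ?_⟩
  have hns : NonsingRed A (Affine.Point.some _ _ (Affine.nonsingular_add h₁ h₂ hxy)) := by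
    rw [← redCurve_nonsingular_iff hV hXA hYA, hXr, hYr]
    exact Affine.nonsingular_add ((redCurve_nonsingular_iff hV hx₁ hy₁).2 hn₁)
      ((redCurve_nonsingular_iff hV hx₂ hy₂).2 hn₂) hr
  rw [redPoint_some hV hXA hYA hns, redPoint_some hV hx₁ hy₁ hn₁, redPoint_some hV hx₂ hy₂ hn₂,
    Affine.Point.add_some hr, Affine.Point.some.injEq]
  exact ⟨hXr, hYr⟩

/-- Two points of `E₀` reducing to each other's negative, or with a difference in `E₁`. -/
theorem redPoint_eq_of_sub_inKernel (hV : IntegralAt A V) {P Q : V.toAffine.Point}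
    (hP : NonsingRed A P) (hQ : NonsingRed A Q) (h : InKernel A (P - Q)) :
    redPoint hV P = redPoint hV Q := by
  classical
  by_cases hQ1 : InKernel A Q
  · have : InKernel A P := by
      rw [← sub_add_cancel P Q]; exact h.add hV hQ1
    rw [redPoint_of_inKernel hV this, redPoint_of_inKernel hV hQ1]
  have hP1 : ¬ InKernel A P := fun hP1 => hQ1 (by
    rw [show Q = P + -(P - Q) by abel]; exact hP1.add hV (h.neg hV))
  match P, Q with
  | .zero, _ => exact absurd trivial hP1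
  | .some x₁ y₁ h₁, .zero => exact absurd trivial hQ1
  | .some x₁ y₁ h₁, .some x₂ y₂ h₂ =>
    rw [inKernel_some_iff, not_not] at hP1 hQ1
    have hy₁ := y_mem_of_x_mem hV h₁.1 hP1
    have hy₂ := y_mem_of_x_mem hV h₂.1 hQ1
    rw [redPoint_some hV hP1 hy₁ hP, redPoint_some hV hQ1 hy₂ hQ, Affine.Point.some.injEq]
    by_contra hne
    rw [sub_eq_add_neg, Affine.Point.neg_some] at h
    have hQ' := NonsingRed.neg hV hQ
    rw [Affine.Point.neg_some] at hQ'
    refine (redPoint_add_of_not_opposite hV hP1 hQ1 hP hQ' ?_).1 h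
    rintro ⟨hd, he⟩
    rw [Affine.negY_negY] at he
    apply hne
    rw [← sub_eq_zero, ← residueOf_sub hP1 hQ1,
      ← sub_eq_zero (a := residueOf A y₁), ← residueOf_sub hy₁ hy₂]
    exact ⟨(residueOf_eq_zero (A.toSubring.sub_mem hP1 hQ1)).2 hd,
      (residueOf_eq_zero (A.toSubring.sub_mem hy₁ hy₂)).2 he⟩

/-- The reduction map is additive on `E₀`. -/
theorem redPoint_add [DecidableEq (IsLocalRing.ResidueField A)] (hV : IntegralAt A V)
    {P Q : V.toAffine.Point} (hP : NonsingRed A P) (hQ : NonsingRed A Q) :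
    redPoint hV (P + Q) = redPoint hV P + redPoint hV Q := by
  by_cases hP1 : InKernel A P
  · rw [redPoint_of_inKernel hV hP1, zero_add]
    refine redPoint_eq_of_sub_inKernel hV (hP.add hV hQ) hQ ?_
    rw [add_sub_cancel_right]; exact hP1
  by_cases hQ1 : InKernel A Q
  · rw [redPoint_of_inKernel hV hQ1, add_zero]
    refine redPoint_eq_of_sub_inKernel hV (hP.add hV hQ) hP ?_
    rw [add_sub_cancel_left]; exact hQ1
  match P, Q with
  | .zero, _ => exact absurd trivial hP1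
  | .some x₁ y₁ h₁, .zero => exact absurd trivial hQ1
  | .some x₁ y₁ h₁, .some x₂ y₂ h₂ =>
    rw [inKernel_some_iff, not_not] at hP1 hQ1
    by_cases hopp : A.valuation (x₁ - x₂) < 1 ∧ A.valuation (y₁ - V.toAffine.negY x₂ y₂) < 1
    · have hy₁ := y_mem_of_x_mem hV h₁.1 hP1
      have hy₂ := y_mem_of_x_mem hV h₂.1 hQ1
      rw [redPoint_of_inKernel hV (inKernel_add_of_opposite hV hP1 hQ1 hP hopp.1 hopp.2),
        redPoint_some hV hP1 hy₁ hP, redPoint_some hV hQ1 hy₂ hQ, Affine.Point.add_of_Y_eq]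
      · rw [← sub_eq_zero, ← residueOf_sub hP1 hQ1]
        exact (residueOf_eq_zero (A.toSubring.sub_mem hP1 hQ1)).2 hopp.1
      · rw [← sub_eq_zero, ← redCurve_negY hV hQ1 hy₂,
          ← residueOf_sub hy₁ (negY_mem hV hQ1 hy₂)]
        exact (residueOf_eq_zero (A.toSubring.sub_mem hy₁ (negY_mem hV hQ1 hy₂))).2 hopp.2
    · exact (redPoint_add_of_not_opposite hV hP1 hQ1 hP hQ hopp).2

end Add

end Fermat.Agent.ECLocal
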